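/-
DS-T / cell [G1]: the objects of the `Γ₁(M)` tower.

Levels `(M, N)` with `M ∣ N` (the cases used are `N = M` and `N = M p`): the group is
`Γ = ±Γ₁(M) ∩ Γ₀(N)`, the modular curve is `X(Γ)`, in the model with RATIONAL `q`-expansions
`(E, P) = (𝔾ₘ / q^{Mℤ}, q)`.

* `g1f_Gpm M`      : the subgroup `±Γ₁(M)` of `SL(2, ℤ)`;  `g1f_G M N := ±Γ₁(M) ⊓ Γ₀(N)`;
* `g1w_sZ M a`     : `s_a = ∑_{m ≥ 1, m ≡ ±a (M)} ∑_{r ≥ 1} r³ q^{m r} ∈ ℤ[[q]]`
                     (the `q`-expansion of `(3!/(2πi)⁴) ∑_{c ≡ a (M), d} (c τ + d)⁻⁴`);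
* `g1w_w R M a`    : the generator `w_a = s_a E₄² / Δ ∈ R((q))`, for EVERY commutative ring `R`
                     (`g1w_wZ M a` over `ℤ`), natural in `R` (`g1w_coeffMap_w`), `w_{-a} = w_a`;
* `g1f_gens K M N` : the generators `j(q^d)` (`d ∣ N`) and `w_a(q^e)` (`e M ∣ N`, `a ∈ (ℤ/M)ˣ`);
* `g1f_FC K M N`   : the function field `K(g1f_gens) ⊆ K((q))` over EVERY field `K`;
* `g1f_F M N`      : the field over `ℚ`;  `g1f_Fbar M N := laurentBaseChange Q̄ (g1f_F M N)`;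
* `g1f_J M N`      : `J = Pic⁰(F̄)`, with the prelude's generic coefficientwise Galois action.
-/
import Mathlib
import Fermat.Prelude.Def_ModularCurve_X0
import Fermat.Prelude.Def_ModularCurve_X0ModL
import Fermat.Prelude.Def_ModularCurve_LaurentCoeff
import Fermat.Prelude.Def_AlgebraicCurve_DivisorClassGroup
import Fermat.Prelude.Thm_ModularCurve_coeffMap_qExpand

set_option autoImplicit false

noncomputable section

open CongruenceSubgroup ModularCurve IntermediateField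
open scoped MatrixGroups

namespace Fermat.Agent.DS

/-! ### The groups -/

/-- the subgroup `±Γ₁(M)`: lower left entry `≡ 0`, lower right entry `≡ ±1` modulo `M` -/
def g1f_Gpm (M : ℕ) : Subgroup SL(2, ℤ) where
  carrier := {γ | ((γ 1 0 : ℤ) : ZMod M) = 0 ∧
    (((γ 1 1 : ℤ) : ZMod M) = 1 ∨ ((γ 1 1 : ℤ) : ZMod M) = -1)}
  mul_mem' := by
    intro γ δ hγ hδ
    obtain ⟨hγ0, hγ1⟩ := hγ
    obtain ⟨hδ0, hδ1⟩ := hδ
    have h10 : ((γ * δ) 1 0 : ℤ) = γ 1 0 * δ 0 0 + γ 1 1 * δ 1 0 := by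
      simp [Matrix.SpecialLinearGroup.coe_mul, Matrix.mul_apply, Fin.sum_univ_two]
    have h11 : ((γ * δ) 1 1 : ℤ) = γ 1 0 * δ 0 1 + γ 1 1 * δ 1 1 := by
      simp [Matrix.SpecialLinearGroup.coe_mul, Matrix.mul_apply, Fin.sum_univ_two]
    refine ⟨?_, ?_⟩
    · rw [h10]
      push_cast
      rw [hγ0, hδ0]
      ring
    · rw [h11]
      push_cast
      rw [hγ0]
      rcases hγ1 with h | h <;> rcases hδ1 with h' | h' <;> rw [h, h'] <;> simp
  one_mem' := by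
    refine ⟨by simp, Or.inl (by simp)⟩
  inv_mem' := by
    intro γ hγ
    obtain ⟨hγ0, hγ1⟩ := hγ
    have hdet : γ 0 0 * γ 1 1 - γ 0 1 * γ 1 0 = 1 := by
      have := γ.det_coe
      rw [Matrix.det_fin_two] at this
      exact this
    have hdetM : ((γ 0 0 : ℤ) : ZMod M) * ((γ 1 1 : ℤ) : ZMod M) = 1 := by
      have := congrArg (fun x : ℤ => (x : ZMod M)) hdet
      push_cast at this
      rw [hγ0] at this
      simpa using this
    have h10 : ((γ⁻¹) 1 0 : ℤ) = -γ 1 0 := by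
      simp [Matrix.SpecialLinearGroup.coe_inv, Matrix.adjugate_fin_two]
    have h11 : ((γ⁻¹) 1 1 : ℤ) = γ 0 0 := by
      simp [Matrix.SpecialLinearGroup.coe_inv, Matrix.adjugate_fin_two]
    refine ⟨?_, ?_⟩
    · rw [h10]
      push_cast
      rw [hγ0, neg_zero]
    · rw [h11]
      rcases hγ1 with h | h
      · left
        rw [h, mul_one] at hdetM
        exact hdetM
      · right
        rw [h, mul_neg, mul_one] at hdetM
        rw [← hdetM, neg_neg]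

theorem g1f_mem_Gpm {M : ℕ} {γ : SL(2, ℤ)} :
    γ ∈ g1f_Gpm M ↔ ((γ 1 0 : ℤ) : ZMod M) = 0 ∧
      (((γ 1 1 : ℤ) : ZMod M) = 1 ∨ ((γ 1 1 : ℤ) : ZMod M) = -1) := Iff.rfl

theorem g1f_neg_one_mem_Gpm (M : ℕ) : (-1 : SL(2, ℤ)) ∈ g1f_Gpm M := by
  rw [g1f_mem_Gpm]
  refine ⟨by simp, Or.inr (by simp)⟩

theorem g1f_Gamma1_le_Gpm (M : ℕ) : Gamma1 M ≤ g1f_Gpm M := by
  intro γ hγ
  rw [Gamma1_mem] at hγ
  exact ⟨hγ.2.2, Or.inl hγ.2.1⟩

theorem g1f_Gpm_le_Gamma0 (M : ℕ) : g1f_Gpm M ≤ Gamma0 M := by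
  intro γ hγ
  rw [Gamma0_mem]
  exact hγ.1

theorem g1f_Gamma_le_Gpm (M : ℕ) : CongruenceSubgroup.Gamma M ≤ g1f_Gpm M := by
  intro γ hγ
  rw [Gamma_mem] at hγ
  exact ⟨hγ.2.2.1, Or.inl hγ.2.2.2⟩

/-- the upper left entry of an element of `±Γ₁(M)` is `±1` as well -/
theorem g1f_Gpm_apply_zero_zero {M : ℕ} {γ : SL(2, ℤ)} (hγ : γ ∈ g1f_Gpm M) :
    ((γ 0 0 : ℤ) : ZMod M) = ((γ 1 1 : ℤ) : ZMod M) := by
  obtain ⟨hγ0, hγ1⟩ := hγ
  have hdet : γ 0 0 * γ 1 1 - γ 0 1 * γ 1 0 = 1 := by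
    have := γ.det_coe
    rw [Matrix.det_fin_two] at this
    exact this
  have hdetM : ((γ 0 0 : ℤ) : ZMod M) * ((γ 1 1 : ℤ) : ZMod M) = 1 := by
    have := congrArg (fun x : ℤ => (x : ZMod M)) hdet
    push_cast at this
    rw [hγ0] at this
    simpa using this
  rcases hγ1 with h | h
  · rw [h, mul_one] at hdetM
    rw [hdetM, h]
  · rw [h, mul_neg, mul_one] at hdetM
    rw [h, ← hdetM, neg_neg]

/-- the group `±Γ₁(M) ∩ Γ₀(N)` -/
def g1f_G (M N : ℕ) : Subgroup SL(2, ℤ) := g1f_Gpm M ⊓ Gamma0 N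

theorem g1f_mem_G {M N : ℕ} {γ : SL(2, ℤ)} :
    γ ∈ g1f_G M N ↔ γ ∈ g1f_Gpm M ∧ γ ∈ Gamma0 N := Iff.rfl

theorem g1f_G_self (M : ℕ) : g1f_G M M = g1f_Gpm M :=
  inf_eq_left.mpr (g1f_Gpm_le_Gamma0 M)

theorem g1f_neg_one_mem_G (M N : ℕ) : (-1 : SL(2, ℤ)) ∈ g1f_G M N := by
  refine ⟨g1f_neg_one_mem_Gpm M, ?_⟩
  show (-1 : SL(2, ℤ)) ∈ Gamma0 N
  rw [Gamma0_mem]
  simp

theorem g1f_Gamma_le_G {M N : ℕ} (h : M ∣ N) : CongruenceSubgroup.Gamma N ≤ g1f_G M N := by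
  intro γ hγ
  rw [Gamma_mem] at hγ
  refine ⟨⟨?_, Or.inl ?_⟩, ?_⟩
  · have := congrArg (ZMod.castHom h (ZMod M)) hγ.2.2.1
    simpa using this
  · have := congrArg (ZMod.castHom h (ZMod M)) hγ.2.2.2
    rw [map_intCast, map_one] at this
    exact this
  · show γ ∈ Gamma0 N
    rw [Gamma0_mem]
    exact hγ.2.2.1

theorem g1f_G_le_Gamma0 (M N : ℕ) : g1f_G M N ≤ Gamma0 N := inf_le_right

theorem g1f_G_le_Gpm (M N : ℕ) : g1f_G M N ≤ g1f_Gpm M := inf_le_left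

theorem g1f_G_anti {M N N' : ℕ} (h : N ∣ N') : g1f_G M N' ≤ g1f_G M N := by
  intro γ hγ
  refine ⟨hγ.1, ?_⟩
  have h2 : γ ∈ Gamma0 N' := hγ.2
  show γ ∈ Gamma0 N
  rw [Gamma0_mem, ZMod.intCast_zmod_eq_zero_iff_dvd] at h2 ⊢
  exact (Int.natCast_dvd_natCast.mpr h).trans h2

/-! ### The generator `w_a` -/

/-- the weight `[m ≡ a] + [m ≡ -a]` -/
def g1w_wt (M : ℕ) (a : ZMod M) (m : ℕ) : ℤ :=
  (if (m : ZMod M) = a then 1 else 0) + (if (m : ZMod M) = -a then 1 else 0)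

theorem g1w_wt_neg (M : ℕ) (a : ZMod M) (m : ℕ) : g1w_wt M (-a) m = g1w_wt M a m := by
  rw [g1w_wt, g1w_wt, neg_neg, add_comm]

/-- `s_a = ∑_{m ≥ 1, m ≡ ±a (M)} ∑_{r ≥ 1} r³ q^{m r} ∈ ℤ[[q]]` -/
def g1w_sZ (M : ℕ) (a : ZMod M) : PowerSeries ℤ :=
  PowerSeries.mk fun n => ∑ m ∈ n.divisors, g1w_wt M a m * ((n / m : ℕ) : ℤ) ^ 3

theorem g1w_coeff_sZ (M : ℕ) (a : ZMod M) (n : ℕ) :
    PowerSeries.coeff n (g1w_sZ M a) = ∑ m ∈ n.divisors, g1w_wt M a m * ((n / m : ℕ) : ℤ) ^ 3 :=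
  PowerSeries.coeff_mk _ _

theorem g1w_sZ_neg (M : ℕ) (a : ZMod M) : g1w_sZ M (-a) = g1w_sZ M a := by
  ext n
  rw [g1w_coeff_sZ, g1w_coeff_sZ]
  exact Finset.sum_congr rfl fun m _ => by rw [g1w_wt_neg]

/-- the power series `s_a E₄² (Δ/q)⁻¹ ∈ ℤ[[q]]` -/
def g1w_numZ (M : ℕ) (a : ZMod M) : PowerSeries ℤ :=
  g1w_sZ M a * eisenstein4 ^ 2 * dedekindEtaUnitInv

/-- **the generator** `w_a = s_a E₄² / Δ ∈ R((q))` -/
def g1w_w (R : Type*) [CommRing R] (M : ℕ) (a : ZMod M) : LaurentSeries R :=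
  HahnSeries.single (-1 : ℤ) 1 *
    HahnSeries.ofPowerSeries ℤ R ((g1w_numZ M a).map (Int.castRingHom R))

/-- the generator over `ℤ` -/
abbrev g1w_wZ (M : ℕ) (a : ZMod M) : LaurentSeries ℤ := g1w_w ℤ M a

theorem g1w_w_neg (R : Type*) [CommRing R] (M : ℕ) (a : ZMod M) :
    g1w_w R M (-a) = g1w_w R M a := by
  rw [g1w_w, g1w_w, g1w_numZ, g1w_numZ, g1w_sZ_neg]

/-- naturality in the coefficient ring -/
theorem g1w_coeffMap_w {R S : Type*} [CommRing R] [CommRing S] (f : R →+* S) (M : ℕ)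
    (a : ZMod M) : coeffMap f (g1w_w R M a) = g1w_w S M a := by
  rw [g1w_w, map_mul, coeffMap_single, map_one, coeffMap_ofPowerSeries,
    ← RingHom.comp_apply (PowerSeries.map f) (PowerSeries.map (Int.castRingHom R)),
    ← PowerSeries.map_comp, RingHom.ext_int (f.comp (Int.castRingHom R)) (Int.castRingHom S)]
  rfl

theorem g1w_w_eq_coeffMap (R : Type*) [CommRing R] (M : ℕ) (a : ZMod M) :
    g1w_w R M a = coeffMap (Int.castRingHom R) (g1w_wZ M a) :=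
  (g1w_coeffMap_w (Int.castRingHom R) M a).symm

/-! ### The function fields -/

section Field

variable (K : Type*) [Field K] (M N : ℕ)

/-- the `Γ₁(M)`-generators `w_a(q^e)`, `e M ∣ N`, `a ∈ (ℤ/M)ˣ` -/
def g1f_wExpansions : Set (LaurentSeries K) :=
  {x | ∃ (e : ℕ) (_ : NeZero e) (a : (ZMod M)ˣ), e * M ∣ N ∧
    x = qExpand K e (g1w_w K M (a : ZMod M))}

/-- the generators: `j(q^d)`, `d ∣ N`, and `w_a(q^e)`, `e M ∣ N`, `a ∈ (ℤ/M)ˣ` -/
def g1f_gens : Set (LaurentSeries K) := divisorExpansionsC K N ∪ g1f_wExpansions K M N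

/-- **the function field of `X(±Γ₁(M) ∩ Γ₀(N))` over `K`**, inside `K((q))` -/
def g1f_FC : IntermediateField K (LaurentSeries K) := IntermediateField.adjoin K (g1f_gens K M N)

variable {K M N}

theorem g1f_jd_mem_gens {d : ℕ} [NeZero d] (hd : d ∣ N) :
    qExpand K d (jqModC K) ∈ g1f_gens K M N :=
  Or.inl (mem_divisorExpansionsC K N hd)

theorem g1f_w_mem_gens {e : ℕ} [NeZero e] (he : e * M ∣ N) (a : (ZMod M)ˣ) :
    qExpand K e (g1w_w K M (a : ZMod M)) ∈ g1f_gens K M N :=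
  Or.inr ⟨e, inferInstance, a, he, rfl⟩

theorem g1f_jd_mem_FC {d : ℕ} [NeZero d] (hd : d ∣ N) :
    qExpand K d (jqModC K) ∈ g1f_FC K M N :=
  subset_adjoin K _ (g1f_jd_mem_gens hd)

theorem g1f_j_mem_FC : jqModC K ∈ g1f_FC K M N := by
  simpa [qExpand_one_apply] using g1f_jd_mem_FC (K := K) (M := M) (one_dvd N)

theorem g1f_wq_mem_FC {e : ℕ} [NeZero e] (he : e * M ∣ N) (a : (ZMod M)ˣ) :
    qExpand K e (g1w_w K M (a : ZMod M)) ∈ g1f_FC K M N :=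
  subset_adjoin K _ (g1f_w_mem_gens he a)

theorem g1f_w_mem_FC (h : M ∣ N) (a : (ZMod M)ˣ) : g1w_w K M (a : ZMod M) ∈ g1f_FC K M N := by
  have := g1f_wq_mem_FC (K := K) (N := N) (e := 1) (by simpa using h) a
  rwa [qExpand_one_apply] at this

variable (K M N)

/-- the `Γ₀(N)`-field is contained in the `Γ₁`-field -/
theorem g1f_full_le_FC : modularFunctionFieldFullC K N ≤ g1f_FC K M N :=
  IntermediateField.adjoin.mono K _ _ Set.subset_union_left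

variable {N} in
/-- degeneracy `α`: the level-`N` field is contained in the level-`N'` field for `N ∣ N'` -/
theorem g1f_FC_mono {N' : ℕ} (h : N ∣ N') : g1f_FC K M N ≤ g1f_FC K M N' := by
  rw [g1f_FC, adjoin_le_iff]
  rintro x (⟨d, hne, hdvd, rfl⟩ | ⟨e, hne, a, he, rfl⟩)
  · have := hne
    exact g1f_jd_mem_FC (hdvd.trans h)
  · have := hne
    exact g1f_wq_mem_FC (he.trans h) a

/-- degeneracy `β`: `q ↦ q^ℓ` maps the level-`N` field into the level-`N ℓ` field -/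
theorem g1f_FC_map_le (ℓ : ℕ) [NeZero ℓ] :
    (g1f_FC K M N).map (qExpandAlgHomC K ℓ) ≤ g1f_FC K M (N * ℓ) := by
  rw [g1f_FC, adjoin_map, adjoin_le_iff]
  rintro x ⟨y, (⟨d, hne, hdvd, rfl⟩ | ⟨e, hne, a, he, rfl⟩), rfl⟩
  · have := hne
    have : NeZero (ℓ * d) := ⟨Nat.mul_ne_zero (NeZero.ne ℓ) (NeZero.ne d)⟩
    show qExpandAlgHomC K ℓ (qExpand K d (jqModC K)) ∈ _
    rw [qExpandAlgHomC_apply, qExpand_qExpand]
    exact g1f_jd_mem_FC (by rw [mul_comm]; exact Nat.mul_dvd_mul_right hdvd ℓ)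
  · have := hne
    have : NeZero (ℓ * e) := ⟨Nat.mul_ne_zero (NeZero.ne ℓ) (NeZero.ne e)⟩
    show qExpandAlgHomC K ℓ (qExpand K e (g1w_w K M (a : ZMod M))) ∈ _
    rw [qExpandAlgHomC_apply, qExpand_qExpand]
    refine g1f_wq_mem_FC ?_ a
    rw [mul_assoc, mul_comm N ℓ]
    exact Nat.mul_dvd_mul_left ℓ he

theorem g1f_qExpand_mem {ℓ : ℕ} [NeZero ℓ] {x : LaurentSeries K} (hx : x ∈ g1f_FC K M N) :
    qExpand K ℓ x ∈ g1f_FC K M (N * ℓ) :=
  g1f_FC_map_le K M N ℓ ⟨x, hx, rfl⟩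

end Field

/-- the function field over `ℚ` -/
def g1f_F (M N : ℕ) : IntermediateField ℚ (LaurentSeries ℚ) := g1f_FC ℚ M N

/-- the function field over `Q̄`, as the base change of the field over `ℚ` (an `abbrev`, so that
instances stated for `laurentBaseChange Q̄ _` apply) -/
abbrev g1f_Fbar (M N : ℕ) :
    IntermediateField (AlgebraicClosure ℚ) (LaurentSeries (AlgebraicClosure ℚ)) :=
  laurentBaseChange (AlgebraicClosure ℚ) (g1f_F M N)

/-- `J = Pic⁰` of the curve `X(±Γ₁(M) ∩ Γ₀(N))` over `Q̄`; `J₁(M) := g1f_J M M` -/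
abbrev g1f_J (M N : ℕ) : Type := AlgebraicCurve.Pic0 (AlgebraicClosure ℚ) (g1f_Fbar M N)

section BaseChange

variable (L : Type*) [Field L] [Algebra ℚ L] (M N : ℕ)

theorem g1f_coeffEmb_jd (d : ℕ) [NeZero d] :
    coeffEmb L (qExpand ℚ d (jqModC ℚ)) = qExpand L d (jqModC L) := by
  rw [coeffEmb, coeffMap_qExpand, coeffMap_jqModC]

theorem g1f_coeffEmb_w (e : ℕ) [NeZero e] (a : ZMod M) :
    coeffEmb L (qExpand ℚ e (g1w_w ℚ M a)) = qExpand L e (g1w_w L M a) := by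
  rw [coeffEmb, coeffMap_qExpand, g1w_coeffMap_w]

/-- in characteristic zero the field over `L` is the base change of the field over `ℚ` -/
theorem g1f_FC_eq_laurentBaseChange : g1f_FC L M N = laurentBaseChange L (g1f_F M N) := by
  apply le_antisymm
  · rw [g1f_FC, IntermediateField.adjoin_le_iff]
    rintro _ (⟨d, hd, hdN, rfl⟩ | ⟨e, he, a, heN, rfl⟩)
    · have := hd
      rw [← g1f_coeffEmb_jd]
      exact coeffEmb_mem_laurentBaseChange L (g1f_jd_mem_FC hdN)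
    · have := he
      rw [← g1f_coeffEmb_w]
      exact coeffEmb_mem_laurentBaseChange L (g1f_wq_mem_FC heN a)
  · rw [laurentBaseChange, IntermediateField.adjoin_le_iff]
    rintro _ ⟨x, hx, rfl⟩
    rw [SetLike.mem_coe, g1f_F, g1f_FC] at hx
    show coeffEmb L x ∈ g1f_FC L M N
    induction hx using IntermediateField.adjoin_induction with
    | mem y hy =>
      rcases hy with ⟨d, hd, hdN, rfl⟩ | ⟨e, he, a, heN, rfl⟩
      · have := hd
        rw [g1f_coeffEmb_jd]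
        exact g1f_jd_mem_FC hdN
      · have := he
        rw [g1f_coeffEmb_w]
        exact g1f_wq_mem_FC heN a
    | algebraMap r =>
      have : coeffEmb L (algebraMap ℚ (LaurentSeries ℚ) r)
          = algebraMap L (LaurentSeries L) (algebraMap ℚ L r) := by
        rw [coeffEmb, algebraMap_laurentSeries_eq_single, coeffMap_single,
          algebraMap_laurentSeries_eq_single]
      rw [this]
      exact (g1f_FC L M N).algebraMap_mem _
    | add x y _ _ hx hy => rw [map_add]; exact add_mem hx hy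
    | inv x _ hx => rw [map_inv₀]; exact inv_mem hx
    | mul x y _ _ hx hy => rw [map_mul]; exact mul_mem hx hy

theorem g1f_Fbar_eq (M N : ℕ) : g1f_Fbar M N = g1f_FC (AlgebraicClosure ℚ) M N :=
  (g1f_FC_eq_laurentBaseChange (AlgebraicClosure ℚ) M N).symm

end BaseChange

/-- the `Γ₀(N)`-field over `ℚ` is contained in the `Γ₁`-field -/
theorem g1f_full_le_F (M N : ℕ) : modularFunctionFieldFull N ≤ g1f_F M N :=
  g1f_full_le_FC ℚ M N

end Fermat.Agent.DS
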