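/-
DS-T / cell [G1], instance leaf I1: the ANALYTIC generator of the `Γ₁(M)` tower and the Lipschitz
bridge to the formal generator `g1w_w` of `Gam1/Defs.lean` (prefix `g1a_`).

* `g1a_G M a z = ∑_{c ≡ a (M), d ∈ ℤ} (c z + d)⁻⁴` (`twe_E` of JT3/Gateway/TwistedEisenstein with the
  weight `g1a_phi M a = [v₀ ≡ a]`), `g1a_Gn := (3!/(2πi)⁴) G_a`,
  `g1a_W M a := g1a_Gn · E₄² / Δ` (weight `0`), `g1a_Wq M a e := z ↦ W_a(e z)`;
* `g1a_G_eq_tsum` (Lipschitz, Mathlib `qExpansion_identity_pnat`), `g1a_hasSum_rearr` (Lambert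
  rearrangement), **`g1a_qExpansion_Gn`** : `qExpansion 1 (g1a_Gn M a) = s_a` (`a ≠ 0`);
* **`g1a_hasLaurentQ_W`** : `br_HasLaurentQ (g1a_W M a) (g1w_w ℂ M a)`, and
  `g1a_hasLaurentQ_Wq` : `br_HasLaurentQ (g1a_Wq M a e) (qExpand ℂ e (g1w_w ℂ M a))`;
* **the diamond formula** `g1a_W_smul_Gamma0` : `W_a(σ z) = W_{a σ₀₀}(z)` for `σ ∈ Γ₀(M)`
  (`g1a_Wq_smul_Gamma0` at level `N`, `e M ∣ N`), `g1a_W_neg : W_{-a} = W_a`;
* **weak modularity** `g1a_W_isWeak : g1g_IsWeakModFun (g1f_Gpm M) (g1a_W M a)`,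
  `g1a_Wq_isWeak : g1g_IsWeakModFun (g1f_G M N) (g1a_Wq M a e)` (`e M ∣ N`);
* generic: `g1a_bdd_comp_upperTri`, `g1a_growth_comp_alphaN` (level raising keeps the growth
  condition), `g1a_conj_alphaN` (explicit conjugation by `diag(e, 1)`).
-/
import Mathlib
import Fermat.Agent.JT3.Gateway.TwistedEisenstein
import Fermat.Agent.DS.Gam1.Defs
import Fermat.Agent.S24.Bridge.LaurentQ
import Fermat.Agent.JT3.Gateway.TwistedWeak
import Fermat.Agent.DS.Gam1.Gen.WeakModFun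

set_option autoImplicit false

open UpperHalfPlane ModularForm EisensteinSeries Matrix CongruenceSubgroup Filter Topology Complex
open scoped MatrixGroups Manifold Real Nat

namespace Fermat.Agent.DS

open Fermat.Agent.JT3 Fermat.Agent.S24 ModularCurve
open Fermat.Agent.S23.QF (IsQFun)

local notation "𝕢" => Function.Periodic.qParam

noncomputable section

/-- rearrangement of the Lambert-type double series into a power series -/
theorem g1a_hasSum_rearr (u : ℕ → ℂ) (hu : ∀ m, ‖u m‖ ≤ 2) {r : ℂ} (hr : ‖r‖ < 1) :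
    HasSum (fun N : ℕ => (∑ m ∈ N.divisors, u m * ((N / m : ℕ) : ℂ) ^ 3) * r ^ N)
      (∑' m : ℕ+, ∑' n : ℕ+, u m * ((n : ℂ) ^ 3 * r ^ (m * n : ℕ))) := by
  set F : ℕ+ × ℕ+ → ℂ := fun c => u c.1 * ((c.2 : ℂ) ^ 3 * r ^ (c.1 * c.2 : ℕ)) with hFdef
  have hF : Summable F := by
    have h0 := (summable_prod_mul_pow (𝕜 := ℂ) 3 hr).norm.mul_left 2
    refine Summable.of_norm_bounded h0 fun c => ?_
    rw [hFdef]
    simp only
    rw [norm_mul]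
    exact mul_le_mul_of_nonneg_right (hu _) (norm_nonneg _)
  have h1 : HasSum F (∑' m : ℕ+, ∑' n : ℕ+, u m * ((n : ℂ) ^ 3 * r ^ (m * n : ℕ))) := by
    have := hF.tsum_prod
    rw [← this]
    exact hF.hasSum
  have h2 := (sigmaAntidiagonalEquivProd.hasSum_iff).mpr h1
  have h3 := h2.sigma (g := fun N : ℕ+ => ∑ x : (N : ℕ).divisorsAntidiagonal,
    F (sigmaAntidiagonalEquivProd ⟨N, x⟩)) (fun N => hasSum_fintype _)
  have h4 : ∀ N : ℕ+, (∑ x : (N : ℕ).divisorsAntidiagonal, F (sigmaAntidiagonalEquivProd ⟨N, x⟩))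
      = (∑ m ∈ (N : ℕ).divisors, u m * (((N : ℕ) / m : ℕ) : ℂ) ^ 3) * r ^ (N : ℕ) := by
    intro N
    rw [Finset.sum_mul]
    have e1 : (∑ x : (N : ℕ).divisorsAntidiagonal, F (sigmaAntidiagonalEquivProd ⟨N, x⟩))
        = ∑ x ∈ (N : ℕ).divisorsAntidiagonal, u x.1 * ((x.2 : ℂ) ^ 3 * r ^ (x.1 * x.2)) := by
      rw [← Finset.sum_attach (N : ℕ).divisorsAntidiagonal
        (fun x => u x.1 * ((x.2 : ℂ) ^ 3 * r ^ (x.1 * x.2)))]
      rfl
    rw [e1, Nat.sum_divisorsAntidiagonal (fun x y => u x * ((y : ℂ) ^ 3 * r ^ (x * y)))]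
    refine Finset.sum_congr rfl fun m hm => ?_
    rw [Nat.mul_div_cancel' (Nat.dvd_of_mem_divisors hm)]
    ring
  have h5 : HasSum (fun N : ℕ+ => (∑ m ∈ (N : ℕ).divisors, u m * (((N : ℕ) / m : ℕ) : ℂ) ^ 3)
      * r ^ (N : ℕ)) (∑' m : ℕ+, ∑' n : ℕ+, u m * ((n : ℂ) ^ 3 * r ^ (m * n : ℕ))) := by
    refine h3.congr_fun ?_
    intro N
    exact (h4 N).symm
  have h6 := (hasSum_pnat_iff (f := fun N : ℕ => (∑ m ∈ N.divisors, u m * ((N / m : ℕ) : ℂ) ^ 3)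
    * r ^ N)).mp h5
  simpa using h6

/-- the weight `[v₀ ≡ a mod M]` -/
def g1a_phi (M : ℕ) (a : ZMod M) (v : Fin 2 → ℤ) : ℂ :=
  if ((v 0 : ℤ) : ZMod M) = a then 1 else 0

theorem g1a_phi_norm_le (M : ℕ) (a : ZMod M) (v : Fin 2 → ℤ) : ‖g1a_phi M a v‖ ≤ 1 := by
  rw [g1a_phi]
  split_ifs <;> simp

/-- `u(c) = [c ≡ a mod M]` -/
def g1a_u (M : ℕ) (a : ZMod M) (c : ℤ) : ℂ := if ((c : ℤ) : ZMod M) = a then 1 else 0

theorem g1a_u_add_neg (M : ℕ) (a : ZMod M) (m : ℕ) :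
    g1a_u M a (m : ℤ) + g1a_u M a (-(m : ℤ)) = (g1w_wt M a m : ℂ) := by
  rw [g1a_u, g1a_u, g1w_wt]
  rw [Int.cast_neg, Int.cast_natCast]
  simp only [neg_eq_iff_eq_neg]
  push_cast
  rfl

/-- the inner sum -/
def g1a_S (z : ℍ) (c : ℤ) : ℂ := ∑' d : ℤ, eisSummand 4 ![c, d] z

theorem g1a_S_neg (z : ℍ) (c : ℤ) : g1a_S z (-c) = g1a_S z c := by
  rw [g1a_S, g1a_S, ← tsum_comp_neg]
  refine tsum_congr fun d => ?_
  simp only [eisSummand, Matrix.cons_val_zero, Matrix.cons_val_one, Int.cast_neg]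
  have : (-(c : ℂ) * (z : ℂ) + -(d : ℂ)) = -((c : ℂ) * z + d) := by ring
  rw [this]
  exact Even.neg_zpow (by decide) _

/-- **Lipschitz** for the inner sum -/
theorem g1a_S_pnat (z : ℍ) (m : ℕ+) :
    g1a_S z (m : ℤ) = ((-2 * π * Complex.I) ^ 4 / (3 ! : ℕ)) *
      ∑' n : ℕ+, (n : ℂ) ^ 3 * cexp (2 * π * Complex.I * z) ^ (m * n : ℕ) := by
  have H := qExpansion_identity_pnat (k := 3) (by norm_num)
    ⟨(m : ℂ) * z, by simpa using z.2⟩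
  have h1 : g1a_S z (m : ℤ) = ∑' n : ℤ, 1 / ((((m : ℕ) : ℂ) * (z : ℂ)) + n) ^ (3 + 1) := by
    rw [g1a_S]
    refine tsum_congr fun d => ?_
    simp only [eisSummand, Matrix.cons_val_zero, Matrix.cons_val_one]
    rw [one_div, ← zpow_natCast, ← _root_.zpow_neg]
    norm_num
  rw [h1]
  have h2 : (((⟨(m : ℂ) * z, by simpa using z.2⟩ : ℍ) : ℍ) : ℂ) = ((m : ℕ) : ℂ) * z := rfl
  rw [h2] at H
  rw [H]
  congr 1
  refine tsum_congr fun n => ?_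
  congr 1
  rw [← Complex.exp_nat_mul, ← Complex.exp_nat_mul]
  congr 1
  push_cast
  ring

/-- the analytic Eisenstein series `G_a(z) = ∑_{c ≡ a (M), d} (c z + d)⁻⁴` -/
def g1a_G (M : ℕ) (a : ZMod M) : ℍ → ℂ := twe_E (g1a_phi M a) 4

theorem g1a_summable_prod (M : ℕ) (a : ZMod M) (z : ℍ) :
    Summable fun x : ℤ × ℤ => g1a_u M a x.1 * eisSummand 4 ![x.1, x.2] z := by
  have h := twe_summable (g1a_phi_norm_le M a) (k := 4) (by norm_num) z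
  refine (finTwoArrowEquiv ℤ).summable_iff.mp (h.congr fun v => ?_)
  show g1a_phi M a v * eisSummand 4 v z = g1a_u M a (v 0) * eisSummand 4 ![v 0, v 1] z
  rw [show ![v 0, v 1] = v from List.ofFn_inj.mp rfl]
  rfl

theorem g1a_G_eq_tsum_int (M : ℕ) (a : ZMod M) (z : ℍ) :
    g1a_G M a z = ∑' c : ℤ, g1a_u M a c * g1a_S z c := by
  rw [g1a_G, twe_E, ← (finTwoArrowEquiv ℤ).symm.tsum_eq]
  have h1 : (fun x : ℤ × ℤ => g1a_phi M a ((finTwoArrowEquiv ℤ).symm x) *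
      eisSummand 4 ((finTwoArrowEquiv ℤ).symm x) z)
      = fun x : ℤ × ℤ => g1a_u M a x.1 * eisSummand 4 ![x.1, x.2] z := by
    ext x
    rw [finTwoArrowEquiv_symm_apply]
    rfl
  rw [h1, (g1a_summable_prod M a z).tsum_prod]
  refine tsum_congr fun c => ?_
  show ∑' d : ℤ, g1a_u M a c * eisSummand 4 ![c, d] z = _
  rw [g1a_S, tsum_mul_left]

theorem g1a_G_eq_tsum (M : ℕ) (a : ZMod M) (ha : a ≠ 0) (z : ℍ) :
    g1a_G M a z = ((-2 * π * Complex.I) ^ 4 / (3 ! : ℕ)) *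
      ∑' m : ℕ+, ∑' n : ℕ+, (g1w_wt M a m : ℂ) *
        ((n : ℂ) ^ 3 * cexp (2 * π * Complex.I * z) ^ (m * n : ℕ)) := by
  have hs : Summable fun c : ℤ => g1a_u M a c * g1a_S z c := by
    have := (g1a_summable_prod M a z).prod
    refine this.congr fun c => ?_
    show ∑' d : ℤ, g1a_u M a c * eisSummand 4 ![c, d] z = _
    rw [g1a_S, tsum_mul_left]
  have h0 : g1a_u M a 0 = 0 := by
    rw [g1a_u, if_neg]
    simpa using ha.symm
  rw [g1a_G_eq_tsum_int, tsum_int_eq_zero_add_tsum_pnat hs, h0, zero_mul, zero_add]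
  have hsn := summable_int_iff_summable_nat_and_neg.mp hs
  have hp1 : Summable fun m : ℕ+ => g1a_u M a (m : ℤ) * g1a_S z (m : ℤ) :=
    hsn.1.subtype _
  have hp2 : Summable fun m : ℕ+ => g1a_u M a (-(m : ℤ)) * g1a_S z (-(m : ℤ)) :=
    hsn.2.subtype _
  rw [← hp1.tsum_add hp2, ← tsum_mul_left]
  refine tsum_congr fun m => ?_
  rw [g1a_S_neg, ← add_mul, ← tsum_mul_left]
  have hw := g1a_u_add_neg M a (m : ℕ)
  rw [show ((m : ℕ+) : ℤ) = (((m : ℕ) : ℕ) : ℤ) from rfl, hw, g1a_S_pnat, ← tsum_mul_left,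
    ← tsum_mul_left]
  refine tsum_congr fun n => ?_
  ring

/-! ### The `q`-expansion -/

/-- the double series as a function of `r = q` -/
def g1a_Psi (M : ℕ) (a : ZMod M) (r : ℂ) : ℂ :=
  ∑' m : ℕ+, ∑' n : ℕ+, (g1w_wt M a m : ℂ) * ((n : ℂ) ^ 3 * r ^ (m * n : ℕ))

/-- the constant `(2πi)⁴ / 3!` -/
def g1a_C : ℂ := (-2 * π * Complex.I) ^ 4 / (3 ! : ℕ)

theorem g1a_C_ne_zero : g1a_C ≠ 0 := by
  rw [g1a_C]
  refine div_ne_zero (pow_ne_zero _ ?_) (by norm_num [Nat.factorial])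
  simp [Real.pi_ne_zero]

theorem g1a_cexp_eq_qH (z : ℍ) : cexp (2 * π * Complex.I * z) = qH z := by
  simp [qH, Function.Periodic.qParam]

theorem g1a_G_eq_Psi (M : ℕ) (a : ZMod M) (ha : a ≠ 0) (z : ℍ) :
    g1a_G M a z = g1a_C * g1a_Psi M a (qH z) := by
  rw [g1a_G_eq_tsum M a ha z, g1a_cexp_eq_qH]
  rfl

theorem g1a_wt_norm_le (M : ℕ) (a : ZMod M) (m : ℕ) : ‖(g1w_wt M a m : ℂ)‖ ≤ 2 := by
  rw [g1w_wt]
  split_ifs <;> norm_num

theorem g1a_hasSum_Psi (M : ℕ) (a : ZMod M) {r : ℂ} (hr : ‖r‖ < 1) :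
    HasSum (fun N : ℕ => ((PowerSeries.coeff N (g1w_sZ M a) : ℤ) : ℂ) * r ^ N)
      (g1a_Psi M a r) := by
  have h := g1a_hasSum_rearr (fun m => (g1w_wt M a m : ℂ)) (g1a_wt_norm_le M a) hr
  refine h.congr_fun fun N => ?_
  rw [g1w_coeff_sZ]
  push_cast
  rfl

/-- the normalised Eisenstein series `(3!/(2πi)⁴) G_a` -/
def g1a_Gn (M : ℕ) (a : ZMod M) : ℍ → ℂ := fun z => g1a_C⁻¹ * g1a_G M a z

theorem g1a_Gn_eq_Psi (M : ℕ) (a : ZMod M) (ha : a ≠ 0) (z : ℍ) :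
    g1a_Gn M a z = g1a_Psi M a (qH z) := by
  rw [g1a_Gn, g1a_G_eq_Psi M a ha, ← mul_assoc, inv_mul_cancel₀ g1a_C_ne_zero, one_mul]

theorem g1a_G_mdiff (M : ℕ) (a : ZMod M) : MDiff (g1a_G M a) :=
  twe_mdifferentiable (g1a_phi_norm_le M a) (by norm_num)

theorem g1a_Gn_mdiff (M : ℕ) (a : ZMod M) : MDiff (g1a_Gn M a) :=
  (mdifferentiable_const (c := g1a_C⁻¹)).mul (g1a_G_mdiff M a)

theorem g1a_isQFun_Gn (M : ℕ) (a : ZMod M) (ha : a ≠ 0) : IsQFun (g1a_Gn M a) where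
  mdiff := g1a_Gn_mdiff M a
  periodic := by
    intro w
    have h := qH_periodic w
    simp only [Function.comp_apply] at h ⊢
    rw [g1a_Gn_eq_Psi M a ha, g1a_Gn_eq_Psi M a ha, h]
  bdd := by
    have h1 : IsBoundedAtImInfty (g1a_G M a) :=
      twe_isBoundedAtImInfty (g1a_phi_norm_le M a) (by norm_num)
    have h2 : IsBoundedAtImInfty (fun _ : ℍ => g1a_C⁻¹) := Filter.const_boundedAtFilter _ _
    exact h2.mul h1

/-- **the `q`-expansion of the normalised `G_a` is `s_a`** -/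
theorem g1a_qExpansion_Gn (M : ℕ) (a : ZMod M) (ha : a ≠ 0) :
    qExpansion 1 (g1a_Gn M a) = (g1w_sZ M a).map (Int.castRingHom ℂ) := by
  ext N
  have hs : ∀ τ : ℍ, HasSum (fun m : ℕ =>
      ((PowerSeries.coeff m (g1w_sZ M a) : ℤ) : ℂ) • 𝕢 1 (τ : ℂ) ^ m) (g1a_Gn M a τ) := by
    intro τ
    rw [g1a_Gn_eq_Psi M a ha]
    have hr : ‖qH τ‖ < 1 := br_norm_qH_lt_one τ
    exact g1a_hasSum_Psi M a hr
  have key := br_qExpansion_coeff_unique (g1a_isQFun_Gn M a ha) hs N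
  rw [← key, PowerSeries.coeff_map]
  rfl

/-! ### The analytic generator `W_a` -/

local notation "Δ" => ModularForm.discriminant

/-- the analytic generator `W_a = (3!/(2πi)⁴) G_a E₄² / Δ` -/
def g1a_W (M : ℕ) (a : ZMod M) : ℍ → ℂ := fun z => g1a_Gn M a z * E₄ z ^ 2 / Δ z

theorem g1a_W_mdiff (M : ℕ) (a : ZMod M) : MDiff (g1a_W M a) := by
  have h1 : MDiff (fun z => g1a_Gn M a z * E₄ z ^ 2) :=
    (g1a_Gn_mdiff M a).mul ((ModularFormClass.holo E₄).pow 2)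
  exact MDifferentiable.div h1 mdiff_discriminant (fun z => discriminant_ne_zero z)

theorem g1a_qH_mul_W (M : ℕ) (a : ZMod M) :
    qH * g1a_W M a = (g1a_Gn M a * (⇑E₄ : ℍ → ℂ) ^ 2) / etaProdH := by
  ext z
  simp only [Pi.mul_apply, Pi.div_apply, Pi.pow_apply, g1a_W, etaProdH]
  field_simp [qH_ne_zero z, discriminant_ne_zero z]

theorem g1a_isQFun_qH_mul_W (M : ℕ) (a : ZMod M) (ha : a ≠ 0) : IsQFun (qH * g1a_W M a) := by
  rw [g1a_qH_mul_W]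
  refine IsQFun.div ((g1a_isQFun_Gn M a ha).mul (isQFun_E4.pow 2)) isQFun_etaProdH
    etaProdH_ne_zero ?_
  rw [valueAtInfty_etaProdH]
  exact one_ne_zero

theorem g1a_qExpansion_qH_mul_W (M : ℕ) (a : ZMod M) (ha : a ≠ 0) :
    qExpansion 1 (qH * g1a_W M a) = (g1w_numZ M a).map (Int.castRingHom ℂ) := by
  have h1 : (qH * g1a_W M a) * etaProdH = g1a_Gn M a * (⇑E₄ : ℍ → ℂ) ^ 2 := by
    rw [g1a_qH_mul_W]
    ext z
    simp only [Pi.mul_apply, Pi.div_apply, Pi.pow_apply]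
    field_simp [etaProdH_ne_zero z]
  have h2 := congrArg (qExpansion 1) h1
  rw [qExpansion_mul (g1a_isQFun_qH_mul_W M a ha).analyticAt isQFun_etaProdH.analyticAt,
    qExpansion_mul (g1a_isQFun_Gn M a ha).analyticAt (isQFun_E4.pow 2).analyticAt,
    Fermat.Agent.S23.QF.qExpansion_pow_of_isQFun isQFun_E4, br_qExpansion_E4,
    br_qExpansion_etaProdH, g1a_qExpansion_Gn M a ha] at h2
  have h3 : g1w_numZ M a * dedekindEtaUnit = g1w_sZ M a * eisenstein4 ^ 2 := by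
    rw [g1w_numZ, mul_assoc, mul_comm dedekindEtaUnitInv, dedekindEtaUnit_mul_inv, mul_one]
  have h4 := congrArg (PowerSeries.map (Int.castRingHom ℂ)) h3
  rw [map_mul, map_mul, map_pow] at h4
  have hne : dedekindEtaUnit.map (Int.castRingHom ℂ) ≠ 0 := by
    intro h0
    have := congrArg (PowerSeries.coeff 0) h0
    rw [PowerSeries.coeff_map, PowerSeries.coeff_zero_eq_constantCoeff,
      constantCoeff_dedekindEtaUnit] at this
    simp at this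
  exact mul_right_cancel₀ hne (h2.trans h4.symm)

/-- **the Lipschitz bridge**: the analytic generator `W_a` has the Laurent `q`-expansion `w_a` -/
theorem g1a_hasLaurentQ_W (M : ℕ) (a : ZMod M) (ha : a ≠ 0) :
    br_HasLaurentQ (g1a_W M a) (g1w_w ℂ M a) := by
  refine ⟨1, by simpa using g1a_isQFun_qH_mul_W M a ha, ?_⟩
  rw [pow_one, g1a_qExpansion_qH_mul_W M a ha, g1w_w, ← mul_assoc, br_single_mul_single]
  simp only [Nat.cast_one, add_neg_cancel]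
  rw [show (HahnSeries.single (0 : ℤ) (1 : ℂ) : LaurentSeries ℂ) = 1 from rfl, one_mul]

/-! ### Transformation under `SL(2, ℤ)` -/

theorem g1a_E4_smul (A : SL(2, ℤ)) (z : ℍ) :
    (⇑E₄ : ℍ → ℂ) (A • z) = denom A z ^ (4 : ℤ) * (⇑E₄ : ℍ → ℂ) z := by
  have h := congr_fun (E4_slash_SL A) z
  rw [SL_slash_apply, _root_.zpow_neg,
    mul_inv_eq_iff_eq_mul₀ (zpow_ne_zero _ <| denom_ne_zero _ z)] at h
  rw [h, mul_comm]

/-- translates: `W_a(A z) = c⁻¹ (G_a ∣[4] A)(z) E₄(z)² / Δ(z)` -/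
theorem g1a_W_smul_SL (M : ℕ) (a : ZMod M) (A : SL(2, ℤ)) (z : ℍ) :
    g1a_W M a (A • z) =
      g1a_C⁻¹ * (g1a_G M a ∣[(4 : ℤ)] A) z * (⇑E₄ : ℍ → ℂ) z ^ 2 / (Δ : ℍ → ℂ) z := by
  have hd : denom A z ≠ 0 := denom_ne_zero _ z
  rw [g1a_W, g1a_Gn, twe_discriminant_smul, g1a_E4_smul, SL_slash_apply, _root_.zpow_neg]
  have e4 : denom A z ^ (4 : ℤ) = denom A z ^ 4 := by norm_cast
  have e12 : denom A z ^ (12 : ℤ) = denom A z ^ 12 := by norm_cast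
  rw [e4, e12]
  field_simp

theorem g1a_G_slash (M : ℕ) (a : ZMod M) (A : SL(2, ℤ)) :
    g1a_G M a ∣[(4 : ℤ)] A = twe_E (fun v => g1a_phi M a (v ᵥ* ↑(A⁻¹))) 4 :=
  twe_slash _ _ _

theorem g1a_phi_vecMul_of_mem_Gamma0 (M : ℕ) (a : ZMod M) {A : SL(2, ℤ)} (hA : A ∈ Gamma0 M)
    (v : Fin 2 → ℤ) :
    g1a_phi M a (v ᵥ* ((A⁻¹ : SL(2, ℤ)) : Matrix (Fin 2) (Fin 2) ℤ)) =
      g1a_phi M (a * ((A 0 0 : ℤ) : ZMod M)) v := by
  rw [Gamma0_mem] at hA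
  have hdet : A 0 0 * A 1 1 - A 0 1 * A 1 0 = 1 := by
    have := A.det_coe
    rw [Matrix.det_fin_two] at this
    exact this
  have hdetM : ((A 0 0 : ℤ) : ZMod M) * ((A 1 1 : ℤ) : ZMod M) = 1 := by
    have := congrArg (fun x : ℤ => (x : ZMod M)) hdet
    push_cast at this
    rw [hA] at this
    simpa using this
  have h0 : (v ᵥ* ((A⁻¹ : SL(2, ℤ)) : Matrix (Fin 2) (Fin 2) ℤ)) 0 = v 0 * A 1 1 - v 1 * A 1 0 := by
    simp [Matrix.vecMul, dotProduct, Fin.sum_univ_two, Matrix.SpecialLinearGroup.coe_inv,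
      Matrix.adjugate_fin_two]
    ring
  have h1 : (((v ᵥ* ((A⁻¹ : SL(2, ℤ)) : Matrix (Fin 2) (Fin 2) ℤ)) 0 : ℤ) : ZMod M)
      = ((v 0 : ℤ) : ZMod M) * ((A 1 1 : ℤ) : ZMod M) := by
    rw [h0]
    push_cast
    rw [hA, mul_zero, sub_zero]
  rw [g1a_phi, g1a_phi, h1]
  have hiff : ((v 0 : ℤ) : ZMod M) * ((A 1 1 : ℤ) : ZMod M) = a ↔
      ((v 0 : ℤ) : ZMod M) = a * ((A 0 0 : ℤ) : ZMod M) := by
    constructor
    · intro h
      rw [← h, mul_assoc, mul_comm ((A 1 1 : ℤ) : ZMod M), hdetM, mul_one]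
    · intro h
      rw [h, mul_assoc, hdetM, mul_one]
  simp only [hiff]

/-- **the diamond formula**: `W_a(σ z) = W_{a σ₀₀}(z)` for `σ ∈ Γ₀(M)` -/
theorem g1a_W_smul_Gamma0 (M : ℕ) (a : ZMod M) {A : SL(2, ℤ)} (hA : A ∈ Gamma0 M) (z : ℍ) :
    g1a_W M a (A • z) = g1a_W M (a * ((A 0 0 : ℤ) : ZMod M)) z := by
  rw [g1a_W_smul_SL, g1a_G_slash]
  have : (fun v : Fin 2 → ℤ => g1a_phi M a (v ᵥ* ((A⁻¹ : SL(2, ℤ)) : Matrix (Fin 2) (Fin 2) ℤ)))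
      = g1a_phi M (a * ((A 0 0 : ℤ) : ZMod M)) :=
    funext fun v => g1a_phi_vecMul_of_mem_Gamma0 M a hA v
  rw [this]
  rfl

theorem g1a_W_neg (M : ℕ) (a : ZMod M) : g1a_W M (-a) = g1a_W M a := by
  ext z
  have h1 : (-1 : SL(2, ℤ)) ∈ Gamma0 M := by
    rw [Gamma0_mem]
    simp
  have h := g1a_W_smul_Gamma0 M a h1 z
  have h2 : ((-1 : SL(2, ℤ)) • z : ℍ) = z := by
    have := ModularGroup.SL_neg_smul (1 : SL(2, ℤ)) z
    rw [one_smul] at this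
    exact this
  rw [h2] at h
  rw [h]
  congr 1
  simp

/-- `W_a` is invariant under `±Γ₁(M)` -/
theorem g1a_W_smul_Gpm (M : ℕ) (a : ZMod M) {A : SL(2, ℤ)} (hA : A ∈ g1f_Gpm M) (z : ℍ) :
    g1a_W M a (A • z) = g1a_W M a z := by
  rw [g1a_W_smul_Gamma0 M a (g1f_Gpm_le_Gamma0 M hA), g1f_Gpm_apply_zero_zero hA]
  rcases hA.2 with h | h
  · rw [h, mul_one]
  · rw [h, mul_neg, mul_one, g1a_W_neg]

theorem g1a_W_growth (M : ℕ) (a : ZMod M) (A : SL(2, ℤ)) :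
    IsBoundedAtImInfty (qH ^ 1 * fun z => g1a_W M a (A • z)) := by
  have h1 : (qH ^ 1 * fun z => g1a_W M a (A • z)) =
      ((fun _ : ℍ => g1a_C⁻¹) * (g1a_G M a ∣[(4 : ℤ)] A) * (⇑E₄ : ℍ → ℂ) ^ 2) *
        (fun z : ℍ => qH z / (Δ : ℍ → ℂ) z) := by
    ext z
    simp only [Pi.mul_apply, pow_one, g1a_W_smul_SL, Pi.pow_apply]
    ring
  rw [h1]
  refine (((Filter.const_boundedAtFilter _ _).mul ?_).mul ?_).mul
    twe_isBoundedAtImInfty_qH_div_discriminant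
  · exact twe_slash_isBoundedAtImInfty (g1a_phi_norm_le M a) (by norm_num) A
  · exact (isQFun_E4.pow 2).bdd

/-- **`W_a` is a weakly holomorphic modular function for `±Γ₁(M)`** -/
theorem g1a_W_isWeak (M : ℕ) (a : ZMod M) : g1g_IsWeakModFun (g1f_Gpm M) (g1a_W M a) :=
  ⟨g1a_W_mdiff M a, fun _ hγ z => g1a_W_smul_Gpm M a hγ z, fun A => ⟨1, g1a_W_growth M a A⟩⟩

/-! ### Raising the level: `h(e z)` -/

open Fermat.Agent.S23 (alphaN mkSL coe_GL_val sl_det_eq val_alphaN)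

/-- growth of `g((a z + b)/e)` at `i∞` -/
theorem g1a_bdd_comp_upperTri {g : ℍ → ℂ} {k : ℕ} (hb : IsBoundedAtImInfty (qH ^ k * g))
    (a b e : ℤ) (ha : 0 < a) (he : 0 < e) (m : ℕ) (hm : k * a ≤ m * e) :
    IsBoundedAtImInfty (qH ^ m * fun z => g (upperTri a b e ha.ne' he.ne' • z)) := by
  obtain ⟨C, A, hCA⟩ := isBoundedAtImInfty_iff.mp hb
  have haR : (0 : ℝ) < a := by exact_mod_cast ha
  have heR : (0 : ℝ) < e := by exact_mod_cast he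
  rw [isBoundedAtImInfty_iff]
  refine ⟨C, max (A * e / a) 0, fun z hz => ?_⟩
  set w : ℍ := upperTri a b e ha.ne' he.ne' • z with hw
  have himw : w.im = (a : ℝ) / e * z.im := im_upperTri_smul a b e ha he z
  have hz0 : 0 ≤ z.im := z.im_pos.le
  have hA : A ≤ w.im := by
    rw [himw]
    have h1 : A * e / a ≤ z.im := (le_max_left _ _).trans hz
    rw [div_le_iff₀ haR] at h1
    rw [div_mul_eq_mul_div, le_div_iff₀ heR]
    linarith
  have hbw := hCA w hA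
  rw [Pi.mul_apply, Pi.pow_apply, norm_mul, norm_pow] at hbw
  have hqw : ‖qH w‖ ^ k = Real.exp (-2 * π * (k * ((a : ℝ) / e * z.im))) := by
    rw [norm_qH, himw, ← Real.exp_nat_mul]
    ring_nf
  have hqz : ‖qH z ^ m‖ = Real.exp (-2 * π * (m * z.im)) := by
    rw [norm_pow, norm_qH, ← Real.exp_nat_mul]; ring_nf
  rw [Pi.mul_apply, Pi.pow_apply, norm_mul, hqz]
  have hle : Real.exp (-2 * π * (m * z.im)) ≤ ‖qH w‖ ^ k := by
    rw [hqw]
    apply Real.exp_le_exp.mpr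
    have hmR : (k : ℝ) * a ≤ m * e := by exact_mod_cast hm
    have h2 : (k : ℝ) * ((a : ℝ) / e) ≤ m := by
      rw [← mul_div_assoc, div_le_iff₀ heR]; exact hmR
    have h3 : (k : ℝ) * ((a : ℝ) / e) * z.im ≤ m * z.im := mul_le_mul_of_nonneg_right h2 hz0
    have hpi : 0 < π := Real.pi_pos
    nlinarith
  calc Real.exp (-2 * π * (m * z.im)) * ‖g w‖ ≤ ‖qH w‖ ^ k * ‖g w‖ :=
        mul_le_mul_of_nonneg_right hle (norm_nonneg _)
    _ ≤ C := hbw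

/-- if all `SL(2,ℤ)`-translates of `h` have at most a pole at `i∞`, so do those of `z ↦ h(d z)` -/
theorem g1a_growth_comp_alphaN (d : ℕ) [NeZero d] {h : ℍ → ℂ}
    (hgrow : ∀ A : SL(2, ℤ), ∃ m : ℕ, IsBoundedAtImInfty (qH ^ m * fun z => h (A • z)))
    (γ : SL(2, ℤ)) :
    ∃ m : ℕ, IsBoundedAtImInfty (qH ^ m * fun z => h (alphaN d • (γ • z))) := by
  obtain ⟨τ, a, b, e, ha, he, hae, hmat⟩ := exists_hermite d γ
  obtain ⟨k, hk⟩ := hgrow τ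
  have h1 : ∀ z : ℍ, (alphaN d • (γ • z) : ℍ) = τ • (upperTri a b e ha.ne' he.ne' • z) := by
    intro z
    change alphaN d • ((Matrix.SpecialLinearGroup.mapGL ℝ γ) • z) =
      (Matrix.SpecialLinearGroup.mapGL ℝ τ) • (upperTri a b e ha.ne' he.ne' • z)
    rw [← mul_smul, ← mul_smul, hmat]
  refine ⟨k * a.toNat, ?_⟩
  have h2 : (fun z => h (alphaN d • (γ • z))) =
      fun z => (fun w => h (τ • w)) (upperTri a b e ha.ne' he.ne' • z) := by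
    ext z
    rw [h1]
  rw [h2]
  refine g1a_bdd_comp_upperTri hk a b e ha he _ ?_
  have : ((a.toNat : ℕ) : ℤ) = a := Int.toNat_of_nonneg ha.le
  push_cast
  rw [this]
  have : (k : ℤ) * a ≤ (k : ℤ) * a * e := le_mul_of_one_le_right (by positivity) he
  linarith

/-- explicit conjugation by `diag(e, 1)` -/
theorem g1a_conj_alphaN (e : ℕ) [NeZero e] (γ : SL(2, ℤ)) (c' : ℤ) (hc' : γ 1 0 = e * c') :
    ∃ γ' : SL(2, ℤ), Matrix.SpecialLinearGroup.mapGL ℝ γ' * alphaN e =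
      alphaN e * Matrix.SpecialLinearGroup.mapGL ℝ γ ∧ γ' 0 0 = γ 0 0 ∧ γ' 1 1 = γ 1 1 ∧
        γ' 1 0 = c' := by
  have hdet := sl_det_eq γ
  refine ⟨mkSL (γ 0 0) (e * γ 0 1) c' (γ 1 1) (by rw [hc'] at hdet; linear_combination hdet),
    ?_, rfl, rfl, rfl⟩
  apply Matrix.GeneralLinearGroup.ext
  intro i j
  rw [Matrix.GeneralLinearGroup.coe_mul, Matrix.GeneralLinearGroup.coe_mul, coe_GL_val, coe_GL_val,
    val_alphaN]
  fin_cases i <;> fin_cases j <;> simp [mkSL, hc', mul_comm]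

/-- the analytic generator `z ↦ W_a(e z)` -/
def g1a_Wq (M : ℕ) (a : ZMod M) (e : ℕ) [NeZero e] : ℍ → ℂ := fun z => g1a_W M a (alphaN e • z)

theorem g1a_Wq_one (M : ℕ) (a : ZMod M) : g1a_Wq M a 1 = g1a_W M a := by
  ext z
  have : (alphaN 1 • z : ℍ) = z := by
    apply UpperHalfPlane.ext
    rw [Fermat.Agent.S23.coe_alphaN_smul]; simp
  rw [g1a_Wq, this]

theorem g1a_Wq_mdiff (M : ℕ) (a : ZMod M) (e : ℕ) [NeZero e] : MDiff (g1a_Wq M a e) :=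
  (g1a_W_mdiff M a).comp (UpperHalfPlane.mdifferentiable_smul (Fermat.Agent.S23.det_alphaN_pos e))

/-- **the diamond formula at level `N`**: `W_a(e σ z) = W_{a σ₀₀}(e z)` for `σ ∈ Γ₀(N)`,
`e M ∣ N` -/
theorem g1a_Wq_smul_Gamma0 (M : ℕ) (a : ZMod M) {N e : ℕ} [NeZero e] (he : e * M ∣ N)
    {A : SL(2, ℤ)} (hA : A ∈ Gamma0 N) (z : ℍ) :
    g1a_Wq M a e (A • z) = g1a_Wq M (a * ((A 0 0 : ℤ) : ZMod M)) e z := by
  rw [Gamma0_mem, ZMod.intCast_zmod_eq_zero_iff_dvd] at hA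
  obtain ⟨c', hc'⟩ : ((e * M : ℕ) : ℤ) ∣ A 1 0 := (Int.natCast_dvd_natCast.mpr he).trans hA
  have hc'' : A 1 0 = e * ((M : ℤ) * c') := by rw [hc']; push_cast; ring
  obtain ⟨γ', hγ', h00, -, h10⟩ := g1a_conj_alphaN e A _ hc''
  have h1 : (alphaN e • (A • z) : ℍ) = γ' • (alphaN e • z) := by
    change alphaN e • ((Matrix.SpecialLinearGroup.mapGL ℝ A) • z) =
      (Matrix.SpecialLinearGroup.mapGL ℝ γ') • (alphaN e • z)
    rw [← mul_smul, ← mul_smul, hγ']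
  have hγ'0 : γ' ∈ Gamma0 M := by
    rw [Gamma0_mem, h10]
    push_cast
    simp
  rw [g1a_Wq, h1, g1a_W_smul_Gamma0 M a hγ'0, h00]
  rfl

theorem g1a_Wq_growth (M : ℕ) (a : ZMod M) (e : ℕ) [NeZero e] (γ : SL(2, ℤ)) :
    ∃ m : ℕ, IsBoundedAtImInfty (qH ^ m * fun z => g1a_Wq M a e (γ • z)) :=
  g1a_growth_comp_alphaN e (fun A => ⟨1, g1a_W_growth M a A⟩) γ

/-- **`z ↦ W_a(e z)` is a weakly holomorphic modular function for `±Γ₁(M) ∩ Γ₀(N)`, `e M ∣ N`** -/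
theorem g1a_Wq_isWeak (M : ℕ) (a : ZMod M) {N e : ℕ} [NeZero e] (he : e * M ∣ N) :
    g1g_IsWeakModFun (g1f_G M N) (g1a_Wq M a e) := by
  refine ⟨g1a_Wq_mdiff M a e, fun γ hγ z => ?_, fun γ => g1a_Wq_growth M a e γ⟩
  rw [g1a_Wq_smul_Gamma0 M a he hγ.2, g1f_Gpm_apply_zero_zero hγ.1]
  rcases hγ.1.2 with h | h
  · rw [h, mul_one]
  · rw [h, mul_neg, mul_one]
    show g1a_W M (-a) _ = g1a_W M a _
    rw [g1a_W_neg]

/-- the Laurent `q`-expansion of `z ↦ W_a(e z)` is `w_a(q^e)` -/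
theorem g1a_hasLaurentQ_Wq (M : ℕ) (a : ZMod M) (ha : a ≠ 0) (e : ℕ) [NeZero e] :
    br_HasLaurentQ (g1a_Wq M a e) (qExpand ℂ e (g1w_w ℂ M a)) :=
  (g1a_hasLaurentQ_W M a ha).comp_alphaN e

end

end Fermat.Agent.DS
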