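/-
DS-T / cell [G1], leaf [I-D1] (consumer: [GV] seam (D1)): the diamond-symmetric polynomial of the
generators `w_b` of the `Γ₁(M)` function field has coefficients in the `Γ₀(M)` function field.

For `3 ≤ M` and `gv1_reps M` the representatives of `(ℤ/M)ˣ/±1`:

  `(∏ b ∈ gv1_reps M, (X - C (g1w_w ℚ M b))).coeff n ∈ modularFunctionFieldFull M`.

Proof: over `ℂ` the coefficient is the `q`-expansion of the corresponding coefficient of
`∏ (X - W_b)` (`W_b` the analytic generators of `Gam1/GenAn.lean`), a weakly holomorphic modular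
function for `Γ₀(M)`: the diamond formula `W_b(σ z) = W_{b σ₀₀}(z)` permutes the factors up to the
sign `W_{-b} = W_b`.  Completeness over `ℂ` (`gc_lq_mem_F`) puts it in the `Γ₀(M)` function field
over `ℂ`, and linear disjointness (`gd_mem_of_coeffMap_mem`) descends it to `ℚ`.
-/
import Mathlib
import Fermat.Agent.DS.Gam1.GenAn
import Fermat.Agent.DS.GR.VertGam1Lead
import Fermat.Agent.JT3.Gateway.CComplete
import Fermat.Agent.JT3.Gateway.DescentLin

set_option autoImplicit false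
set_option linter.unusedSectionVars false

open UpperHalfPlane CongruenceSubgroup ModularCurve Polynomial
open scoped MatrixGroups

namespace Fermat.Agent.DS

open Fermat.Agent.JT3 Fermat.Agent.S24

noncomputable section

/-! ### Reindexing the representatives of `(ℤ/M)ˣ/±1` by a unit -/

section Reindex

variable {M : ℕ} [NeZero M]

/-- the representative of `±a` with `2 a ≤ M` -/
def g1d_rep (a : ZMod M) : ZMod M := if 2 * a.val ≤ M then a else -a

theorem g1d_rep_eq_or (a : ZMod M) : g1d_rep a = a ∨ g1d_rep a = -a := by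
  unfold g1d_rep
  split_ifs
  · exact Or.inl rfl
  · exact Or.inr rfl

theorem g1d_rep_mem {a : ZMod M} (ha : IsUnit a) : g1d_rep a ∈ gv1_reps M := by
  unfold g1d_rep
  split_ifs with h
  · exact gv1_mem_reps.mpr ⟨ha, h⟩
  · refine gv1_mem_reps.mpr ⟨ha.neg, ?_⟩
    have ha0 : a ≠ 0 := by
      rintro rfl
      rw [ZMod.val_zero] at h
      omega
    rw [ZMod.neg_val, if_neg ha0]
    have := ZMod.val_lt a
    omega

theorem g1d_eq_or_neg_of_rep_eq {x y : ZMod M} (h : g1d_rep x = g1d_rep y) : x = y ∨ x = -y := by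
  rcases g1d_rep_eq_or x with hx | hx <;> rcases g1d_rep_eq_or y with hy | hy <;>
    rw [hx, hy] at h
  · exact Or.inl h
  · exact Or.inr h
  · exact Or.inr (neg_eq_iff_eq_neg.mp h)
  · exact Or.inl (neg_inj.mp h)

/-- multiplication by a unit permutes the representatives up to sign -/
theorem g1d_prod_reindex {α : Type*} [CommMonoid α] (F : ZMod M → α) (hF : ∀ a, F (-a) = F a)
    {u : ZMod M} (hu : IsUnit u) :
    ∏ b ∈ gv1_reps M, F (b * u) = ∏ b ∈ gv1_reps M, F b := by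
  have hmaps : ∀ b ∈ gv1_reps M, g1d_rep (b * u) ∈ gv1_reps M := fun b hb =>
    g1d_rep_mem ((gv1_mem_reps.mp hb).1.mul hu)
  have hinj : Set.InjOn (fun b => g1d_rep (b * u)) (gv1_reps M : Set (ZMod M)) := by
    intro b hb b' hb' h
    have h1 : b * u = b' * u ∨ b * u = -(b' * u) := g1d_eq_or_neg_of_rep_eq h
    refine gv1_reps_eq_of_eq_or_neg hb hb' ?_
    rcases h1 with h1 | h1
    · exact Or.inl (hu.mul_left_inj.mp h1)
    · rw [← neg_mul] at h1
      exact Or.inr (hu.mul_left_inj.mp h1)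
  refine Finset.prod_nbij (fun b => g1d_rep (b * u)) hmaps hinj
    (Finset.surjOn_of_injOn_of_card_le _ hmaps hinj le_rfl) ?_
  intro b _
  rcases g1d_rep_eq_or (b * u) with h | h
  · simp only [h]
  · simp only [h, hF]

end Reindex

/-! ### The graph of "has Laurent `q`-expansion" is a ring -/

/-- pairs (weakly holomorphic `Γ`-modular function, its Laurent `q`-expansion) -/
def g1d_graph (Γ : Subgroup SL(2, ℤ)) : Subring ((ℍ → ℂ) × LaurentSeries ℂ) where
  carrier := {p | g1g_IsWeakModFun Γ p.1 ∧ br_HasLaurentQ p.1 p.2}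
  mul_mem' := fun ha hb => ⟨ha.1.mul hb.1, ha.2.mul hb.2⟩
  one_mem' := ⟨g1g_IsWeakModFun.const Γ 1, by
    have := br_HasLaurentQ.const 1
    rwa [map_one] at this⟩
  add_mem' := fun ha hb => ⟨ha.1.add hb.1, ha.2.add hb.2⟩
  zero_mem' := ⟨g1g_IsWeakModFun.const Γ 0, by
    have := br_HasLaurentQ.const 0
    rwa [map_zero] at this⟩
  neg_mem' := fun ha => ⟨ha.1.neg, ha.2.neg⟩

theorem g1d_mem_graph {Γ : Subgroup SL(2, ℤ)} {p : (ℍ → ℂ) × LaurentSeries ℂ} :
    p ∈ g1d_graph Γ ↔ g1g_IsWeakModFun Γ p.1 ∧ br_HasLaurentQ p.1 p.2 := Iff.rfl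

/-- the coefficients of a product `∏ (X - C (h_i, x_i))` of graph elements, read on both sides -/
theorem g1d_coeff_prod_graph {Γ : Subgroup SL(2, ℤ)} {ι : Type*} (s : Finset ι) (h : ι → ℍ → ℂ)
    (x : ι → LaurentSeries ℂ) (hw : ∀ i ∈ s, g1g_IsWeakModFun Γ (h i))
    (hq : ∀ i ∈ s, br_HasLaurentQ (h i) (x i)) (n : ℕ) :
    g1g_IsWeakModFun Γ ((∏ i ∈ s, (X - C (h i))).coeff n) ∧
      br_HasLaurentQ ((∏ i ∈ s, (X - C (h i))).coeff n) ((∏ i ∈ s, (X - C (x i))).coeff n) := by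
  classical
  set G := g1d_graph Γ with hG
  -- the product over the graph ring
  let e : ι → G := fun i => if hi : i ∈ s then ⟨(h i, x i), hw i hi, hq i hi⟩ else 0
  have he : ∀ i ∈ s, ((e i : G) : (ℍ → ℂ) × LaurentSeries ℂ) = (h i, x i) := by
    intro i hi
    simp only [e, dif_pos hi]
  let Q : Polynomial G := ∏ i ∈ s, (X - C (e i))
  let f1 : G →+* (ℍ → ℂ) := (RingHom.fst _ _).comp G.subtype
  let f2 : G →+* LaurentSeries ℂ := (RingHom.snd _ _).comp G.subtype
  have h1 : Q.map f1 = ∏ i ∈ s, (X - C (h i)) := by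
    rw [Polynomial.map_prod]
    refine Finset.prod_congr rfl fun i hi => ?_
    rw [Polynomial.map_sub, Polynomial.map_X, Polynomial.map_C]
    congr 2
    show ((e i : G) : (ℍ → ℂ) × LaurentSeries ℂ).1 = h i
    rw [he i hi]
  have h2 : Q.map f2 = ∏ i ∈ s, (X - C (x i)) := by
    rw [Polynomial.map_prod]
    refine Finset.prod_congr rfl fun i hi => ?_
    rw [Polynomial.map_sub, Polynomial.map_X, Polynomial.map_C]
    congr 2
    show ((e i : G) : (ℍ → ℂ) × LaurentSeries ℂ).2 = x i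
    rw [he i hi]
  have h3 := (Q.coeff n).2
  rw [← h1, ← h2, Polynomial.coeff_map, Polynomial.coeff_map]
  exact h3

/-! ### The analytic coefficient functions -/

section Main

variable (M : ℕ) [NeZero M]

/-- the coefficients of `∏ (X - W_b)`, `b` over the representatives of `(ℤ/M)ˣ/±1` -/
def g1d_coeffAn (n : ℕ) : ℍ → ℂ := (∏ b ∈ gv1_reps M, (X - C (g1a_W M b))).coeff n

theorem g1d_coeffAn_apply (n : ℕ) (z : ℍ) :
    g1d_coeffAn M n z = (∏ b ∈ gv1_reps M, (X - C (g1a_W M b z))).coeff n := by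
  have h := Polynomial.coeff_map (p := ∏ b ∈ gv1_reps M, (X - C (g1a_W M b)))
    (Pi.evalRingHom (fun _ : ℍ => ℂ) z) n
  rw [Polynomial.map_prod] at h
  simp only [Polynomial.map_sub, Polynomial.map_X, Polynomial.map_C, Pi.evalRingHom_apply] at h
  exact h.symm

/-- the upper left entry of an element of `Γ₀(M)` is a unit modulo `M` -/
theorem g1d_isUnit_of_mem_Gamma0 {γ : SL(2, ℤ)} (hγ : γ ∈ Gamma0 M) :
    IsUnit ((γ 0 0 : ℤ) : ZMod M) := by
  rw [Gamma0_mem] at hγ
  have hdet : γ 0 0 * γ 1 1 - γ 0 1 * γ 1 0 = 1 := by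
    have := γ.det_coe
    rw [Matrix.det_fin_two] at this
    exact this
  have hdetM : ((γ 0 0 : ℤ) : ZMod M) * ((γ 1 1 : ℤ) : ZMod M) = 1 := by
    have := congrArg (fun x : ℤ => (x : ZMod M)) hdet
    push_cast at this
    rw [hγ] at this
    simpa using this
  exact IsUnit.of_mul_eq_one _ hdetM

/-- **the diamond-symmetric coefficients are `Γ₀(M)`-invariant** -/
theorem g1d_coeffAn_inv (n : ℕ) {γ : SL(2, ℤ)} (hγ : γ ∈ Gamma0 M) (z : ℍ) :
    g1d_coeffAn M n (γ • z) = g1d_coeffAn M n z := by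
  rw [g1d_coeffAn_apply, g1d_coeffAn_apply]
  have h1 : ∏ b ∈ gv1_reps M, (X - C (g1a_W M b (γ • z)) : Polynomial ℂ) =
      ∏ b ∈ gv1_reps M, (X - C (g1a_W M (b * ((γ 0 0 : ℤ) : ZMod M)) z)) :=
    Finset.prod_congr rfl fun b _ => by rw [g1a_W_smul_Gamma0 M b hγ z]
  have h2 := g1d_prod_reindex (fun a => (X - C (g1a_W M a z) : Polynomial ℂ))
    (fun a => by rw [g1a_W_neg]) (g1d_isUnit_of_mem_Gamma0 M hγ)
  rw [h1, h2]

theorem g1d_coeffAn_spec (hM : 3 ≤ M) (n : ℕ) :
    IsWeakModFun M (g1d_coeffAn M n) ∧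
      br_HasLaurentQ (g1d_coeffAn M n)
        ((∏ b ∈ gv1_reps M, (X - C (g1w_w ℂ M b))).coeff n) := by
  obtain ⟨hw, hq⟩ := g1d_coeff_prod_graph (Γ := g1f_Gpm M) (gv1_reps M) (fun b => g1a_W M b)
    (fun b => g1w_w ℂ M b) (fun b _ => g1a_W_isWeak M b)
    (fun b hb => g1a_hasLaurentQ_W M b (gv1_unit_ne_zero hM (gv1_mem_reps.mp hb).1)) n
  exact ⟨⟨hw.mdiff, fun γ hγ z => g1d_coeffAn_inv M n hγ z, hw.growth⟩, hq⟩

/-- `laurentBaseChange ℚ F = F` -/
theorem g1d_laurentBaseChange_rat (F : IntermediateField ℚ (LaurentSeries ℚ)) :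
    laurentBaseChange ℚ F = F := by
  have h1 : ∀ x : LaurentSeries ℚ, coeffEmb ℚ x = x := fun x => by
    rw [coeffEmb, coeffMap_congr (Subsingleton.elim (algebraMap ℚ ℚ) (RingHom.id ℚ)), coeffMap_id]
  have h2 : (⇑(coeffEmb ℚ) '' (F : Set (LaurentSeries ℚ))) = (F : Set (LaurentSeries ℚ)) := by
    ext x
    constructor
    · rintro ⟨y, hy, rfl⟩
      rw [h1]
      exact hy
    · intro hx
      exact ⟨x, hx, h1 x⟩
  rw [laurentBaseChange, h2, IntermediateField.adjoin_self]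

/-- **[I-D1]** the coefficients of the diamond-symmetric polynomial `∏_b (X - w_b)`, `b` over the
representatives of `(ℤ/M)ˣ/±1`, lie in the function field of `X₀(M)`. -/
theorem g1d_coeff_mem (hM : 3 ≤ M) (n : ℕ) :
    (∏ b ∈ gv1_reps M, (Polynomial.X - Polynomial.C (g1w_w ℚ M b))).coeff n ∈
      modularFunctionFieldFull M := by
  obtain ⟨hweak, hq⟩ := g1d_coeffAn_spec M hM n
  have h1 : gm_lq (g1d_coeffAn M n) ∈ gc_F M := gc_lq_mem_F M hweak
  have h2 : gm_lq (g1d_coeffAn M n) = (∏ b ∈ gv1_reps M, (X - C (g1w_w ℂ M b))).coeff n :=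
    (gc_hasLaurentQ_of_weak hweak).unique_right hq
  have h3 : (∏ b ∈ gv1_reps M, (X - C (g1w_w ℂ M b))).coeff n =
      coeffMap (algebraMap ℚ ℂ) ((∏ b ∈ gv1_reps M, (X - C (g1w_w ℚ M b))).coeff n) := by
    rw [← Polynomial.coeff_map, Polynomial.map_prod]
    congr 1
    refine Finset.prod_congr rfl fun b _ => ?_
    rw [Polynomial.map_sub, Polynomial.map_X, Polynomial.map_C, g1w_coeffMap_w]
  rw [h2, h3] at h1
  have h4 := gd_mem_of_coeffMap_mem (K₀ := ℚ) (K := ℂ) (modularFunctionFieldFull M) h1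
  rwa [g1d_laurentBaseChange_rat] at h4

/-- **[I-D1], packaged form**: the diamond-symmetric polynomial as a monic polynomial over the
function field of `X₀(M)`, of degree `#((ℤ/M)ˣ/±1)`. -/
theorem g1d_exists_poly (hM : 3 ≤ M) :
    ∃ g : Polynomial ↥(modularFunctionFieldFull M), g.Monic ∧
      g.natDegree = (gv1_reps M).card ∧
      g.map (algebraMap ↥(modularFunctionFieldFull M) (LaurentSeries ℚ)) =
        ∏ b ∈ gv1_reps M, (Polynomial.X - Polynomial.C (g1w_w ℚ M b)) := by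
  have hmonic : (∏ b ∈ gv1_reps M, (X - C (g1w_w ℚ M b)) : Polynomial (LaurentSeries ℚ)).Monic :=
    Polynomial.monic_prod_of_monic _ _ fun b _ => Polynomial.monic_X_sub_C _
  have hlifts : (∏ b ∈ gv1_reps M, (X - C (g1w_w ℚ M b)) : Polynomial (LaurentSeries ℚ)) ∈
      Polynomial.lifts (algebraMap ↥(modularFunctionFieldFull M) (LaurentSeries ℚ)) := by
    rw [Polynomial.lifts_iff_coeff_lifts]
    intro n
    exact ⟨⟨_, g1d_coeff_mem M hM n⟩, rfl⟩
  obtain ⟨g, hg, hdeg, hgm⟩ := Polynomial.lifts_and_degree_eq_and_monic hlifts hmonic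
  refine ⟨g, hgm, ?_, hg⟩
  have h1 : g.natDegree = (∏ b ∈ gv1_reps M, (X - C (g1w_w ℚ M b)) :
      Polynomial (LaurentSeries ℚ)).natDegree := Polynomial.natDegree_eq_of_degree_eq hdeg
  rw [h1, Polynomial.natDegree_prod_of_monic _ _ fun b _ => Polynomial.monic_X_sub_C _]
  simp

end Main

end

end Fermat.Agent.DS
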