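/-
DS-T / cell [G1] → cell [GR] (helper2, #1624 (4)): the `Γ₁`-field is a member of the generic family
`gr_F G L` of `DS/GR/Field.lean`, for the explicit set of INTEGRAL generators
`g1f_GZ M N ⊆ ℤ((q))`; and it contains `j` (`gr_HasJ`).  Prefix `g1f_`.
-/
import Mathlib
import Fermat.Agent.DS.Gam1.Defs
import Fermat.Agent.DS.GR.Field

set_option autoImplicit false

open ModularCurve IntermediateField

namespace Fermat.Agent.DS

/-- the integral generators of the `Γ₁`-field: `j(q^d)` (`d ∣ N`) and `w_a(q^e)` (`e M ∣ N`,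
`a ∈ (ℤ/M)ˣ`), in `ℤ((q))` -/
def g1f_GZ (M N : ℕ) : Set (LaurentSeries ℤ) :=
  {x | ∃ (d : ℕ) (_ : NeZero d), d ∣ N ∧ x = qExpand ℤ d (jqModC ℤ)} ∪
    {x | ∃ (e : ℕ) (_ : NeZero e) (a : (ZMod M)ˣ), e * M ∣ N ∧
      x = qExpand ℤ e (g1w_w ℤ M (a : ZMod M))}

theorem g1f_coeffMap_GZ (K : Type*) [Field K] (M N : ℕ) :
    (coeffMap (Int.castRingHom K)) '' (g1f_GZ M N) = g1f_gens K M N := by
  ext x
  constructor
  · rintro ⟨y, (⟨d, hd, hdN, rfl⟩ | ⟨e, he, a, heN, rfl⟩), rfl⟩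
    · have := hd
      rw [coeffMap_qExpand, coeffMap_jqModC]
      exact g1f_jd_mem_gens hdN
    · have := he
      rw [coeffMap_qExpand, g1w_coeffMap_w]
      exact g1f_w_mem_gens heN a
  · rintro (⟨d, hd, hdN, rfl⟩ | ⟨e, he, a, heN, rfl⟩)
    · have := hd
      refine ⟨qExpand ℤ d (jqModC ℤ), Or.inl ⟨d, hd, hdN, rfl⟩, ?_⟩
      rw [coeffMap_qExpand, coeffMap_jqModC]
    · have := he
      refine ⟨qExpand ℤ e (g1w_w ℤ M (a : ZMod M)), Or.inr ⟨e, he, a, heN, rfl⟩, ?_⟩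
      rw [coeffMap_qExpand, g1w_coeffMap_w]

/-- **the `Γ₁`-field is the member `G = g1f_GZ M N` of helper2's generic family** -/
theorem g1f_FC_eq_gr_F (K : Type*) [Field K] (M N : ℕ) : g1f_FC K M N = gr_F (g1f_GZ M N) K := by
  rw [g1f_FC, gr_F, g1f_coeffMap_GZ]

instance g1f_hasJ (K : Type*) [Field K] (M N : ℕ) : gr_HasJ (g1f_FC K M N) :=
  ⟨g1f_j_mem_FC⟩

theorem g1f_jZ_mem_GZ (M N : ℕ) : jqModC ℤ ∈ g1f_GZ M N :=
  Or.inl ⟨1, inferInstance, one_dvd N, (qExpand_one_apply _).symm⟩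

theorem g1f_wZ_mem_GZ {M N : ℕ} (h : M ∣ N) (a : (ZMod M)ˣ) :
    g1w_w ℤ M (a : ZMod M) ∈ g1f_GZ M N :=
  Or.inr ⟨1, inferInstance, a, by simpa using h, (qExpand_one_apply _).symm⟩

/-- the set of generators is finite (for `N ≠ 0`) -/
theorem g1f_GZ_finite (M N : ℕ) [NeZero N] : (g1f_GZ M N).Finite := by
  refine Set.Finite.union ?_ ?_
  · refine Set.Finite.subset ((Finset.range (N + 1)).finite_toSet.image
      (fun d => if h : d = 0 then 0 else
        haveI : NeZero d := ⟨h⟩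
        qExpand ℤ d (jqModC ℤ))) ?_
    rintro x ⟨d, hd, hdN, rfl⟩
    refine ⟨d, ?_, ?_⟩
    · simp only [Finset.coe_range, Set.mem_Iio]
      exact Nat.lt_succ_of_le (Nat.le_of_dvd (Nat.pos_of_ne_zero (NeZero.ne N)) hdN)
    · simp only [dif_neg (NeZero.ne d)]
  · by_cases hM0 : M = 0
    · subst hM0
      refine Set.Finite.subset (Set.finite_empty) ?_
      rintro x ⟨e, he, a, heN, rfl⟩
      rw [mul_zero, zero_dvd_iff] at heN
      exact absurd heN (NeZero.ne N)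
    · have : NeZero M := ⟨hM0⟩
      refine Set.Finite.subset (((Finset.range (N + 1)).finite_toSet.prod
        (Set.finite_univ (α := (ZMod M)ˣ))).image
        (fun p : ℕ × (ZMod M)ˣ => if h : p.1 = 0 then 0 else
          haveI : NeZero p.1 := ⟨h⟩
          qExpand ℤ p.1 (g1w_w ℤ M (p.2 : ZMod M)))) ?_
      rintro x ⟨e, he, a, heN, rfl⟩
      refine ⟨(e, a), ⟨?_, Set.mem_univ _⟩, ?_⟩
      · simp only [Finset.coe_range, Set.mem_Iio]
        exact Nat.lt_succ_of_le (Nat.le_of_dvd (Nat.pos_of_ne_zero (NeZero.ne N))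
          ((Dvd.intro _ rfl).trans heN))
      · simp only [dif_neg (NeZero.ne e)]

end Fermat.Agent.DS
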