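import Mathlib
import Fermat.Agent.DS.Gam1.Defs

/-!
# DS-T / cell [G1], leaf [I4]: group facts about `±Γ₁(M)` and `±Γ₁(M) ∩ Γ₀(N)` (prefix `g1q_`)

* `g1q_finiteIndex_Gpm`, `g1q_finiteIndex_G` : finite index in `SL(2, ℤ)`;
* `g1q_trace_mod`, `g1q_four_le_trace_sq`, `g1q_trace_eq_of_sq_le` : the trace of an element of
  `±Γ₁(M)` is `≡ ±2 mod M`; for `M ≥ 4` there are no elliptic elements, and `tr² ≤ 4` forces
  `tr = ±2`;
* `g1q_relIndex`, `g1q_index_mul`, `g1q_card_quotient_mul` : for a prime `p ∤ M` the index of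
  `g1f_G M (M p)` in `g1f_G M M = ±Γ₁(M)` is `p + 1` (orbit of `[1 : 0] ∈ ℙ¹(𝔽_p)`).
-/

set_option autoImplicit false
set_option linter.style.haveILetI false

open CongruenceSubgroup
open scoped MatrixGroups

namespace Fermat.Agent.DS

/-! ### Finite index -/

instance g1q_finiteIndex_Gpm (M : ℕ) [NeZero M] : (g1f_Gpm M).FiniteIndex :=
  Subgroup.finiteIndex_of_le (g1f_Gamma_le_Gpm M)

theorem g1q_finiteIndex_G (M N : ℕ) [NeZero N] (h : M ∣ N) : (g1f_G M N).FiniteIndex :=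
  Subgroup.finiteIndex_of_le (g1f_Gamma_le_G h)

instance g1q_finiteIndex_G_self (M : ℕ) [NeZero M] : (g1f_G M M).FiniteIndex :=
  g1q_finiteIndex_G M M dvd_rfl

instance g1q_finiteIndex_G_mul (M p : ℕ) [NeZero M] [NeZero p] : (g1f_G M (M * p)).FiniteIndex :=
  g1q_finiteIndex_G M (M * p) (dvd_mul_right M p)

/-! ### Traces -/

/-- the trace of an element of `±Γ₁(M)` is `≡ ±2` modulo `M`. -/
theorem g1q_trace_mod {M : ℕ} {γ : SL(2, ℤ)} (hγ : γ ∈ g1f_Gpm M) :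
    ((γ 0 0 + γ 1 1 : ℤ) : ZMod M) = 2 ∨ ((γ 0 0 + γ 1 1 : ℤ) : ZMod M) = -2 := by
  have h00 := g1f_Gpm_apply_zero_zero hγ
  rcases hγ.2 with h | h
  · left
    push_cast
    rw [h00, h]
    norm_num
  · right
    push_cast
    rw [h00, h]
    norm_num

/-- for `M ≥ 4` the group `±Γ₁(M)` has no elliptic elements: `tr(γ)² ≥ 4`. -/
theorem g1q_four_le_trace_sq {M : ℕ} (hM : 4 ≤ M) {γ : SL(2, ℤ)} (hγ : γ ∈ g1f_Gpm M) :
    4 ≤ (γ 0 0 + γ 1 1) ^ 2 := by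
  by_contra hlt
  rw [not_le] at hlt
  set t : ℤ := γ 0 0 + γ 1 1 with ht
  have ht1 : -1 ≤ t ∧ t ≤ 1 := by
    constructor <;> nlinarith
  rcases g1q_trace_mod hγ with h | h
  · have h2 : ((t - 2 : ℤ) : ZMod M) = 0 := by
      push_cast
      rw [h]
      ring
    rw [ZMod.intCast_zmod_eq_zero_iff_dvd] at h2
    have h3 := Int.le_of_dvd (by omega : (0 : ℤ) < 2 - t) ((dvd_neg.2 h2).trans (by
      rw [neg_sub]))
    omega
  · have h2 : ((t + 2 : ℤ) : ZMod M) = 0 := by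
      push_cast
      rw [h]
      ring
    rw [ZMod.intCast_zmod_eq_zero_iff_dvd] at h2
    have h3 := Int.le_of_dvd (by omega : (0 : ℤ) < t + 2) h2
    omega

/-- for `M ≥ 4`, an element of `±Γ₁(M)` with `tr(γ)² ≤ 4` has trace `±2` (is `±` parabolic). -/
theorem g1q_trace_eq_of_sq_le {M : ℕ} (hM : 4 ≤ M) {γ : SL(2, ℤ)} (hγ : γ ∈ g1f_Gpm M)
    (h : (γ 0 0 + γ 1 1) ^ 2 ≤ 4) : γ 0 0 + γ 1 1 = 2 ∨ γ 0 0 + γ 1 1 = -2 := by
  have h4 := g1q_four_le_trace_sq hM hγ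
  have h5 : (γ 0 0 + γ 1 1) ^ 2 = 4 := le_antisymm h h4
  have h6 : (γ 0 0 + γ 1 1 - 2) * (γ 0 0 + γ 1 1 + 2) = 0 := by linear_combination h5
  rcases mul_eq_zero.1 h6 with h7 | h7
  · left; linarith
  · right; linarith

section Index

variable {M p : ℕ}

/-- entries of a product in `SL(2, ℤ)` -/
theorem g1q_mul_apply_one_zero (γ δ : SL(2, ℤ)) :
    ((γ * δ) 1 0 : ℤ) = γ 1 0 * δ 0 0 + γ 1 1 * δ 1 0 := by
  simp [Matrix.SpecialLinearGroup.coe_mul, Matrix.mul_apply, Fin.sum_univ_two]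

theorem g1q_inv_apply_one_zero (γ : SL(2, ℤ)) : ((γ⁻¹) 1 0 : ℤ) = -γ 1 0 := by
  simp [Matrix.SpecialLinearGroup.coe_inv, Matrix.adjugate_fin_two]

theorem g1q_inv_apply_one_one (γ : SL(2, ℤ)) : ((γ⁻¹) 1 1 : ℤ) = γ 0 0 := by
  simp [Matrix.SpecialLinearGroup.coe_inv, Matrix.adjugate_fin_two]

theorem g1q_det (γ : SL(2, ℤ)) : γ 0 0 * γ 1 1 - γ 0 1 * γ 1 0 = 1 := by
  have := γ.det_coe
  rw [Matrix.det_fin_two] at this
  exact this

/-- `±Γ₁(M) ∩ Γ₀(Mp) = ±Γ₁(M) ∩ Γ₀(p)` for `p ∤ M` prime. -/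
theorem g1q_mem_G_mul (hp : p.Prime) (hpM : ¬ p ∣ M) {γ : SL(2, ℤ)} :
    γ ∈ g1f_G M (M * p) ↔ γ ∈ g1f_Gpm M ∧ ((γ 1 0 : ℤ) : ZMod p) = 0 := by
  rw [g1f_mem_G]
  refine and_congr_right fun hγ => ?_
  have h1 : γ ∈ Gamma0 (M * p) ↔ ((γ 1 0 : ℤ) : ZMod (M * p)) = 0 := Gamma0_mem
  rw [h1, ZMod.intCast_zmod_eq_zero_iff_dvd, ZMod.intCast_zmod_eq_zero_iff_dvd]
  have hM : ((M : ℕ) : ℤ) ∣ γ 1 0 := by
    rw [← ZMod.intCast_zmod_eq_zero_iff_dvd]
    exact hγ.1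
  have hcop : IsCoprime ((M : ℕ) : ℤ) ((p : ℕ) : ℤ) := by
    rw [Int.isCoprime_iff_gcd_eq_one, Int.gcd_natCast_natCast]
    exact Nat.Coprime.symm ((Nat.Prime.coprime_iff_not_dvd hp).2 hpM)
  constructor
  · intro h
    refine dvd_trans ?_ h
    push_cast
    exact dvd_mul_left _ _
  · intro h
    push_cast
    exact hcop.mul_dvd hM h

variable [Fact p.Prime]

/-- the point `[γ₀₀ : γ₁₀] = γ · [1 : 0]` of `ℙ¹(𝔽_p)`, coordinatised by `Option (ZMod p)`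
(`none = [1 : 0]`). -/
noncomputable def g1q_pt (p : ℕ) [Fact p.Prime] (γ : SL(2, ℤ)) : Option (ZMod p) :=
  if ((γ 1 0 : ℤ) : ZMod p) = 0 then none
  else some (((γ 0 0 : ℤ) : ZMod p) * (((γ 1 0 : ℤ) : ZMod p))⁻¹)

theorem g1q_apply_zero_zero_ne_zero (γ : SL(2, ℤ)) (h : ((γ 1 0 : ℤ) : ZMod p) = 0) :
    ((γ 0 0 : ℤ) : ZMod p) ≠ 0 := by
  intro h0
  have h1 := congrArg (fun x : ℤ => (x : ZMod p)) (g1q_det γ)
  simp only [Int.cast_sub, Int.cast_mul, Int.cast_one] at h1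
  rw [h, h0] at h1
  simp at h1

/-- two elements have the same point iff they differ by an element of `Γ₀(p)` on the right. -/
theorem g1q_pt_eq_iff (γ δ : SL(2, ℤ)) :
    g1q_pt p γ = g1q_pt p δ ↔ (((γ⁻¹ * δ) 1 0 : ℤ) : ZMod p) = 0 := by
  rw [g1q_mul_apply_one_zero, g1q_inv_apply_one_zero, g1q_inv_apply_one_one]
  push_cast
  unfold g1q_pt
  by_cases hc : ((γ 1 0 : ℤ) : ZMod p) = 0
  · have ha := g1q_apply_zero_zero_ne_zero γ hc
    rw [if_pos hc, hc]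
    by_cases hc' : ((δ 1 0 : ℤ) : ZMod p) = 0
    · rw [if_pos hc', hc']
      simp
    · rw [if_neg hc']
      simp [ha, hc']
  · rw [if_neg hc]
    by_cases hc' : ((δ 1 0 : ℤ) : ZMod p) = 0
    · have ha' := g1q_apply_zero_zero_ne_zero δ hc'
      rw [if_pos hc', hc']
      simp [hc, ha']
    · rw [if_neg hc', Option.some_inj]
      constructor
      · intro h
        field_simp at h
        linear_combination h
      · intro h
        field_simp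
        linear_combination h

/-- the element `[[1 + M k, k], [M, 1]]` of `Γ₁(M)`. -/
def g1q_rep (M : ℕ) (k : ℤ) : SL(2, ℤ) :=
  ⟨!![1 + (M : ℤ) * k, k; (M : ℤ), 1], by rw [Matrix.det_fin_two_of]; ring⟩

@[simp] theorem g1q_rep_apply_zero_zero (M : ℕ) (k : ℤ) : (g1q_rep M k) 0 0 = 1 + (M : ℤ) * k := rfl
@[simp] theorem g1q_rep_apply_one_zero (M : ℕ) (k : ℤ) : (g1q_rep M k) 1 0 = (M : ℤ) := rfl
@[simp] theorem g1q_rep_apply_one_one (M : ℕ) (k : ℤ) : (g1q_rep M k) 1 1 = 1 := rfl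

theorem g1q_rep_mem (M : ℕ) (k : ℤ) : g1q_rep M k ∈ g1f_Gpm M := by
  rw [g1f_mem_Gpm]
  refine ⟨by simp, Or.inl (by simp)⟩

/-- every point `some t` is reached from `±Γ₁(M)` when `p ∤ M`. -/
theorem g1q_pt_rep (hpM : ¬ p ∣ M) (t : ZMod p) :
    ∃ k : ℤ, g1q_pt p (g1q_rep M k) = some t := by
  have hM0 : ((M : ℕ) : ZMod p) ≠ 0 := by
    rw [Ne, ZMod.natCast_eq_zero_iff]
    exact hpM
  obtain ⟨k, hk⟩ := ZMod.intCast_surjective (t - ((M : ℕ) : ZMod p)⁻¹)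
  refine ⟨k, ?_⟩
  unfold g1q_pt
  have h10 : (((g1q_rep M k) 1 0 : ℤ) : ZMod p) = ((M : ℕ) : ZMod p) := by simp
  rw [if_neg (by rw [h10]; exact hM0), h10]
  congr 1
  simp only [g1q_rep_apply_zero_zero]
  push_cast
  rw [hk]
  field_simp
  ring

end Index

section RelIndex

/-- **The index of `±Γ₁(M) ∩ Γ₀(Mp)` in `±Γ₁(M)` is `p + 1`** (`p ∤ M` prime). -/
theorem g1q_relIndex_Gpm (M p : ℕ) (hp : p.Prime) (hpM : ¬ p ∣ M) :
    (g1f_G M (M * p)).relIndex (g1f_Gpm M) = p + 1 := by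
  haveI : Fact p.Prime := ⟨hp⟩
  haveI : NeZero p := ⟨hp.ne_zero⟩
  have hmem : ∀ a b : g1f_Gpm M, a⁻¹ * b ∈ (g1f_G M (M * p)).subgroupOf (g1f_Gpm M) ↔
      g1q_pt p (a : SL(2, ℤ)) = g1q_pt p (b : SL(2, ℤ)) := by
    intro a b
    rw [Subgroup.mem_subgroupOf, g1q_mem_G_mul hp hpM, g1q_pt_eq_iff]
    constructor
    · intro h
      exact h.2
    · intro h
      exact ⟨(a⁻¹ * b).2, h⟩
  let f : g1f_Gpm M ⧸ (g1f_G M (M * p)).subgroupOf (g1f_Gpm M) → Option (ZMod p) :=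
    Quotient.lift (fun g : g1f_Gpm M => g1q_pt p (g : SL(2, ℤ))) (by
      intro a b hab
      exact (hmem a b).1 (QuotientGroup.leftRel_apply.1 hab))
  have hf : Function.Bijective f := by
    constructor
    · intro x y
      induction x using QuotientGroup.induction_on with
      | H a =>
        induction y using QuotientGroup.induction_on with
        | H b =>
          intro h
          exact QuotientGroup.eq.2 ((hmem a b).2 h)
    · intro t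
      cases t with
      | none =>
        refine ⟨((1 : g1f_Gpm M) : g1f_Gpm M ⧸ _), ?_⟩
        show g1q_pt p ((1 : g1f_Gpm M) : SL(2, ℤ)) = none
        unfold g1q_pt
        simp
      | some t =>
        obtain ⟨k, hk⟩ := g1q_pt_rep (M := M) hpM t
        exact ⟨((⟨g1q_rep M k, g1q_rep_mem M k⟩ : g1f_Gpm M) : g1f_Gpm M ⧸ _), hk⟩
  rw [Subgroup.relIndex, Subgroup.index_eq_card, Nat.card_congr (Equiv.ofBijective f hf),
    Nat.card_eq_fintype_card, Fintype.card_option, ZMod.card]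

/-- the same with `g1f_G M M` in place of `±Γ₁(M)`. -/
theorem g1q_relIndex (M p : ℕ) (hp : p.Prime) (hpM : ¬ p ∣ M) :
    (g1f_G M (M * p)).relIndex (g1f_G M M) = p + 1 := by
  rw [g1f_G_self]
  exact g1q_relIndex_Gpm M p hp hpM

/-- the absolute indices. -/
theorem g1q_index_mul (M p : ℕ) (hp : p.Prime) (hpM : ¬ p ∣ M) :
    (g1f_G M (M * p)).index = (p + 1) * (g1f_G M M).index := by
  have hle : g1f_G M (M * p) ≤ g1f_G M M := g1f_G_anti (dvd_mul_right M p)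
  rw [← g1q_relIndex M p hp hpM, Subgroup.relIndex_mul_index hle]

/-- the same in terms of coset spaces (the `hdeg` vocabulary of the generic layer). -/
theorem g1q_card_quotient_mul (M p : ℕ) (hp : p.Prime) (hpM : ¬ p ∣ M) :
    Nat.card (SL(2, ℤ) ⧸ g1f_G M (M * p)) = (p + 1) * Nat.card (SL(2, ℤ) ⧸ g1f_G M M) := by
  rw [← Subgroup.index_eq_card, ← Subgroup.index_eq_card]
  exact g1q_index_mul M p hp hpM

end RelIndex

end Fermat.Agent.DS
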