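/-
DS-T / cell [G1], instance leaf I2: the gateway CONTEXT of the `Γ₁(M)` tower over a field `K ⊆ ℂ`
(`K = Q̄` and `K = ℂ` are the cases used; twin of `S24/Bridge/{Field, Lift}` + `gw_ctxBar` and of
`JT3/Gateway/CField`; prefix `g1i_`).

For `M ∣ N`, `M ≠ 1`, `K` a field with `[Algebra ℚ K] [Algebra K ℂ]`:
* `g1i_F K M N`   : `laurentBaseChange K (g1f_F M N)` (`= g1f_Fbar M N` for `K = Q̄`, by `rfl`);
* `g1i_A K M N`   : the `K`-algebra generated by `j(q^d)` (`d ∣ N`) and `w_a(q^e)` (`e M ∣ N`), inside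
                    `K((q))`; `g1i_F K M N` is its fraction field (`g1i_isFractionRing`);
* `g1i_an K hM`   : the analytic realisation `A → (ℍ → ℂ)`, `j(q^d) ↦ (z ↦ j(d z))`,
                    `w_a(q^e) ↦ (z ↦ W_a(e z))` (`g1i_an_spec`: `br_HasLaurentQ`), with values in the
                    weakly holomorphic modular functions for `±Γ₁(M) ∩ Γ₀(N)`;
* `g1i_sep`       : an element of `SL(2,ℤ)` fixing all these functions lies in `±Γ₁(M) ∩ Γ₀(N)`
                    (from `j(N z)` and the coefficient of `q` of `s_a`);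
* **`g1i_ctx K hM hMN`** : `g1g_Ctx N (g1f_G M N) K (g1i_F K M N) (g1i_A K M N)`;
  `g1i_ctxBar := g1i_ctx Q̄` (with `Algebra Q̄ ℂ` from `br_iota`), `g1i_ctxC := g1i_ctx ℂ`.
-/
import Mathlib
import Fermat.Agent.S24.Bridge.Lift
import Fermat.Agent.DS.Gam1.GenAn
import Fermat.Agent.DS.Gam1.Gen.Ctx

set_option autoImplicit false

open UpperHalfPlane ModularForm Filter Topology Function Complex CongruenceSubgroup
open scoped MatrixGroups Manifold
open Fermat.Agent.S23.QF (IsQFun)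
open Fermat.Agent.S23 (alphaN)

namespace Fermat.Agent.DS

open Fermat.Agent.S24 Fermat.Agent.S24.Br ModularCurve

noncomputable section

local notation "Kbar" => AlgebraicClosure ℚ

/-! ### coefficient of `q` of `s_a` and separation of the `w_a` -/

theorem g1w_coeff_one_sZ (M : ℕ) (a : ZMod M) :
    PowerSeries.coeff 1 (g1w_sZ M a) = g1w_wt M a 1 := by
  rw [g1w_coeff_sZ]
  simp

theorem g1w_wt_one_pos (M : ℕ) : 0 < g1w_wt M 1 1 := by
  rw [g1w_wt]
  have h1 : ((1 : ℕ) : ZMod M) = 1 := by simp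
  rw [if_pos h1]
  split_ifs <;> norm_num

theorem g1w_wt_eq_zero {M : ℕ} {a : ZMod M} (h1 : a ≠ 1) (h2 : a ≠ -1) : g1w_wt M a 1 = 0 := by
  rw [g1w_wt]
  have e1 : ¬ ((1 : ℕ) : ZMod M) = a := by
    intro h
    apply h1
    rw [← h]
    simp
  have e2 : ¬ ((1 : ℕ) : ZMod M) = -a := by
    intro h
    apply h2
    rw [← neg_neg a, ← h]
    simp
  rw [if_neg e1, if_neg e2]
  rfl

/-- `w_a = w_1` over `ℂ` forces `a = ±1` -/
theorem g1w_eq_one_of_w_eq {M : ℕ} {a : ZMod M} (h : g1w_w ℂ M a = g1w_w ℂ M 1) :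
    a = 1 ∨ a = -1 := by
  by_contra hcon
  push Not at hcon
  have h0 := g1w_wt_eq_zero hcon.1 hcon.2
  have hpos := g1w_wt_one_pos M
  -- cancel `single (-1) 1`
  rw [g1w_w, g1w_w] at h
  have hs : (HahnSeries.single (-1 : ℤ) (1 : ℂ) : LaurentSeries ℂ) ≠ 0 :=
    HahnSeries.single_ne_zero one_ne_zero
  have h1 := mul_left_cancel₀ hs h
  have h2 := HahnSeries.ofPowerSeries_injective h1
  -- cancel the unit `E₄² (Δ/q)⁻¹`
  have h3 : g1w_numZ M a = g1w_numZ M 1 := by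
    ext n
    have := congrArg (PowerSeries.coeff n) h2
    rw [PowerSeries.coeff_map, PowerSeries.coeff_map] at this
    exact Int.cast_injective (α := ℂ) (by simpa using this)
  have h4 : g1w_sZ M a = g1w_sZ M 1 := by
    have hU : eisenstein4 ^ 2 * dedekindEtaUnitInv ≠ 0 := by
      intro h0
      have := congrArg (PowerSeries.constantCoeff (R := ℤ)) h0
      rw [map_mul, map_pow, constantCoeff_eisenstein4, constantCoeff_dedekindEtaUnitInv] at this
      simp at this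
    rw [g1w_numZ, g1w_numZ, mul_assoc, mul_assoc] at h3
    exact mul_right_cancel₀ hU h3
  have h5 := congrArg (PowerSeries.coeff 1) h4
  rw [g1w_coeff_one_sZ, g1w_coeff_one_sZ, h0] at h5
  omega

/-! ### the algebra `A` and the fraction field -/

section generic

set_option linter.unusedSectionVars false

variable (K : Type) [Field K] [Algebra ℚ K]

/-- the function field of `X(±Γ₁(M) ∩ Γ₀(N))` over `K` (characteristic zero), as the base change
of the field over `ℚ`; for `K = Q̄` it is `g1f_Fbar M N` by definition -/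
abbrev g1i_F (M N : ℕ) : IntermediateField K (LaurentSeries K) :=
  laurentBaseChange K (g1f_F M N)

theorem g1i_F_bar (M N : ℕ) : g1i_F Kbar M N = g1f_Fbar M N := rfl

theorem g1i_F_eq (M N : ℕ) : g1i_F K M N = g1f_FC K M N :=
  (g1f_FC_eq_laurentBaseChange K M N).symm

/-- the `K`-algebra generated by `j(q^d)` (`d ∣ N`) and `w_a(q^e)` (`e M ∣ N`) -/
def g1i_A (M N : ℕ) : Subalgebra K (LaurentSeries K) :=
  Algebra.adjoin K (g1f_gens K M N)

theorem g1i_A_le (M N : ℕ) : g1i_A K M N ≤ (g1i_F K M N).toSubalgebra := by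
  rw [g1i_F_eq, g1f_FC]
  exact IntermediateField.algebra_adjoin_le_adjoin _ _

/-- every element of the field is a quotient of two elements of `A` -/
theorem g1i_exists_div (M N : ℕ) {x : LaurentSeries K} (hx : x ∈ g1i_F K M N) :
    ∃ r ∈ g1i_A K M N, ∃ s ∈ g1i_A K M N, s ≠ 0 ∧ x = r / s := by
  rw [g1i_F_eq, g1f_FC, IntermediateField.mem_adjoin_iff_div] at hx
  obtain ⟨r, hr, s, hs, rfl⟩ := hx
  by_cases h0 : s = 0
  · subst h0
    exact ⟨0, zero_mem _, 1, one_mem _, one_ne_zero, by simp⟩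
  · exact ⟨r, hr, s, hs, h0, rfl⟩

instance g1i_algebraAF (M N : ℕ) : Algebra (g1i_A K M N) (g1i_F K M N) :=
  (Subalgebra.inclusion (g1i_A_le K M N)).toAlgebra

theorem g1i_algebraMap_AF (M N : ℕ) (x : g1i_A K M N) :
    ((algebraMap (g1i_A K M N) (g1i_F K M N) x : g1i_F K M N) : LaurentSeries K) = x := rfl

instance g1i_scalarTowerAF (M N : ℕ) : IsScalarTower K (g1i_A K M N) (g1i_F K M N) :=
  IsScalarTower.of_algebraMap_eq fun _ => rfl

instance g1i_faithfulAF (M N : ℕ) : FaithfulSMul (g1i_A K M N) (g1i_F K M N) := by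
  rw [faithfulSMul_iff_algebraMap_injective]
  intro x y h
  have := congrArg (fun z : g1i_F K M N => (z : LaurentSeries K)) h
  exact Subtype.ext this

instance g1i_isFractionRing (M N : ℕ) : IsFractionRing (g1i_A K M N) (g1i_F K M N) :=
  IsFractionRing.of_field _ _ fun ⟨x, hx⟩ => by
    obtain ⟨r, hr, s, hs, hs0, rfl⟩ := g1i_exists_div K M N hx
    exact ⟨⟨r, hr⟩, ⟨s, hs⟩, Subtype.ext rfl⟩

/-! ### the analytic realisation -/

variable [Algebra K ℂ]

omit [Algebra ℚ K] in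
theorem g1i_coeffMap_jd (d : ℕ) [NeZero d] :
    coeffMap (algebraMap K ℂ) (qExpand K d (jqModC K)) = qExpand ℂ d br_jqC := by
  rw [coeffMap_qExpand, coeffMap_jqModC, br_jqC, ← jqModC_rat, coeffMap_jqModC]

omit [Algebra ℚ K] in
theorem g1i_coeffMap_wq (M : ℕ) (a : ZMod M) (e : ℕ) [NeZero e] :
    coeffMap (algebraMap K ℂ) (qExpand K e (g1w_w K M a))
      = qExpand ℂ e (g1w_w ℂ M a) := by
  rw [coeffMap_qExpand, g1w_coeffMap_w]

omit [Algebra ℚ K] in
theorem g1i_coeffMap_algebraMap (c : K) :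
    coeffMap (algebraMap K ℂ) (algebraMap K (LaurentSeries K) c)
      = HahnSeries.C (algebraMap K ℂ c) := by
  rw [algebraMap_laurentSeries_eq_single, coeffMap_single]
  rfl

omit [Algebra ℚ K] [Algebra K ℂ] in
theorem g1i_unit_ne_zero {M : ℕ} (hM : M ≠ 1) (a : (ZMod M)ˣ) : (a : ZMod M) ≠ 0 := by
  have : Nontrivial (ZMod M) := by
    rcases M with _ | _ | M
    · exact inferInstanceAs (Nontrivial ℤ)
    · exact absurd rfl hM
    · have : Fact (1 < M + 1 + 1) := ⟨by omega⟩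
      exact ZMod.nontrivial _
  exact a.ne_zero

theorem g1i_exists_an {M N : ℕ} (hM : M ≠ 1) {x : LaurentSeries K} (hx : x ∈ g1i_A K M N) :
    ∃ g : ℍ → ℂ, br_HasLaurentQ g (coeffMap (algebraMap K ℂ) x)
      ∧ g1g_IsWeakModFun (g1f_G M N) g := by
  induction hx using Algebra.adjoin_induction with
  | mem y hy =>
    rcases hy with ⟨d, hd, hdN, rfl⟩ | ⟨e, he, a, heN, rfl⟩
    · exact ⟨jd d, by rw [g1i_coeffMap_jd]; exact br_HasLaurentQ_jd d,
        g1g_isWeakModFun_jd hdN (g1f_G_le_Gamma0 M N)⟩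
    · exact ⟨g1a_Wq M (a : ZMod M) e, by
        rw [g1i_coeffMap_wq]
        exact g1a_hasLaurentQ_Wq M _ (g1i_unit_ne_zero hM a) e, g1a_Wq_isWeak M _ heN⟩
  | algebraMap r =>
    exact ⟨fun _ => algebraMap K ℂ r, by
      rw [g1i_coeffMap_algebraMap]; exact br_HasLaurentQ.const _, g1g_IsWeakModFun.const _ _⟩
  | add x y _ _ hx hy =>
    obtain ⟨g₁, h₁, m₁⟩ := hx
    obtain ⟨g₂, h₂, m₂⟩ := hy
    exact ⟨g₁ + g₂, by rw [map_add]; exact h₁.add h₂, m₁.add m₂⟩
  | mul x y _ _ hx hy =>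
    obtain ⟨g₁, h₁, m₁⟩ := hx
    obtain ⟨g₂, h₂, m₂⟩ := hy
    exact ⟨g₁ * g₂, by rw [map_mul]; exact h₁.mul h₂, m₁.mul m₂⟩

/-- the analytic function attached to an element of `A` -/
def g1i_anFun {M N : ℕ} (hM : M ≠ 1) (x : g1i_A K M N) : ℍ → ℂ :=
  (g1i_exists_an K hM x.2).choose

theorem g1i_anFun_spec {M N : ℕ} (hM : M ≠ 1) (x : g1i_A K M N) :
    br_HasLaurentQ (g1i_anFun K hM x)
      (coeffMap (algebraMap K ℂ) (x : LaurentSeries K)) :=
  (g1i_exists_an K hM x.2).choose_spec.1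

theorem g1i_anFun_weak {M N : ℕ} (hM : M ≠ 1) (x : g1i_A K M N) :
    g1g_IsWeakModFun (g1f_G M N) (g1i_anFun K hM x) :=
  (g1i_exists_an K hM x.2).choose_spec.2

theorem g1i_anFun_eq {M N : ℕ} (hM : M ≠ 1) (x : g1i_A K M N) {g : ℍ → ℂ}
    (hg : br_HasLaurentQ g (coeffMap (algebraMap K ℂ) (x : LaurentSeries K))) :
    g1i_anFun K hM x = g :=
  (g1i_anFun_spec K hM x).unique_left hg

/-- **the analytic realisation** `A → (ℍ → ℂ)`, a ring homomorphism -/
def g1i_an {M N : ℕ} (hM : M ≠ 1) : g1i_A K M N →+* (ℍ → ℂ) where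
  toFun x := g1i_anFun K hM x
  map_one' := g1i_anFun_eq K hM 1 <| by
    have h := br_HasLaurentQ.const 1
    have e : coeffMap (algebraMap K ℂ) ((1 : g1i_A K M N) : LaurentSeries K)
        = HahnSeries.C (1 : ℂ) := by
      rw [OneMemClass.coe_one, map_one, map_one]
    rw [e]; exact h
  map_mul' x y := g1i_anFun_eq K hM (x * y) <| by
    show br_HasLaurentQ (g1i_anFun K hM x * g1i_anFun K hM y)
      (coeffMap (algebraMap K ℂ)
        ((x : LaurentSeries K) * (y : LaurentSeries K)))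
    rw [map_mul]
    exact (g1i_anFun_spec K hM x).mul (g1i_anFun_spec K hM y)
  map_zero' := g1i_anFun_eq K hM 0 <| by
    have h := br_HasLaurentQ.const 0
    have e : coeffMap (algebraMap K ℂ) ((0 : g1i_A K M N) : LaurentSeries K)
        = HahnSeries.C (0 : ℂ) := by
      rw [ZeroMemClass.coe_zero, map_zero, map_zero]
    rw [e]; exact h
  map_add' x y := g1i_anFun_eq K hM (x + y) <| by
    show br_HasLaurentQ (g1i_anFun K hM x + g1i_anFun K hM y)
      (coeffMap (algebraMap K ℂ)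
        ((x : LaurentSeries K) + (y : LaurentSeries K)))
    rw [map_add]
    exact (g1i_anFun_spec K hM x).add (g1i_anFun_spec K hM y)

theorem g1i_an_spec {M N : ℕ} (hM : M ≠ 1) (x : g1i_A K M N) :
    br_HasLaurentQ (g1i_an K hM x)
      (coeffMap (algebraMap K ℂ) (x : LaurentSeries K)) :=
  g1i_anFun_spec K hM x

theorem g1i_an_eq {M N : ℕ} (hM : M ≠ 1) (x : g1i_A K M N) {g : ℍ → ℂ}
    (hg : br_HasLaurentQ g (coeffMap (algebraMap K ℂ) (x : LaurentSeries K))) :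
    g1i_an K hM x = g :=
  g1i_anFun_eq K hM x hg

theorem g1i_an_weak {M N : ℕ} (hM : M ≠ 1) (x : g1i_A K M N) :
    g1g_IsWeakModFun (g1f_G M N) (g1i_an K hM x) :=
  g1i_anFun_weak K hM x

theorem g1i_an_injective {M N : ℕ} (hM : M ≠ 1) :
    Function.Injective (g1i_an K (N := N) hM) := by
  rw [injective_iff_map_eq_zero]
  intro x hx
  have h1 := (g1i_an_spec K hM x).eq_zero_iff.mp hx
  have h2 : (x : LaurentSeries K) = 0 := by
    refine br_coeffMap_injective (algebraMap K ℂ) (algebraMap K ℂ).injective ?_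
    rw [h1, map_zero]
  exact Subtype.ext h2

theorem g1i_an_algebraMap {M N : ℕ} (hM : M ≠ 1) (c : K) :
    g1i_an K (N := N) hM (algebraMap K (g1i_A K M N) c) = fun _ => algebraMap K ℂ c :=
  g1i_an_eq K hM _ (by
    rw [show ((algebraMap K (g1i_A K M N) c : g1i_A K M N) : LaurentSeries K)
      = algebraMap K (LaurentSeries K) c from rfl, g1i_coeffMap_algebraMap]
    exact br_HasLaurentQ.const _)

omit [Algebra ℚ K] [Algebra K ℂ] in
/-- the generator `j(q^d)` of `A` -/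
def g1i_jd (M : ℕ) {N : ℕ} (d : ℕ) [NeZero d] (hd : d ∣ N) : g1i_A K M N :=
  ⟨qExpand K d (jqModC K), Algebra.subset_adjoin (g1f_jd_mem_gens hd)⟩

omit [Algebra ℚ K] [Algebra K ℂ] in
/-- the generator `w_a(q^e)` of `A` -/
def g1i_wq {M N : ℕ} (e : ℕ) [NeZero e] (he : e * M ∣ N) (a : (ZMod M)ˣ) : g1i_A K M N :=
  ⟨qExpand K e (g1w_w K M (a : ZMod M)), Algebra.subset_adjoin (g1f_w_mem_gens he a)⟩

theorem g1i_an_jd {M N : ℕ} (hM : M ≠ 1) (d : ℕ) [NeZero d] (hd : d ∣ N) :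
    g1i_an K hM (g1i_jd K M d hd) = jd d :=
  g1i_an_eq K hM _ (by
    show br_HasLaurentQ (jd d) (coeffMap (algebraMap K ℂ) (qExpand K d (jqModC K)))
    rw [g1i_coeffMap_jd]; exact br_HasLaurentQ_jd d)

theorem g1i_an_wq {M N : ℕ} (hM : M ≠ 1) (e : ℕ) [NeZero e] (he : e * M ∣ N) (a : (ZMod M)ˣ) :
    g1i_an K hM (g1i_wq K e he a) = g1a_Wq M (a : ZMod M) e :=
  g1i_an_eq K hM _ (by
    show br_HasLaurentQ _ (coeffMap (algebraMap K ℂ)
      (qExpand K e (g1w_w K M (a : ZMod M))))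
    rw [g1i_coeffMap_wq]
    exact g1a_hasLaurentQ_Wq M _ (g1i_unit_ne_zero hM a) e)

/-! ### separation -/

/-- **separation**: an element of `SL(2,ℤ)` fixing all the realised functions lies in
`±Γ₁(M) ∩ Γ₀(N)` -/
theorem g1i_sep {M N : ℕ} [NeZero N] (hM : M ≠ 1) (hMN : M ∣ N) (g : SL(2, ℤ))
    (hg : ∀ (a : g1i_A K M N) (z : ℍ), g1i_an K hM a (g • z) = g1i_an K hM a z) :
    g ∈ g1f_G M N := by
  have hg0 : g ∈ Gamma0 N := by
    refine mem_Gamma0_of_jd_smul_eq N g fun z => ?_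
    have := hg (g1i_jd K M N dvd_rfl) z
    rwa [g1i_an_jd K hM] at this
  refine ⟨?_, hg0⟩
  have hg0M : g ∈ Gamma0 M := by
    rw [Gamma0_mem, ZMod.intCast_zmod_eq_zero_iff_dvd] at hg0 ⊢
    exact (Int.natCast_dvd_natCast.mpr hMN).trans hg0
  -- the generator `w_1`
  have he : 1 * M ∣ N := by simpa using hMN
  have hw : ∀ z : ℍ, g1a_W M (1 : ZMod M) (g • z) = g1a_W M (1 : ZMod M) z := by
    intro z
    have := hg (g1i_wq K 1 he 1) z
    rwa [g1i_an_wq K hM, Units.val_one, g1a_Wq_one] at this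
  have hw' : g1a_W M (((g 0 0 : ℤ) : ZMod M)) = g1a_W M (1 : ZMod M) := by
    ext z
    rw [← hw z, g1a_W_smul_Gamma0 M 1 hg0M z, one_mul]
  -- compare the `q`-expansions
  have h1ne : (1 : ZMod M) ≠ 0 := by simpa using g1i_unit_ne_zero hM (1 : (ZMod M)ˣ)
  have hdetM : ((g 0 0 : ℤ) : ZMod M) * ((g 1 1 : ℤ) : ZMod M) = 1 := by
    have hdet : g 0 0 * g 1 1 - g 0 1 * g 1 0 = 1 := by
      have := g.det_coe
      rw [Matrix.det_fin_two] at this
      exact this
    have := congrArg (fun x : ℤ => (x : ZMod M)) hdet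
    push_cast at this
    rw [Gamma0_mem] at hg0M
    rw [hg0M] at this
    simpa using this
  have h00ne : ((g 0 0 : ℤ) : ZMod M) ≠ 0 := by
    intro h0
    rw [h0, zero_mul] at hdetM
    exact h1ne hdetM.symm
  have hq := (g1a_hasLaurentQ_W M _ h00ne).unique_right (hw' ▸ g1a_hasLaurentQ_W M 1 h1ne)
  have hpm := g1w_eq_one_of_w_eq hq
  show g ∈ g1f_Gpm M
  rw [g1f_mem_Gpm]
  rw [Gamma0_mem] at hg0M
  refine ⟨hg0M, ?_⟩
  rcases hpm with h | h
  · left
    rw [h, one_mul] at hdetM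
    exact hdetM
  · right
    rw [h, neg_mul, one_mul] at hdetM
    rw [← hdetM, neg_neg]

/-! ### the context -/

/-- **the gateway context of `X(±Γ₁(M) ∩ Γ₀(N))` over `K`** -/
def g1i_ctx {M N : ℕ} [NeZero N] (hM : M ≠ 1) (hMN : M ∣ N) :
    g1g_Ctx N (g1f_G M N) K (g1i_F K M N) (g1i_A K M N) :=
  g1g_Ctx.ofWeak (g1f_neg_one_mem_G M N) (g1f_Gamma_le_G hMN) (g1i_an K hM)
    (g1i_an_algebraMap K hM) (g1i_an_injective K hM) (g1i_an_weak K hM) (g1i_sep K hM hMN)

theorem g1i_ctx_an {M N : ℕ} [NeZero N] (hM : M ≠ 1) (hMN : M ∣ N) (a : g1i_A K M N) :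
    (g1i_ctx K hM hMN).an a = g1i_an K hM a := rfl

/-- `j ∈ A` and its realisation is Klein's `j` -/
theorem g1i_ctx_an_j {M N : ℕ} [NeZero N] (hM : M ≠ 1) (hMN : M ∣ N) :
    (g1i_ctx K hM hMN).an (g1i_jd K M 1 (one_dvd N)) = kleinJ := by
  rw [g1i_ctx_an, g1i_an_jd, jd_one]

end generic

/-! ### the two contexts used -/

/-- the context over `Q̄` (with `Algebra Q̄ ℂ` from the fixed embedding `br_iota`) -/
def g1i_ctxBar {M N : ℕ} [NeZero N] (hM : M ≠ 1) (hMN : M ∣ N) :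
    g1g_Ctx N (g1f_G M N) Kbar (g1f_Fbar M N) (g1i_A Kbar M N) :=
  g1i_ctx Kbar hM hMN

/-- the context over `ℂ` -/
def g1i_ctxC {M N : ℕ} [NeZero N] (hM : M ≠ 1) (hMN : M ∣ N) :
    g1g_Ctx N (g1f_G M N) ℂ (g1i_F ℂ M N) (g1i_A ℂ M N) :=
  g1i_ctx ℂ hM hMN

end

end Fermat.Agent.DS
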