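/-
DS-T / cell [G1], instance leaf [I3]: degree, completeness, rationality and the classification of
places for the gateway contexts `g1i_ctx K hM hMN` of the `Γ₁(M)` tower (`K` any field of
characteristic zero inside `ℂ`; in particular `K = Q̄` and `K = ℂ`).  Everything is a corollary of the
generic `q`-context theorems of `Gen/QCtx.lean`.  Prefix `g1dg_`.

* `g1dg_qctx`        : `g1g_QCtx (g1i_ctx K hM hMN)`;
* **`g1dg_finrank`** : `[g1i_F K M N : K(j)] = [SL(2,ℤ) : g1f_G M N]` (+ `g1dg_finite`);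
* **`g1dg_complete`**, `g1dg_rational` : the seams `g1g_Complete`, `g1g_Rational` of the gateway;
* `g1dg_classified`  : every place of `g1i_F K M N / K` is a point of `ℍ` or a cusp (`K` alg. closed);
* **`g1dg_mem_field`** ([G1-complete]): a series `x ∈ K((q))` whose image in `ℂ((q))` is the
  `q`-expansion of a weakly holomorphic modular function for `g1f_G M N` lies in `g1i_F K M N`;
  `g1dg_exists_quot` : over `ℂ`, every weakly holomorphic modular function for `g1f_G M N` is a
  quotient `an u / an v` of realisations of elements of `g1i_A ℂ M N`;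
* **`g1dg_relfinrank`** : `[g1i_F K M (M p) : g1i_F K M M] = p + 1` for a prime `p ∤ M`
  (`g1dg_finrankAlong` in the `finrankAlong` vocabulary of the correspondence calculus).
-/
import Mathlib
import Fermat.Agent.DS.Gam1.Inst
import Fermat.Agent.DS.Gam1.GroupFacts
import Fermat.Agent.DS.Gam1.Gen.QCtx
import Fermat.Agent.DS.Gam1.Gen.CClassified
import Fermat.Prelude.Def_AlgebraicCurve_Correspondence

set_option autoImplicit false
set_option linter.style.haveILetI false
set_option synthInstance.maxHeartbeats 200000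
set_option maxHeartbeats 400000

open UpperHalfPlane ModularForm Filter Topology Function Complex CongruenceSubgroup
open scoped MatrixGroups IntermediateField Manifold

namespace Fermat.Agent.DS

open Fermat.Agent.S24 Fermat.Agent.JT3 ModularCurve AlgebraicCurve

theorem g1dg_T_mem (M N : ℕ) : ModularGroup.T ∈ g1f_G M N := by
  refine Subgroup.mem_inf.mpr ⟨?_, ?_⟩
  · rw [g1f_mem_Gpm]
    simp [ModularGroup.T]
  · rw [Gamma0_mem]
    simp [ModularGroup.T]

section generic

variable (K : Type) [Field K] [Algebra ℚ K] [Algebra K ℂ] {M N : ℕ} [NeZero N] (hM : M ≠ 1)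
  (hMN : M ∣ N)

omit [Algebra ℚ K] [Algebra K ℂ] [NeZero N] in
/-- `j ∈ A` -/
theorem g1dg_j_mem : jqModC K ∈ g1i_A K M N := by
  have h := (g1i_jd K M 1 (one_dvd N)).2
  have e : ((g1i_jd K M 1 (one_dvd N) : g1i_A K M N) : LaurentSeries K) = jqModC K :=
    qExpand_one_apply _
  rw [← e]
  exact h

/-- **the gateway contexts of the `Γ₁(M)` tower are `q`-contexts** -/
theorem g1dg_qctx : g1g_QCtx (g1i_ctx K hM hMN) where
  T_mem := g1dg_T_mem M N
  j_mem := g1dg_j_mem K
  coe := g1i_algebraMap_AF K M N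
  weak := g1i_an_weak K hM
  spec := g1i_an_spec K hM

variable [CharZero K]

/-- **completeness** -/
theorem g1dg_complete : g1g_Complete (g1i_ctx K hM hMN) :=
  haveI := g1q_finiteIndex_G M N hMN
  (g1dg_qctx K hM hMN).complete

omit [CharZero K] in
/-- **rationality** -/
theorem g1dg_rational : g1g_Rational (g1i_ctx K hM hMN) :=
  (g1dg_qctx K hM hMN).rational

/-- `j` as an element of the field -/
noncomputable def g1dg_jF (M N : ℕ) : g1i_F K M N :=
  algebraMap (g1i_A K M N) (g1i_F K M N) (g1i_jd K M 1 (one_dvd N))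

omit [Algebra K ℂ] [NeZero N] [CharZero K] in
theorem g1dg_jF_coe : ((g1dg_jF K M N : g1i_F K M N) : LaurentSeries K) = jqModC K :=
  qExpand_one_apply _

omit [CharZero K] in
theorem g1dg_jA_eq : (g1dg_qctx K hM hMN).jA = g1i_jd K M 1 (one_dvd N) :=
  Subtype.ext (qExpand_one_apply _).symm

include hM hMN in
/-- **finiteness over `K(j)`** -/
theorem g1dg_finite : FiniteDimensional ↥(K⟮g1dg_jF K M N⟯) ↥(g1i_F K M N) := by
  haveI := g1q_finiteIndex_G M N hMN
  have h := (g1dg_qctx K hM hMN).finite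
  rw [g1dg_jA_eq] at h
  exact h

include hM hMN in
/-- **the degree**: `[F : K(j)] = [SL(2,ℤ) : ±Γ₁(M) ∩ Γ₀(N)]` -/
theorem g1dg_finrank :
    Module.finrank ↥(K⟮g1dg_jF K M N⟯) ↥(g1i_F K M N) = Nat.card (SL(2, ℤ) ⧸ g1f_G M N) := by
  haveI := g1q_finiteIndex_G M N hMN
  have h := (g1dg_qctx K hM hMN).finrank
  rw [g1dg_jA_eq] at h
  exact h

/-- **classification of the places** (the seam `g1g_Classified` of the gateway) -/
theorem g1dg_classified [IsAlgClosed K] : g1g_Classified (g1i_ctx K hM hMN) := by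
  haveI := g1q_finiteIndex_G M N hMN
  haveI : FiniteDimensional
      ↥(K⟮algebraMap (g1i_A K M N) (g1i_F K M N) (g1i_jd K M 1 (one_dvd N))⟯)
      ↥(g1i_F K M N) := g1dg_finite K hM hMN
  exact g1g_gcp_classified (g1i_ctx_an_j K hM hMN) (g1dg_finrank K hM hMN)

include hM hMN in
/-- **[G1-complete]**: a Laurent series over `K` whose image over `ℂ` is the `q`-expansion of a
weakly holomorphic modular function for `±Γ₁(M) ∩ Γ₀(N)` lies in the function field -/
theorem g1dg_mem_field {h : ℍ → ℂ} (hh : g1g_IsWeakModFun (g1f_G M N) h) {x : LaurentSeries K}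
    (hx : br_HasLaurentQ h (coeffMap (algebraMap K ℂ) x)) : x ∈ g1i_F K M N :=
  haveI := g1q_finiteIndex_G M N hMN
  (g1dg_qctx K hM hMN).mem_field ⟨h, hh, hx⟩

end generic

section complex

variable {M N : ℕ} [NeZero N] (hM : M ≠ 1) (hMN : M ∣ N)

include hMN in
/-- **[G1-complete] over `ℂ`**: every weakly holomorphic modular function for `±Γ₁(M) ∩ Γ₀(N)` is
a quotient of realisations of two elements of `ℂ[j(q^d), w_a(q^e)]`, and its `q`-expansion lies in
the function field. -/
theorem g1dg_exists_quot {h : ℍ → ℂ} (hh : g1g_IsWeakModFun (g1f_G M N) h) :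
    ∃ (H : LaurentSeries ℂ) (u v : g1i_A ℂ M N), br_HasLaurentQ h H ∧ H ∈ g1i_F ℂ M N ∧ v ≠ 0 ∧
      (H * (v : LaurentSeries ℂ) = (u : LaurentSeries ℂ)) ∧
      ∀ z, h z * g1i_an ℂ hM v z = g1i_an ℂ hM u z := by
  haveI := g1q_finiteIndex_G M N hMN
  obtain ⟨H, hH⟩ := g1g_exists_laurentQ (g1dg_T_mem M N) hh
  have hH' : br_HasLaurentQ h (coeffMap (algebraMap ℂ ℂ) H) := by
    rw [show algebraMap ℂ ℂ = RingHom.id ℂ from rfl, coeffMap_id]
    exact hH
  have hmem : H ∈ g1i_F ℂ M N := g1dg_mem_field ℂ hM hMN hh hH'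
  obtain ⟨u, hu, v, hv, hv0, hdiv⟩ := (g1dg_qctx ℂ hM hMN).exists_div hmem
  have hHv : H * v = u := by rw [hdiv, div_mul_cancel₀ _ hv0]
  refine ⟨H, ⟨u, hu⟩, ⟨v, hv⟩, hH, hmem, fun h0 => hv0 (congrArg Subtype.val h0), hHv,
    fun z => ?_⟩
  have hsv := g1i_an_spec ℂ hM (⟨v, hv⟩ : g1i_A ℂ M N)
  have hsu := g1i_an_spec ℂ hM (⟨u, hu⟩ : g1i_A ℂ M N)
  rw [show algebraMap ℂ ℂ = RingHom.id ℂ from rfl, coeffMap_id] at hsv hsu
  have hL : br_HasLaurentQ (h * g1i_an ℂ hM ⟨v, hv⟩) u := by
    have := hH.mul hsv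
    rwa [show H * ((⟨v, hv⟩ : g1i_A ℂ M N) : LaurentSeries ℂ) = u from hHv] at this
  exact congrFun (hL.unique_left hsu) z

end complex

/-! ### the relative degree of `X(Γ₁(M) ∩ Γ₀(p)) → X₁(M)` -/

section tower

variable (K : Type) [Field K] [Algebra ℚ K] [Algebra K ℂ] [CharZero K]

omit [Algebra K ℂ] [CharZero K] in
/-- the degree over `K(j)` in terms of `relfinrank` inside `K((q))` -/
theorem g1dg_relfinrank_j (M N : ℕ) :
    (K⟮jqModC K⟯).relfinrank (g1i_F K M N) =
      Module.finrank ↥(K⟮g1dg_jF K M N⟯) ↥(g1i_F K M N) := by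
  have h1 : (K⟮g1dg_jF K M N⟯).map (g1i_F K M N).val = K⟮jqModC K⟯ := by
    rw [IntermediateField.adjoin_map, Set.image_singleton]
    have h0 : (g1i_F K M N).val (g1dg_jF K M N) = jqModC K := g1dg_jF_coe K (M := M) (N := N)
    rw [h0]
  have h2 : (⊤ : IntermediateField K ↥(g1i_F K M N)).map (g1i_F K M N).val = g1i_F K M N := by
    rw [← AlgHom.fieldRange_eq_map, IntermediateField.fieldRange_val]
  have h3 := IntermediateField.relfinrank_map_map (A := K⟮g1dg_jF K M N⟯)
    (B := (⊤ : IntermediateField K ↥(g1i_F K M N))) (g1i_F K M N).val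
  rw [h1, h2] at h3
  rw [h3, IntermediateField.relfinrank_top_right]

/-- **`[F_{M, Mp} : F_{M, M}] = p + 1`** -/
theorem g1dg_relfinrank {M p : ℕ} [NeZero M] (hM : M ≠ 1) (hp : p.Prime) (hpM : ¬ p ∣ M) :
    (g1i_F K M M).relfinrank (g1i_F K M (M * p)) = p + 1 := by
  haveI : NeZero p := ⟨hp.ne_zero⟩
  haveI : NeZero (M * p) := ⟨mul_ne_zero (NeZero.ne M) hp.ne_zero⟩
  have hle : g1i_F K M M ≤ g1i_F K M (M * p) := by
    rw [g1i_F_eq, g1i_F_eq]
    exact g1f_FC_mono K M (dvd_mul_right M p)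
  have hj : K⟮jqModC K⟯ ≤ g1i_F K M M := by
    rw [IntermediateField.adjoin_simple_le_iff, ← g1dg_jF_coe K (M := M) (N := M)]
    exact Subtype.property _
  have h0 := g1dg_finrank K hM (dvd_refl M)
  have h1 := g1dg_finrank K hM (dvd_mul_right M p)
  rw [← g1dg_relfinrank_j] at h0 h1
  have hmul := IntermediateField.relfinrank_mul_relfinrank hj hle
  rw [h0, h1, g1q_card_quotient_mul M p hp hpM] at hmul
  have hpos : 0 < Nat.card (SL(2, ℤ) ⧸ g1f_G M M) := by
    haveI := g1q_finiteIndex_G M M (dvd_refl M)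
    exact Nat.card_pos
  have : Nat.card (SL(2, ℤ) ⧸ g1f_G M M) * (g1i_F K M M).relfinrank (g1i_F K M (M * p)) =
      Nat.card (SL(2, ℤ) ⧸ g1f_G M M) * (p + 1) := by rw [hmul]; ring
  exact Nat.eq_of_mul_eq_mul_left hpos this

omit [Algebra ℚ K] [Algebra K ℂ] [CharZero K] in
/-- `relfinrank` of two intermediate fields `A ≤ B` is the `finrankAlong` of the inclusion -/
theorem g1dg_relfinrank_eq_finrankAlong {A B : IntermediateField K (LaurentSeries K)}
    (h : A ≤ B) : A.relfinrank B = finrankAlong K (IntermediateField.inclusion h) := by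
  rw [IntermediateField.relfinrank_eq_finrank_of_le h]
  unfold finrankAlong
  letI := algebraAlong (IntermediateField.inclusion h)
  let e : ↥(IntermediateField.extendScalars h) ≃ₗ[↥A] ↥B :=
    { toFun := fun x => ⟨x.1, x.2⟩
      invFun := fun x => ⟨x.1, x.2⟩
      map_add' := fun _ _ => rfl
      map_smul' := fun _ _ => rfl
      left_inv := fun _ => rfl
      right_inv := fun _ => rfl }
  exact e.finrank_eq

/-- **`[F_{M, Mp} : F_{M, M}] = p + 1`** in the vocabulary of the correspondence calculus -/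
theorem g1dg_finrankAlong {M p : ℕ} [NeZero M] (hM : M ≠ 1) (hp : p.Prime) (hpM : ¬ p ∣ M)
    (h : g1i_F K M M ≤ g1i_F K M (M * p)) :
    finrankAlong K (IntermediateField.inclusion h) = p + 1 := by
  rw [← g1dg_relfinrank_eq_finrankAlong K h]
  exact g1dg_relfinrank K hM hp hpM

end tower

end Fermat.Agent.DS
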