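/-
DS-T / cell [G1], instance leaf [I3], part 2: **(A1) over `ℚ`** for the integral generators of the
`Γ₁(M)` tower — `gr_A1Q (g1f_GZ M N)` (the hypothesis `hA1` of helper2's good-reduction cell
`DS/GR/{Finite, FinalReg}.lean`): the generators `j(q^d)`, `w_a(q^e)` are finitely many and each is
integral over `ℚ(j)`.

Proof: each generator is the `q`-expansion of a weakly holomorphic modular function for
`±Γ₁(M) ∩ Γ₀(N)` (`g1i_an_weak`, `g1i_an_spec`), hence a root of a polynomial of degree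
`[SL(2,ℤ) : ±Γ₁(M) ∩ Γ₀(N)]` over `ℚ[j]` with nonzero leading coefficient (`g1g_qrelation`).
Prefix `g1dg_`.
-/
import Mathlib
import Fermat.Agent.DS.Gam1.InstDegree
import Fermat.Agent.DS.Gam1.GRBridge
import Fermat.Agent.DS.GR.Finite

set_option autoImplicit false

open UpperHalfPlane CongruenceSubgroup
open scoped MatrixGroups IntermediateField Manifold

namespace Fermat.Agent.DS

open Fermat.Agent.S24 Fermat.Agent.JT3 ModularCurve

/-- every `q`-expansion with `K₀`-coefficients of a weakly holomorphic modular function for a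
subgroup of finite index is integral over `K₀(j) ⊆ K₀((q))` -/
theorem g1g_qisIntegral {Γ : Subgroup SL(2, ℤ)} [Γ.FiniteIndex] {K₀ : Type*} [Field K₀]
    {ι : K₀ →+* ℂ} {x : LaurentSeries K₀} (hx : x ∈ g1g_qW Γ ι) :
    IsIntegral ↥(IntermediateField.adjoin K₀ {jqModC K₀}) x := by
  obtain ⟨c, hc0, hc⟩ := g1g_qrelation hx
  set n := Nat.card (SL(2, ℤ) ⧸ Γ) with hn
  have hmem : ∀ q : Polynomial K₀,
      Polynomial.aeval (jqModC K₀) q ∈ IntermediateField.adjoin K₀ {jqModC K₀} := fun q =>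
    (IntermediateField.mem_adjoin_simple_iff K₀ _).mpr ⟨q, 1, by simp⟩
  let e : ℕ → ↥(IntermediateField.adjoin K₀ {jqModC K₀}) := fun r =>
    ⟨Polynomial.aeval (jqModC K₀) (c r), hmem (c r)⟩
  refine IsAlgebraic.isIntegral
    ⟨∑ r ∈ Finset.range (n + 1), Polynomial.C (e r) * Polynomial.X ^ (n - r), ?_, ?_⟩
  · intro h0
    have h1 := congrArg (fun p => Polynomial.coeff p n) h0
    simp only [Polynomial.finsetSum_coeff, Polynomial.coeff_C_mul_X_pow,
      Polynomial.coeff_zero] at h1
    rw [Finset.sum_eq_single 0] at h1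
    · rw [if_pos (by simp)] at h1
      have h2 : ((e 0 : ↥(IntermediateField.adjoin K₀ {jqModC K₀})) : LaurentSeries K₀) =
          Polynomial.aeval (jqModC K₀) (c 0) := rfl
      rw [h1] at h2
      exact g1g_aeval_jq_ne_zero hc0 h2.symm
    · intro r hr hr0
      have := Finset.mem_range.mp hr
      rw [if_neg (by omega)]
    · intro h
      exact absurd (Finset.mem_range.mpr (Nat.succ_pos n)) h
  · rw [map_sum, ← hc]
    refine Finset.sum_congr rfl fun r _ => ?_
    rw [map_mul, map_pow, Polynomial.aeval_C, Polynomial.aeval_X]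
    rfl

/-- **(A1) over `ℚ`** for the integral generators of the `Γ₁(M)` tower -/
theorem g1dg_A1Q {M N : ℕ} [NeZero N] (hM : M ≠ 1) (hMN : M ∣ N) : gr_A1Q (g1f_GZ M N) := by
  refine ⟨g1f_GZ_finite M N, fun g hg => ?_⟩
  have := g1q_finiteIndex_G M N hMN
  have h1 : coeffMap (Int.castRingHom ℚ) g ∈ g1f_gens ℚ M N := by
    rw [← g1f_coeffMap_GZ ℚ M N]
    exact ⟨g, hg, rfl⟩
  have h2 : coeffMap (Int.castRingHom ℚ) g ∈ g1i_A ℚ M N := Algebra.subset_adjoin h1
  exact g1g_qisIntegral ((g1dg_qctx ℚ hM hMN).le_qW h2)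

end Fermat.Agent.DS
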