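/-
DS-T / cell [G1] → cell [GR], instance leaf [L2-R]: **the ramification data `(R)` of `j` on the fields
of the `Γ₁(M)` tower**, over `Q̄` and over every subfield `L1 ⊆ Q̄` (prefix `g1i_ram_`; one generic
family lemma `gr_ram_ramData_family`).

* `g1i_ram_ramData K hM hMN` : `rml_RamData K (g1dg_jF K M N) N` for `K ⊆ ℂ` algebraically closed
  (`Gen/RamData.lean` at the context `g1i_ctx K hM hMN`, degree from `InstDegree.lean`);
* `g1i_ram_ramData_gr`       : the same on `gr_F (g1f_GZ M N) Q̄` in helper2's vocabulary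
  (`gr_ram_jF`);
* `gr_ram_ramData_family`    : descent of `(R)` along the generic family `gr_F G ·`
  from an algebraically closed `L'` to any `L ⊆ L'` with `L'/L` algebraic;
* **`g1i_ram_ramData_L`**    : `rml_RamData L1 (gr_ram_jF (gr_F (g1f_GZ M N) L1)) N` for every
  `L1 ⊆ Q̄` — the input `D` of `gr_ramHyp`, `grs_ramHyp`, `gr_ram_regAt_*` (`DS/GR/RamHypInst`,
  `DS/GR/RamInst`).
-/
import Mathlib
import Fermat.Agent.DS.Gam1.Gen.RamData
import Fermat.Agent.DS.Gam1.InstDegree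
import Fermat.Agent.DS.Gam1.GRBridge
import Fermat.Agent.DS.GR.RamInst
import Fermat.Agent.DS.GR.ConstRed
import Fermat.Agent.DS.GR.Finite
import Fermat.Agent.DS.Gam1.InstA1

set_option autoImplicit false
set_option linter.style.haveILetI false
set_option linter.unusedSectionVars false
set_option synthInstance.maxHeartbeats 200000
set_option maxHeartbeats 400000

noncomputable section

open UpperHalfPlane CongruenceSubgroup
open scoped MatrixGroups IntermediateField

namespace Fermat.Agent.DS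

open Fermat.Agent.S24 Fermat.Agent.JT3 ModularCurve AlgebraicCurve

/-! ### `(R)` for the gateway contexts of the `Γ₁(M)` tower -/

section ctx

variable (K : Type) [Field K] [Algebra ℚ K] [Algebra K ℂ] [CharZero K] [IsAlgClosed K]
  {M N : ℕ} [NeZero N] (hM : M ≠ 1) (hMN : M ∣ N)

include hM hMN in
/-- **`(R)` for `X(±Γ₁(M) ∩ Γ₀(N))` over an algebraically closed `K ⊆ ℂ`**: above `j = 0` the
ramification indices divide `3`, above `1728` they divide `2`, above `∞` they divide `N`, and `j` is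
unramified elsewhere. -/
theorem g1i_ram_ramData : rml_RamData K (g1dg_jF K M N) N := by
  haveI := g1q_finiteIndex_G M N hMN
  haveI : FiniteDimensional
      ↥(K⟮algebraMap (g1i_A K M N) (g1i_F K M N) (g1i_jd K M 1 (one_dvd N))⟯)
      ↥(g1i_F K M N) := g1dg_finite K hM hMN
  exact g1g_ramData (g1i_ctx_an_j K hM hMN) (g1dg_finrank K hM hMN)

end ctx

/-! ### Descent of `(R)` along the generic family -/

section family

variable (G : Set (LaurentSeries ℤ)) (hjG : jqModC ℤ ∈ G)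
  {L L' : Type*} [Field L] [Field L'] [Algebra ℚ L] [Algebra ℚ L'] [Algebra L L']
  [IsScalarTower ℚ L L']

/-- **descent of `(R)` in the family `gr_F G ·`**: from an algebraically closed `L'` to `L ⊆ L'`
(`L' / L` algebraic). -/
theorem gr_ram_ramData_family [IsAlgClosed L'] [Algebra.IsAlgebraic L L'] {M : ℕ}
    (hfin : letI := gr_cr_hasJ G hjG L'
      Algebra.IsAlgebraic L'⟮gr_ram_jF (gr_F G L')⟯ (gr_F G L'))
    (D : letI := gr_cr_hasJ G hjG L'
      rml_RamData L' (gr_ram_jF (gr_F G L')) M) :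
    letI := gr_cr_hasJ G hjG L
    rml_RamData L (gr_ram_jF (gr_F G L)) M := by
  letI := gr_cr_hasJ G hjG L
  letI := gr_cr_hasJ G hjG L'
  haveI := hfin
  exact gr_ram_ramData_of_bc (F₀ := gr_F G ℚ) (gr_F G L) (gr_F_eq_laurentBaseChange G L)
    (gr_F G L') (gr_F_eq_laurentBaseChange G L') D

end family

/-! ### The `Γ₁(M)` tower in the vocabulary of [GR] -/

section gr

open Fermat.Agent.S24.Br

variable {M N : ℕ} [NeZero N] (hM : M ≠ 1) (hMN : M ∣ N)

/-- the `Γ₁`-field over `Q̄` as a member of the generic family. -/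
theorem g1i_ram_field_eq (K : Type) [Field K] [Algebra ℚ K] (M N : ℕ) :
    g1i_F K M N = gr_F (g1f_GZ M N) K :=
  (g1i_F_eq K M N).trans (g1f_FC_eq_gr_F K M N)

include hM hMN in
/-- **`(R)` over `Q̄` on `gr_F (g1f_GZ M N) Q̄`.** -/
theorem g1i_ram_ramData_gr :
    letI := gr_cr_hasJ (g1f_GZ M N) (g1f_jZ_mem_GZ M N) Kbar
    rml_RamData Kbar (gr_ram_jF (gr_F (g1f_GZ M N) Kbar)) N := by
  letI := gr_cr_hasJ (g1f_GZ M N) (g1f_jZ_mem_GZ M N) Kbar
  have h := (g1i_ram_ramData Kbar hM hMN).map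
    (IntermediateField.equivOfEq (g1i_ram_field_eq Kbar M N))
  have h1 : IntermediateField.equivOfEq (g1i_ram_field_eq Kbar M N) (g1dg_jF Kbar M N)
      = gr_ram_jF (gr_F (g1f_GZ M N) Kbar) := by
    apply Subtype.ext
    show ((g1dg_jF Kbar M N : g1i_F Kbar M N) : LaurentSeries Kbar) = jqModC Kbar
    exact g1dg_jF_coe Kbar
  rwa [h1] at h

include hM hMN in
/-- the `Γ₁`-field over `Q̄` is algebraic over `Q̄(j)` (vocabulary of [GR]). -/
theorem g1i_ram_isAlgebraic_gr :
    letI := gr_cr_hasJ (g1f_GZ M N) (g1f_jZ_mem_GZ M N) Kbar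
    Algebra.IsAlgebraic Kbar⟮gr_ram_jF (gr_F (g1f_GZ M N) Kbar)⟯ (gr_F (g1f_GZ M N) Kbar) := by
  letI := gr_cr_hasJ (g1f_GZ M N) (g1f_jZ_mem_GZ M N) Kbar
  haveI : FiniteDimensional Kbar⟮gr_ram_jF (gr_F (g1f_GZ M N) Kbar)⟯
      (gr_F (g1f_GZ M N) Kbar) :=
    grf_level_finite (gr_F (g1f_GZ M N) Kbar) (gr_A1_family (g1f_GZ M N) (g1dg_A1Q hM hMN) Kbar)
  exact Algebra.IsAlgebraic.of_finite _ _

include hM hMN in
/-- **`(R)` over every subfield `L1 ⊆ Q̄`** (in particular every number field) for the `Γ₁` tower: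
the input `D` of `gr_ramHyp`, `grs_ramHyp` and `gr_ram_regAt_lam/_lam_inv/_mu/_mu_inv`. -/
theorem g1i_ram_ramData_L (L1 : Type*) [Field L1] [Algebra ℚ L1] [Algebra L1 Kbar]
    [IsScalarTower ℚ L1 Kbar] :
    letI := gr_cr_hasJ (g1f_GZ M N) (g1f_jZ_mem_GZ M N) L1
    rml_RamData L1 (gr_ram_jF (gr_F (g1f_GZ M N) L1)) N := by
  haveI : Algebra.IsAlgebraic ℚ Kbar := AlgebraicClosure.isAlgebraic ℚ
  haveI : Algebra.IsAlgebraic L1 Kbar :=
    Algebra.IsAlgebraic.tower_top (K := ℚ) L1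
  exact gr_ram_ramData_family (g1f_GZ M N) (g1f_jZ_mem_GZ M N) (L := L1) (L' := Kbar)
    (g1i_ram_isAlgebraic_gr hM hMN) (g1i_ram_ramData_gr hM hMN)

end gr

end Fermat.Agent.DS
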