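/-
DS-T / cell [G1]: THE DIAMOND OPERATORS `⟨d⟩`, `d ∈ (ℤ/M)ˣ`, ON THE `Γ₁`-FIELDS IN CHARACTERISTIC
ZERO.  Prefix `g1dm_`.

For a field `K` of characteristic zero with `K → ℂ`, `M ≠ 1`, `M ∣ N`:

* `g1dm_exists_sigma hMN d` : a matrix `σ ∈ Γ₀(N)` with `σ₀₀ ≡ d (mod M)`;
* `g1dm_ringHom_ext` / `g1dm_ringHom_ext_F` : ring homomorphisms out of `g1i_A K M N` (resp. out of
  the field `g1i_F K M N`) are determined by their values on `K` and on the generators `j(q^d)`,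
  `w_a(q^e)`;
* `g1dm_A K hM hMN d : A →ₐ[K] A`, **`g1dm_F K hM hMN d : g1i_F K M N ≃ₐ[K] g1i_F K M N`**, with
  `⟨d⟩ j(q^e) = j(q^e)`, `⟨d⟩ w_a(q^e) = w_{a d}(q^e)` (`g1dm_A_jd`, `g1dm_A_wq`, `g1dm_F_jd`,
  `g1dm_F_wq`), `⟨1⟩ = id`, `⟨d d'⟩ = ⟨d⟩ ⟨d'⟩` (`g1dm_A_one`, `g1dm_A_mul`, `g1dm_F_one`,
  `g1dm_F_mul`, the homomorphism `g1dm_hom`);
* the analytic form **`g1dm_an`** : `an (⟨d⟩ a) = an a ∘ σ` for EVERY `σ ∈ Γ₀(N)` with `σ₀₀ ≡ d`;
* **`g1dm_F_galois`** : `⟨d⟩` commutes with the coefficientwise Galois action `arithmeticGalois`.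
-/
import Mathlib
import Fermat.Agent.DS.Gam1.Inst
import Fermat.Prelude.Def_ModularCurve_ArithmeticGalois

set_option autoImplicit false
set_option linter.unusedSectionVars false

open UpperHalfPlane CongruenceSubgroup ModularCurve
open scoped MatrixGroups

noncomputable section

namespace Fermat.Agent.DS

open Fermat.Agent.S24 Fermat.Agent.S24.Br

/-- matrices of `Γ₀(N)` with prescribed upper-left entry modulo `M ∣ N` -/
theorem g1dm_exists_sigma {M N : ℕ} [NeZero N] (hMN : M ∣ N) (d : (ZMod M)ˣ) :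
    ∃ σ : SL(2, ℤ), σ ∈ Gamma0 N ∧ ((σ 0 0 : ℤ) : ZMod M) = (d : ZMod M) := by
  obtain ⟨u, rfl⟩ := ZMod.unitsMap_surjective hMN d
  have hc : IsCoprime (((u : ZMod N).val : ℕ) : ℤ) (N : ℤ) :=
    Nat.isCoprime_iff_coprime.mpr (ZMod.val_coe_unit_coprime u)
  obtain ⟨x, y, hxy⟩ := hc
  have hdet : Matrix.det !![((u : ZMod N).val : ℤ), -y; (N : ℤ), x] = 1 := by
    rw [Matrix.det_fin_two_of]
    linarith
  refine ⟨⟨!![((u : ZMod N).val : ℤ), -y; (N : ℤ), x], hdet⟩, Gamma0_mem.mpr ?_, ?_⟩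
  · show (((N : ℤ)) : ZMod N) = 0
    simp
  · show (((u : ZMod N).val : ℤ) : ZMod M) = _
    rw [ZMod.unitsMap_val, Int.cast_natCast, ZMod.natCast_val]

section generic

variable (K : Type) [Field K] [Algebra ℚ K]

/-- ring homomorphisms out of `A = K[j(q^d), w_a(q^e)]` are determined by their values on `K`
and on the generators -/
theorem g1dm_ringHom_ext {M N : ℕ} {R : Type*} [Semiring R] {f g : g1i_A K M N →+* R}
    (hK : ∀ c : K, f (algebraMap K (g1i_A K M N) c) = g (algebraMap K (g1i_A K M N) c))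
    (hj : ∀ (d : ℕ) [NeZero d] (hd : d ∣ N), f (g1i_jd K M d hd) = g (g1i_jd K M d hd))
    (hw : ∀ (e : ℕ) [NeZero e] (he : e * M ∣ N) (a : (ZMod M)ˣ),
      f (g1i_wq K e he a) = g (g1i_wq K e he a)) : f = g := by
  ext ⟨x, hx⟩
  induction hx using Algebra.adjoin_induction with
  | mem y hy =>
    rcases hy with ⟨d, hd, hdN, rfl⟩ | ⟨e, he, a, heN, rfl⟩
    · have := hd
      exact hj d hdN
    · have := he
      exact hw e heN a
  | algebraMap r => exact hK r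
  | add x y hx hy ihx ihy =>
    have e1 : (⟨x + y, add_mem hx hy⟩ : g1i_A K M N) = ⟨x, hx⟩ + ⟨y, hy⟩ := rfl
    rw [e1, map_add, map_add, ihx, ihy]
  | mul x y hx hy ihx ihy =>
    have e1 : (⟨x * y, mul_mem hx hy⟩ : g1i_A K M N) = ⟨x, hx⟩ * ⟨y, hy⟩ := rfl
    rw [e1, map_mul, map_mul, ihx, ihy]

/-- ring homomorphisms out of the field `g1i_F K M N` are determined by their values on `K` and
on the generators -/
theorem g1dm_ringHom_ext_F {M N : ℕ} {R : Type*} [CommSemiring R]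
    {f g : g1i_F K M N →+* R}
    (hK : ∀ c : K, f (algebraMap K (g1i_F K M N) c) = g (algebraMap K (g1i_F K M N) c))
    (hj : ∀ (d : ℕ) [NeZero d] (hd : d ∣ N),
      f (algebraMap (g1i_A K M N) (g1i_F K M N) (g1i_jd K M d hd))
        = g (algebraMap (g1i_A K M N) (g1i_F K M N) (g1i_jd K M d hd)))
    (hw : ∀ (e : ℕ) [NeZero e] (he : e * M ∣ N) (a : (ZMod M)ˣ),
      f (algebraMap (g1i_A K M N) (g1i_F K M N) (g1i_wq K e he a))
        = g (algebraMap (g1i_A K M N) (g1i_F K M N) (g1i_wq K e he a))) : f = g := by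
  refine IsLocalization.ringHom_ext (nonZeroDivisors (g1i_A K M N)) ?_
  refine g1dm_ringHom_ext K (fun c => ?_) (fun d _ hd => hj d hd) (fun e _ he a => hw e he a)
  exact hK c

variable [Algebra K ℂ]

/-- composition with `σ` preserves the image of `A` under the analytic realisation -/
theorem g1dm_exists_comp {M N : ℕ} (hM : M ≠ 1) {σ : SL(2, ℤ)} (hσ : σ ∈ Gamma0 N)
    {u : (ZMod M)ˣ} (hu : ((σ 0 0 : ℤ) : ZMod M) = (u : ZMod M)) (x : g1i_A K M N) :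
    ∃ y : g1i_A K M N, g1i_an K hM y = fun z => g1i_an K hM x (σ • z) := by
  obtain ⟨x, hx⟩ := x
  induction hx using Algebra.adjoin_induction with
  | mem y hy =>
    rcases hy with ⟨d, hd, hdN, rfl⟩ | ⟨e, he, a, heN, rfl⟩
    · have := hd
      refine ⟨g1i_jd K M d hdN, ?_⟩
      change _ = fun z => g1i_an K hM (g1i_jd K M d hdN) (σ • z)
      rw [g1i_an_jd]
      funext z
      exact (jd_smul_of_mem_Gamma0 hdN σ hσ z).symm
    · have := he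
      refine ⟨g1i_wq K e heN (a * u), ?_⟩
      change _ = fun z => g1i_an K hM (g1i_wq K e heN a) (σ • z)
      rw [g1i_an_wq, g1i_an_wq]
      funext z
      rw [g1a_Wq_smul_Gamma0 M _ heN hσ z, hu, Units.val_mul]
  | algebraMap r =>
    refine ⟨algebraMap K (g1i_A K M N) r, ?_⟩
    change _ = fun z => g1i_an K hM (algebraMap K (g1i_A K M N) r) (σ • z)
    rw [g1i_an_algebraMap]
  | add x y hx hy ihx ihy =>
    obtain ⟨x', hx'⟩ := ihx
    obtain ⟨y', hy'⟩ := ihy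
    refine ⟨x' + y', ?_⟩
    have e1 : (⟨x + y, add_mem hx hy⟩ : g1i_A K M N) = ⟨x, hx⟩ + ⟨y, hy⟩ := rfl
    rw [e1, map_add, map_add, hx', hy']
    rfl
  | mul x y hx hy ihx ihy =>
    obtain ⟨x', hx'⟩ := ihx
    obtain ⟨y', hy'⟩ := ihy
    refine ⟨x' * y', ?_⟩
    have e1 : (⟨x * y, mul_mem hx hy⟩ : g1i_A K M N) = ⟨x, hx⟩ * ⟨y, hy⟩ := rfl
    rw [e1, map_mul, map_mul, hx', hy']
    rfl

/-- the transform `a ↦ a'` with `an a' = an a ∘ σ` -/
def g1dm_AFun {M N : ℕ} (hM : M ≠ 1) {σ : SL(2, ℤ)} (hσ : σ ∈ Gamma0 N)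
    {u : (ZMod M)ˣ} (hu : ((σ 0 0 : ℤ) : ZMod M) = (u : ZMod M)) (x : g1i_A K M N) :
    g1i_A K M N :=
  (g1dm_exists_comp K hM hσ hu x).choose

theorem g1dm_AFun_spec {M N : ℕ} (hM : M ≠ 1) {σ : SL(2, ℤ)} (hσ : σ ∈ Gamma0 N)
    {u : (ZMod M)ˣ} (hu : ((σ 0 0 : ℤ) : ZMod M) = (u : ZMod M)) (x : g1i_A K M N) :
    g1i_an K hM (g1dm_AFun K hM hσ hu x) = fun z => g1i_an K hM x (σ • z) :=
  (g1dm_exists_comp K hM hσ hu x).choose_spec

theorem g1dm_AFun_eq {M N : ℕ} (hM : M ≠ 1) {σ : SL(2, ℤ)} (hσ : σ ∈ Gamma0 N)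
    {u : (ZMod M)ˣ} (hu : ((σ 0 0 : ℤ) : ZMod M) = (u : ZMod M)) (x : g1i_A K M N)
    {y : g1i_A K M N} (h : g1i_an K hM y = fun z => g1i_an K hM x (σ • z)) :
    g1dm_AFun K hM hσ hu x = y :=
  g1i_an_injective K hM ((g1dm_AFun_spec K hM hσ hu x).trans h.symm)

/-- the `K`-algebra endomorphism of `A` induced by `σ ∈ Γ₀(N)` -/
def g1dm_AHom {M N : ℕ} (hM : M ≠ 1) {σ : SL(2, ℤ)} (hσ : σ ∈ Gamma0 N)
    {u : (ZMod M)ˣ} (hu : ((σ 0 0 : ℤ) : ZMod M) = (u : ZMod M)) :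
    g1i_A K M N →ₐ[K] g1i_A K M N where
  toFun := g1dm_AFun K hM hσ hu
  map_one' := g1dm_AFun_eq K hM hσ hu 1 (by rw [map_one]; rfl)
  map_mul' x y := g1dm_AFun_eq K hM hσ hu (x * y) (by
    rw [map_mul, map_mul, g1dm_AFun_spec, g1dm_AFun_spec]; rfl)
  map_zero' := g1dm_AFun_eq K hM hσ hu 0 (by rw [map_zero]; rfl)
  map_add' x y := g1dm_AFun_eq K hM hσ hu (x + y) (by
    rw [map_add, map_add, g1dm_AFun_spec, g1dm_AFun_spec]; rfl)
  commutes' c := g1dm_AFun_eq K hM hσ hu _ (by rw [g1i_an_algebraMap])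

theorem g1dm_AHom_an {M N : ℕ} (hM : M ≠ 1) {σ : SL(2, ℤ)} (hσ : σ ∈ Gamma0 N)
    {u : (ZMod M)ˣ} (hu : ((σ 0 0 : ℤ) : ZMod M) = (u : ZMod M)) (x : g1i_A K M N) :
    g1i_an K hM (g1dm_AHom K hM hσ hu x) = fun z => g1i_an K hM x (σ • z) :=
  g1dm_AFun_spec K hM hσ hu x

theorem g1dm_AHom_jd {M N : ℕ} (hM : M ≠ 1) {σ : SL(2, ℤ)} (hσ : σ ∈ Gamma0 N)
    {u : (ZMod M)ˣ} (hu : ((σ 0 0 : ℤ) : ZMod M) = (u : ZMod M)) (d : ℕ) [NeZero d]
    (hd : d ∣ N) : g1dm_AHom K hM hσ hu (g1i_jd K M d hd) = g1i_jd K M d hd :=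
  g1dm_AFun_eq K hM hσ hu _ (by
    rw [g1i_an_jd]
    funext z
    exact (jd_smul_of_mem_Gamma0 hd σ hσ z).symm)

theorem g1dm_AHom_wq {M N : ℕ} (hM : M ≠ 1) {σ : SL(2, ℤ)} (hσ : σ ∈ Gamma0 N)
    {u : (ZMod M)ˣ} (hu : ((σ 0 0 : ℤ) : ZMod M) = (u : ZMod M)) (e : ℕ) [NeZero e]
    (he : e * M ∣ N) (a : (ZMod M)ˣ) :
    g1dm_AHom K hM hσ hu (g1i_wq K e he a) = g1i_wq K e he (a * u) :=
  g1dm_AFun_eq K hM hσ hu _ (by
    rw [g1i_an_wq, g1i_an_wq]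
    funext z
    rw [g1a_Wq_smul_Gamma0 M _ he hσ z, hu, Units.val_mul])

/-! ### the operators `⟨d⟩` -/

section diamond

variable {M N : ℕ} [NeZero N] (hM : M ≠ 1) (hMN : M ∣ N)

/-- the chosen matrix for `d` -/
def g1dm_sigma (d : (ZMod M)ˣ) : SL(2, ℤ) := (g1dm_exists_sigma hMN d).choose

theorem g1dm_sigma_mem (d : (ZMod M)ˣ) : g1dm_sigma hMN d ∈ Gamma0 N :=
  (g1dm_exists_sigma hMN d).choose_spec.1

theorem g1dm_sigma_entry (d : (ZMod M)ˣ) :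
    (((g1dm_sigma hMN d) 0 0 : ℤ) : ZMod M) = (d : ZMod M) :=
  (g1dm_exists_sigma hMN d).choose_spec.2

/-- **the diamond operator `⟨d⟩` on `A`** -/
def g1dm_A (d : (ZMod M)ˣ) : g1i_A K M N →ₐ[K] g1i_A K M N :=
  g1dm_AHom K hM (g1dm_sigma_mem hMN d) (g1dm_sigma_entry hMN d)

theorem g1dm_A_jd (d : (ZMod M)ˣ) (e : ℕ) [NeZero e] (he : e ∣ N) :
    g1dm_A K hM hMN d (g1i_jd K M e he) = g1i_jd K M e he :=
  g1dm_AHom_jd K hM _ _ e he

theorem g1dm_A_wq (d : (ZMod M)ˣ) (e : ℕ) [NeZero e] (he : e * M ∣ N) (a : (ZMod M)ˣ) :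
    g1dm_A K hM hMN d (g1i_wq K e he a) = g1i_wq K e he (a * d) :=
  g1dm_AHom_wq K hM _ _ e he a

/-- `⟨d⟩` is induced by ANY `σ ∈ Γ₀(N)` with `σ₀₀ ≡ d (mod M)` -/
theorem g1dm_A_eq (d : (ZMod M)ˣ) {σ : SL(2, ℤ)} (hσ : σ ∈ Gamma0 N)
    (hu : ((σ 0 0 : ℤ) : ZMod M) = (d : ZMod M)) :
    g1dm_A K hM hMN d = g1dm_AHom K hM hσ hu := by
  apply AlgHom.coe_ringHom_injective
  refine g1dm_ringHom_ext K (fun c => ?_) (fun e _ he => ?_) (fun e _ he a => ?_)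
  · simp
  · show g1dm_A K hM hMN d _ = g1dm_AHom K hM hσ hu _
    rw [g1dm_A_jd, g1dm_AHom_jd]
  · show g1dm_A K hM hMN d _ = g1dm_AHom K hM hσ hu _
    rw [g1dm_A_wq, g1dm_AHom_wq]

/-- **the analytic form of `⟨d⟩`**: `an (⟨d⟩ a) = an a ∘ σ` for every `σ ∈ Γ₀(N)` with
`σ₀₀ ≡ d (mod M)` -/
theorem g1dm_an (d : (ZMod M)ˣ) {σ : SL(2, ℤ)} (hσ : σ ∈ Gamma0 N)
    (hu : ((σ 0 0 : ℤ) : ZMod M) = (d : ZMod M)) (x : g1i_A K M N) (z : ℍ) :
    g1i_an K hM (g1dm_A K hM hMN d x) z = g1i_an K hM x (σ • z) := by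
  rw [g1dm_A_eq K hM hMN d hσ hu, g1dm_AHom_an]

theorem g1dm_A_one : g1dm_A K hM hMN (1 : (ZMod M)ˣ) = AlgHom.id K _ := by
  apply AlgHom.coe_ringHom_injective
  refine g1dm_ringHom_ext K (fun c => ?_) (fun e _ he => ?_) (fun e _ he a => ?_)
  · simp
  · show g1dm_A K hM hMN 1 _ = _
    rw [g1dm_A_jd]; rfl
  · show g1dm_A K hM hMN 1 _ = _
    rw [g1dm_A_wq, mul_one]; rfl

theorem g1dm_A_mul (d d' : (ZMod M)ˣ) :
    g1dm_A K hM hMN (d * d') = (g1dm_A K hM hMN d).comp (g1dm_A K hM hMN d') := by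
  apply AlgHom.coe_ringHom_injective
  refine g1dm_ringHom_ext K (fun c => ?_) (fun e _ he => ?_) (fun e _ he a => ?_)
  · simp
  · show g1dm_A K hM hMN (d * d') _ = g1dm_A K hM hMN d (g1dm_A K hM hMN d' _)
    rw [g1dm_A_jd, g1dm_A_jd, g1dm_A_jd]
  · show g1dm_A K hM hMN (d * d') _ = g1dm_A K hM hMN d (g1dm_A K hM hMN d' _)
    rw [g1dm_A_wq, g1dm_A_wq, g1dm_A_wq, mul_assoc, mul_comm d d']

theorem g1dm_A_mul_apply (d d' : (ZMod M)ˣ) (x : g1i_A K M N) :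
    g1dm_A K hM hMN (d * d') x = g1dm_A K hM hMN d (g1dm_A K hM hMN d' x) := by
  rw [g1dm_A_mul]; rfl

/-- `⟨d⟩` as an automorphism of `A` -/
def g1dm_AEquiv (d : (ZMod M)ˣ) : g1i_A K M N ≃ₐ[K] g1i_A K M N :=
  AlgEquiv.ofAlgHom (g1dm_A K hM hMN d) (g1dm_A K hM hMN d⁻¹)
    (by rw [← g1dm_A_mul, mul_inv_cancel, g1dm_A_one])
    (by rw [← g1dm_A_mul, inv_mul_cancel, g1dm_A_one])

theorem g1dm_AEquiv_apply (d : (ZMod M)ˣ) (x : g1i_A K M N) :
    g1dm_AEquiv K hM hMN d x = g1dm_A K hM hMN d x := rfl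

/-- **the diamond operator `⟨d⟩`, a `K`-automorphism of the field `g1i_F K M N`** -/
def g1dm_F (d : (ZMod M)ˣ) : g1i_F K M N ≃ₐ[K] g1i_F K M N :=
  AlgEquiv.ofRingEquiv
    (f := IsFractionRing.ringEquivOfRingEquiv (K := g1i_F K M N) (L := g1i_F K M N)
      (g1dm_AEquiv K hM hMN d).toRingEquiv)
    (fun c => by
      rw [IsScalarTower.algebraMap_apply K (g1i_A K M N) (g1i_F K M N),
        IsFractionRing.ringEquivOfRingEquiv_algebraMap]
      congr 1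
      exact (g1dm_A K hM hMN d).commutes c)

theorem g1dm_F_algebraMap (d : (ZMod M)ˣ) (x : g1i_A K M N) :
    g1dm_F K hM hMN d (algebraMap (g1i_A K M N) (g1i_F K M N) x)
      = algebraMap (g1i_A K M N) (g1i_F K M N) (g1dm_A K hM hMN d x) :=
  IsFractionRing.ringEquivOfRingEquiv_algebraMap _ x

theorem g1dm_F_jd (d : (ZMod M)ˣ) (e : ℕ) [NeZero e] (he : e ∣ N) :
    g1dm_F K hM hMN d (algebraMap (g1i_A K M N) (g1i_F K M N) (g1i_jd K M e he))
      = algebraMap (g1i_A K M N) (g1i_F K M N) (g1i_jd K M e he) := by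
  rw [g1dm_F_algebraMap, g1dm_A_jd]

theorem g1dm_F_wq (d : (ZMod M)ˣ) (e : ℕ) [NeZero e] (he : e * M ∣ N) (a : (ZMod M)ˣ) :
    g1dm_F K hM hMN d (algebraMap (g1i_A K M N) (g1i_F K M N) (g1i_wq K e he a))
      = algebraMap (g1i_A K M N) (g1i_F K M N) (g1i_wq K e he (a * d)) := by
  rw [g1dm_F_algebraMap, g1dm_A_wq]

/-- the coordinate form: `⟨d⟩ j(q^e) = j(q^e)` -/
theorem g1dm_F_jd_coe (d : (ZMod M)ˣ) (e : ℕ) [NeZero e] (he : e ∣ N)
    (h : qExpand K e (jqModC K) ∈ g1i_F K M N) :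
    ((g1dm_F K hM hMN d ⟨_, h⟩ : g1i_F K M N) : LaurentSeries K) = qExpand K e (jqModC K) := by
  have := g1dm_F_jd K hM hMN d e he
  exact congrArg (fun x : g1i_F K M N => (x : LaurentSeries K)) this

/-- the coordinate form: `⟨d⟩ w_a(q^e) = w_{a d}(q^e)` -/
theorem g1dm_F_wq_coe (d : (ZMod M)ˣ) (e : ℕ) [NeZero e] (he : e * M ∣ N) (a : (ZMod M)ˣ)
    (h : qExpand K e (g1w_w K M (a : ZMod M)) ∈ g1i_F K M N) :
    ((g1dm_F K hM hMN d ⟨_, h⟩ : g1i_F K M N) : LaurentSeries K)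
      = qExpand K e (g1w_w K M ((a * d : (ZMod M)ˣ) : ZMod M)) := by
  have := g1dm_F_wq K hM hMN d e he a
  exact congrArg (fun x : g1i_F K M N => (x : LaurentSeries K)) this

local notation "FF" => g1i_F K M N

theorem g1dm_F_one_apply (x : g1i_F K M N) : g1dm_F K hM hMN (1 : (ZMod M)ˣ) x = x := by
  have h : ((g1dm_F K hM hMN (1 : (ZMod M)ˣ)).toRingEquiv.toRingHom : FF →+* FF)
      = RingHom.id _ := by
    refine g1dm_ringHom_ext_F K (fun c => ?_) (fun e _ he => ?_) (fun e _ he a => ?_)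
    · exact (g1dm_F K hM hMN 1).commutes c
    · exact g1dm_F_jd K hM hMN 1 e he
    · show g1dm_F K hM hMN 1 _ = _
      rw [g1dm_F_wq, mul_one]
      rfl
  exact RingHom.congr_fun h x

theorem g1dm_F_mul_apply (d d' : (ZMod M)ˣ) (x : g1i_F K M N) :
    g1dm_F K hM hMN (d * d') x = g1dm_F K hM hMN d (g1dm_F K hM hMN d' x) := by
  have h : ((g1dm_F K hM hMN (d * d')).toRingEquiv.toRingHom : FF →+* FF)
      = ((g1dm_F K hM hMN d).toRingEquiv.toRingHom).comp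
          (g1dm_F K hM hMN d').toRingEquiv.toRingHom := by
    refine g1dm_ringHom_ext_F K (fun c => ?_) (fun e _ he => ?_) (fun e _ he a => ?_)
    · show g1dm_F K hM hMN (d * d') _ = g1dm_F K hM hMN d (g1dm_F K hM hMN d' _)
      rw [AlgEquiv.commutes, AlgEquiv.commutes, AlgEquiv.commutes]
    · show g1dm_F K hM hMN (d * d') _ = g1dm_F K hM hMN d (g1dm_F K hM hMN d' _)
      rw [g1dm_F_jd, g1dm_F_jd, g1dm_F_jd]
    · show g1dm_F K hM hMN (d * d') _ = g1dm_F K hM hMN d (g1dm_F K hM hMN d' _)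
      rw [g1dm_F_wq, g1dm_F_wq, g1dm_F_wq, mul_assoc, mul_comm d d']
  exact RingHom.congr_fun h x

/-- the diamond operators as a homomorphism `(ℤ/M)ˣ → Aut_K (g1i_F K M N)` -/
def g1dm_hom : (ZMod M)ˣ →* (g1i_F K M N ≃ₐ[K] g1i_F K M N) where
  toFun d := g1dm_F K hM hMN d
  map_one' := AlgEquiv.ext fun x => g1dm_F_one_apply K hM hMN x
  map_mul' d d' := AlgEquiv.ext fun x => g1dm_F_mul_apply K hM hMN d d' x

theorem g1dm_hom_apply (d : (ZMod M)ˣ) : g1dm_hom K hM hMN d = g1dm_F K hM hMN d := rfl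

theorem g1dm_F_symm (d : (ZMod M)ˣ) : (g1dm_F K hM hMN d).symm = g1dm_F K hM hMN d⁻¹ := by
  have := map_inv (g1dm_hom K hM hMN) d
  rw [g1dm_hom_apply, g1dm_hom_apply] at this
  exact this.symm

/-- **the diamond operators commute with the coefficientwise Galois action** -/
theorem g1dm_F_galois (d : (ZMod M)ˣ) (τ : K ≃ₐ[ℚ] K) (y : g1i_F K M N) :
    g1dm_F K hM hMN d (arithmeticGalois (g1f_F M N) τ • y)
      = arithmeticGalois (g1f_F M N) τ • g1dm_F K hM hMN d y := by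
  have key : ∀ y : g1i_F K M N,
      arithmeticGalois (g1f_F M N) τ • y = arithmeticRingAut (g1f_F M N) τ y := fun y => rfl
  rw [key, key]
  have h : ((g1dm_F K hM hMN d).toRingEquiv.toRingHom).comp
        ((arithmeticRingAut (g1f_F M N) τ).toRingHom : FF →+* FF)
      = ((arithmeticRingAut (g1f_F M N) τ).toRingHom : FF →+* FF).comp
          (g1dm_F K hM hMN d).toRingEquiv.toRingHom := by
    refine g1dm_ringHom_ext_F K (fun c => ?_) (fun e _ he => ?_) (fun e _ he a => ?_)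
    · show g1dm_F K hM hMN d (arithmeticRingAut (g1f_F M N) τ _)
        = arithmeticRingAut (g1f_F M N) τ (g1dm_F K hM hMN d _)
      rw [arithmeticRingAut_algebraMap, AlgEquiv.commutes, AlgEquiv.commutes,
        arithmeticRingAut_algebraMap]
    · show g1dm_F K hM hMN d (arithmeticRingAut (g1f_F M N) τ _)
        = arithmeticRingAut (g1f_F M N) τ (g1dm_F K hM hMN d _)
      have e1 : arithmeticRingAut (g1f_F M N) τ
          (algebraMap (g1i_A K M N) (g1i_F K M N) (g1i_jd K M e he))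
          = algebraMap (g1i_A K M N) (g1i_F K M N) (g1i_jd K M e he) := by
        apply Subtype.ext
        show coeffMap (τ : K →+* K) (qExpand K e (jqModC K)) = qExpand K e (jqModC K)
        rw [coeffMap_qExpand, coeffMap_jqModC]
      rw [e1, g1dm_F_jd, e1]
    · show g1dm_F K hM hMN d (arithmeticRingAut (g1f_F M N) τ _)
        = arithmeticRingAut (g1f_F M N) τ (g1dm_F K hM hMN d _)
      have e1 : ∀ b : (ZMod M)ˣ, arithmeticRingAut (g1f_F M N) τ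
          (algebraMap (g1i_A K M N) (g1i_F K M N) (g1i_wq K e he b))
          = algebraMap (g1i_A K M N) (g1i_F K M N) (g1i_wq K e he b) := by
        intro b
        apply Subtype.ext
        show coeffMap (τ : K →+* K) (qExpand K e (g1w_w K M (b : ZMod M)))
          = qExpand K e (g1w_w K M (b : ZMod M))
        rw [coeffMap_qExpand, g1w_coeffMap_w]
      rw [e1, g1dm_F_wq, e1]
  exact RingHom.congr_fun h y

end diamond

end generic

end Fermat.Agent.DS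

end
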