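/-
DS-T / cell [G1], instance half of [G1-c]: THE ANALYTIC NORM FORMULA FOR `Γ₁(M)` (twin of
`JT3/Gateway/HeckeNormAn.lean`).  Prefix `g1n_`.

`F = g1i_F Q̄ M M` (the function field of `X₁(M)` over `Q̄`), `F'` any field with degeneracy maps
`α β : F →ₐ[Q̄] F'` realised on `q`-expansions (`e' ∘ α = id`, `e' ∘ β = (q ↦ q^p)`), of degree
`p + 1` along `α`, and a swap embedding `w : F' → ℂ((t))` (`w ∘ α = (q ↦ t^p)`,
`w ∘ β = ⟨p⟩` — helper24's `dsh_sw_swap`).  Then for `a, c₁, a₁ ∈ A = Q̄[j, w_a]` with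
`N_α(β a) · c₁ = a₁`:

  `an a₁ z = (∏_{x ∈ ℙ¹(𝔽_p)} an a (s_x α_x z)) · an c₁ z`   (**`g1n_norm_an`**)

where `α_x = heckeRep p x`, `s_∞ = 1`, `s_j = σ` with `σ₁₁ ≡ p⁻¹ (mod M)`: the admissible family
`g1n_s hpM` of constant `1` (`g1n_s_adm`) in the sense of helper5's `HeckeG1/Coset.lean` — this is
the hypothesis `hnorm` of the generic Hecke equivariance of the gateway.
-/
import Mathlib
import Fermat.Agent.DS.Gam1.Diamonds
import Fermat.Agent.DS.Hecke.NormProdGen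
import Fermat.Agent.DS.HeckeG1.Coset
import Fermat.Agent.JT3.Gateway.HeckeNormAn

set_option autoImplicit false
set_option linter.unusedSectionVars false

noncomputable section

open UpperHalfPlane hiding I
open Complex CongruenceSubgroup ModularCurve
open scoped Real Manifold MatrixGroups
open Fermat.Agent.S23 (alphaN)
open P2MW.S_ModularForm_heckeT_slash_eq_self_of_mem_Gamma0.ModularForm.HeckeSlashInvariance

namespace Fermat.Agent.DS

open Fermat.Agent.S24 Fermat.Agent.S24.Br Fermat.Agent.JT3 AlgebraicCurve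

/-- the norm along `α` of the pull-back along `β`, as a monoid homomorphism -/
def g1n_Nm {K F F' : Type*} [Field K] [Field F] [Field F'] [Algebra K F] [Algebra K F']
    (α β : F →ₐ[K] F') : F →* F :=
  letI := algebraAlong α
  (Algebra.norm F).comp (β : F →* F')

theorem g1n_Nm_apply {K F F' : Type*} [Field K] [Field F] [Field F'] [Algebra K F] [Algebra K F']
    (α β : F →ₐ[K] F') (y : F) :
    g1n_Nm α β y = (letI := algebraAlong α; Algebra.norm F (β y)) := rfl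

section family

variable {M p : ℕ} [NeZero M] [Fact p.Prime]

/-- `γ₀₀ γ₁₁ ≡ 1 (mod M)` for `γ ∈ Γ₀(M)` -/
theorem g1n_entry_mul {M : ℕ} {γ : SL(2, ℤ)} (hγ : γ ∈ Gamma0 M) :
    ((γ 0 0 : ℤ) : ZMod M) * ((γ 1 1 : ℤ) : ZMod M) = 1 := by
  have hdet : γ 0 0 * γ 1 1 - γ 0 1 * γ 1 0 = 1 := by
    have := γ.2
    rwa [Matrix.det_fin_two] at this
  have h := congrArg (Int.cast : ℤ → ZMod M) hdet
  push_cast at h
  rw [Gamma0_mem.mp hγ, mul_zero, sub_zero] at h
  exact h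

/-- the correcting elements of the norm formula: `1` at `∞`, `σ` with `σ₁₁ ≡ p⁻¹` at the finite
points -/
def g1n_s (hpM : ¬ p ∣ M) (x : OnePoint (ZMod p)) : Gamma0 M :=
  x.elim 1 fun _ => g1t_sigma (g1t_pU hpM)⁻¹

@[simp] theorem g1n_s_infty (hpM : ¬ p ∣ M) :
    g1n_s hpM (OnePoint.infty : OnePoint (ZMod p)) = 1 := rfl

@[simp] theorem g1n_s_coe (hpM : ¬ p ∣ M) (j : ZMod p) :
    g1n_s hpM (j : OnePoint (ZMod p)) = g1t_sigma (g1t_pU hpM)⁻¹ := rfl

/-- the family is admissible of constant `1` -/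
theorem g1n_s_adm (hpM : ¬ p ∣ M) : g1t_Adm hpM (g1n_s hpM) 1 := by
  intro x
  induction x using OnePoint.rec with
  | infty => simp
  | coe j => simp [g1t_chi_sigma]

/-- the upper left entry of `σ` is `p` modulo `M` -/
theorem g1n_sigma_entry (hpM : ¬ p ∣ M) :
    ((((g1t_sigma (g1t_pU hpM)⁻¹ : Gamma0 M) : SL(2, ℤ)) 0 0 : ℤ) : ZMod M)
      = ((g1t_pU hpM : (ZMod M)ˣ) : ZMod M) := by
  set σ : Gamma0 M := g1t_sigma (g1t_pU hpM)⁻¹ with hσ
  have h1 := g1n_entry_mul (σ : Gamma0 M).2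
  have h2 : ((((σ : Gamma0 M) : SL(2, ℤ)) 1 1 : ℤ) : ZMod M)
      = (((g1t_pU hpM)⁻¹ : (ZMod M)ˣ) : ZMod M) := by
    rw [← g1t_chi_coe, hσ, g1t_chi_sigma]
  rw [h2] at h1
  calc ((((σ : Gamma0 M) : SL(2, ℤ)) 0 0 : ℤ) : ZMod M)
      = ((((σ : Gamma0 M) : SL(2, ℤ)) 0 0 : ℤ) : ZMod M) *
          ((((g1t_pU hpM)⁻¹ : (ZMod M)ˣ) : ZMod M) * ((g1t_pU hpM : (ZMod M)ˣ) : ZMod M)) := by
        rw [← Units.val_mul, inv_mul_cancel, Units.val_one, mul_one]
    _ = ((g1t_pU hpM : (ZMod M)ˣ) : ZMod M) := by rw [← mul_assoc, h1, one_mul]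

end family

/-! ### the analytic norm formula -/

section norm

variable {M p : ℕ} [NeZero M] [Fact p.Prime] (hM : M ≠ 1) (hpM : ¬ p ∣ M)
  {F' : Type*} [Field F'] [Algebra Kbar F']
  (e' : F' →+* LaurentSeries Kbar) (α β : g1i_F Kbar M M →ₐ[Kbar] F')

local notation "FM" => g1i_F Kbar M M
local notation "AM" => g1i_A Kbar M M
local notation "ιC" => (br_iota : Kbar →+* ℂ)

/-- the norm formula at the points `p z` -/
theorem g1n_norm_an_aux
    (hα : ∀ x : FM, e' (α x) = (x : LaurentSeries Kbar))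
    (hβ : ∀ y : FM, e' (β y) = qExpand Kbar p (y : LaurentSeries Kbar))
    (hdeg : finrankAlong Kbar α = p + 1)
    (w : F' →+* LaurentSeries ℂ)
    (hwα : ∀ x : FM, w (α x) = coeffMap ιC (qExpand Kbar p (x : LaurentSeries Kbar)))
    (hwβ : ∀ y : FM, w (β y) = coeffMap ιC
      ((g1dm_F Kbar hM (dvd_refl M) (g1t_pU hpM) y : FM) : LaurentSeries Kbar))
    (a c₁ a₁ : AM)
    (h : g1n_Nm α β (algebraMap AM FM a) * algebraMap AM FM c₁ = algebraMap AM FM a₁) (z : ℍ) :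
    g1i_an Kbar hM a₁ (alphaN p • z) = g1i_an Kbar hM c₁ (alphaN p • z) *
      (g1i_an Kbar hM a (alphaN (p ^ 2) • z) *
        ∏ b ∈ Finset.range p,
          g1i_an Kbar hM (g1dm_A Kbar hM (dvd_refl M) (g1t_pU hpM) a)
            ((((b : ℝ) * (p : ℝ)⁻¹ : ℝ)) +ᵥ z)) := by
  have hp : p.Prime := Fact.out
  haveI : NeZero p := ⟨hp.ne_zero⟩
  obtain ⟨ζ, hζ, hζC⟩ := gwh_exists_zeta p
  set a' : AM := g1dm_A Kbar hM (dvd_refl M) (g1t_pU hpM) a with ha'
  -- the generator `j` separates the embeddings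
  set jF : FM := algebraMap AM FM (g1i_jd Kbar M 1 (one_dvd M)) with hjF
  have hs : (((g1dm_F Kbar hM (dvd_refl M) (g1t_pU hpM) jF : FM) : LaurentSeries Kbar)).coeff (-1)
      ≠ 0 := by
    rw [hjF, g1dm_F_jd]
    show (qExpand Kbar 1 (jqModC Kbar)).coeff (-1) ≠ 0
    rw [qExpand_one_apply, coeff_jqModC_neg_one]
    exact one_ne_zero
  have hnorm := dsh_nl_norm ((g1i_F Kbar M M).val : FM →+* LaurentSeries Kbar) e' ιC p hp α β
    (fun y => g1dm_F Kbar hM (dvd_refl M) (g1t_pU hpM) y) hα hβ hdeg w hwα hwβ jF hs ζ hζ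
    (algebraMap AM FM a)
  have e1 : ((g1dm_F Kbar hM (dvd_refl M) (g1t_pU hpM) (algebraMap AM FM a) : FM) :
      LaurentSeries Kbar) = (a' : LaurentSeries Kbar) := by
    rw [g1dm_F_algebraMap]
    rfl
  have hnorm' : qExpand Kbar p ((g1n_Nm α β (algebraMap AM FM a) : FM) : LaurentSeries Kbar) =
      qExpand Kbar (p ^ 2) (a : LaurentSeries Kbar) *
        ∏ b ∈ Finset.range p, S28.fs_twist (ζ ^ b) (a' : LaurentSeries Kbar) := by
    rw [← e1]
    exact hnorm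
  have h' : ((g1n_Nm α β (algebraMap AM FM a) : FM) : LaurentSeries Kbar) *
      (c₁ : LaurentSeries Kbar) = (a₁ : LaurentSeries Kbar) := by
    have := congrArg (fun y : FM => (y : LaurentSeries Kbar)) h
    simp only [MulMemClass.coe_mul] at this
    exact this
  have hι : (algebraMap Kbar ℂ) = ιC := rfl
  -- the identity of series over `ℂ`
  have hS : qExpand ℂ p (coeffMap ιC (a₁ : LaurentSeries Kbar)) =
      qExpand ℂ p (coeffMap ιC (c₁ : LaurentSeries Kbar)) *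
        (qExpand ℂ (p ^ 2) (coeffMap ιC (a : LaurentSeries Kbar)) *
          ∏ b ∈ Finset.range p, S28.fs_twist (gwh_e ((b : ℝ) * (p : ℝ)⁻¹))
            (coeffMap ιC (a' : LaurentSeries Kbar))) := by
    have e2 : coeffMap ιC (qExpand Kbar p (a₁ : LaurentSeries Kbar)) =
        coeffMap ιC (qExpand Kbar p (c₁ : LaurentSeries Kbar)) *
          (coeffMap ιC (qExpand Kbar (p ^ 2) (a : LaurentSeries Kbar)) *
            ∏ b ∈ Finset.range p,
              coeffMap ιC (S28.fs_twist (ζ ^ b) (a' : LaurentSeries Kbar))) := by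
      rw [← h', map_mul, hnorm', map_mul, map_mul, map_prod, mul_comm]
    rw [S28.fs_coeffMap_qExpand, S28.fs_coeffMap_qExpand, S28.fs_coeffMap_qExpand] at e2
    rw [e2]
    congr 2
    refine Finset.prod_congr rfl fun b _ => ?_
    rw [S28.fs_coeffMap_twist, map_pow, hζC, gwh_e_pow]
  -- the two functions
  have hL : br_HasLaurentQ (fun z => g1i_an Kbar hM a₁ (alphaN p • z))
      (qExpand ℂ p (coeffMap ιC (a₁ : LaurentSeries Kbar))) :=
    (g1i_an_spec Kbar hM a₁).comp_alphaN p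
  have hR : br_HasLaurentQ ((fun z => g1i_an Kbar hM c₁ (alphaN p • z)) *
      ((fun z => g1i_an Kbar hM a (alphaN (p ^ 2) • z)) *
        ∏ b ∈ Finset.range p, fun z => g1i_an Kbar hM a' ((((b : ℝ) * (p : ℝ)⁻¹ : ℝ)) +ᵥ z)))
      (qExpand ℂ p (coeffMap ιC (a₁ : LaurentSeries Kbar))) := by
    rw [hS]
    exact ((g1i_an_spec Kbar hM c₁).comp_alphaN p).mul
      (((g1i_an_spec Kbar hM a).comp_alphaN (p ^ 2)).mul
        (gwh_hasLaurentQ_prod _ fun b _ => gwh_hasLaurentQ_vadd (g1i_an_spec Kbar hM a') _))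
  have := congrFun (hL.unique_left hR) z
  simpa [Finset.prod_apply] using this

/-- **the analytic norm formula for `Γ₁(M)`**: the norm along `α` of `a(q^p)` is realised by
`∏_x a(s_x α_x z)` -/
theorem g1n_norm_an
    (hα : ∀ x : FM, e' (α x) = (x : LaurentSeries Kbar))
    (hβ : ∀ y : FM, e' (β y) = qExpand Kbar p (y : LaurentSeries Kbar))
    (hdeg : finrankAlong Kbar α = p + 1)
    (w : F' →+* LaurentSeries ℂ)
    (hwα : ∀ x : FM, w (α x) = coeffMap ιC (qExpand Kbar p (x : LaurentSeries Kbar)))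
    (hwβ : ∀ y : FM, w (β y) = coeffMap ιC
      ((g1dm_F Kbar hM (dvd_refl M) (g1t_pU hpM) y : FM) : LaurentSeries Kbar))
    (a c₁ a₁ : AM)
    (h : g1n_Nm α β (algebraMap AM FM a) * algebraMap AM FM c₁ = algebraMap AM FM a₁) (z : ℍ) :
    g1i_an Kbar hM a₁ z =
      (∏ x : OnePoint (ZMod p), g1i_an Kbar hM a (g1t_repS (g1n_s hpM) x • z)) *
        g1i_an Kbar hM c₁ z := by
  have hp : p.Prime := Fact.out
  haveI : NeZero p := ⟨hp.ne_zero⟩
  have hp0 : (p : ℂ) ≠ 0 := by exact_mod_cast hp.ne_zero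
  set σ : Gamma0 M := g1t_sigma (g1t_pU hpM)⁻¹ with hσ
  set w₀ : ℍ := heckeRep p (((0 : ZMod p) : OnePoint (ZMod p))) • z with hw₀
  have hwc : (w₀ : ℂ) = (p : ℂ)⁻¹ * z := by
    rw [hw₀, t2p_coe_smul]
    simp [t2p_a, t2p_b]
  have h1 : alphaN p • w₀ = z := by
    apply UpperHalfPlane.ext
    rw [Fermat.Agent.S23.coe_alphaN_smul, hwc, ← mul_assoc, mul_inv_cancel₀ hp0, one_mul]
  have h2 : alphaN (p ^ 2) • w₀ = heckeRep p (OnePoint.infty : OnePoint (ZMod p)) • z := by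
    apply UpperHalfPlane.ext
    rw [Fermat.Agent.S23.coe_alphaN_smul, hwc, t2p_coe_smul]
    simp only [t2p_a, t2p_b, OnePoint.elim_infty]
    push_cast
    field_simp
    ring
  have h3 : ∀ j : ZMod p, ((((j.val : ℕ) : ℝ) * (p : ℝ)⁻¹ : ℝ)) +ᵥ w₀ =
      heckeRep p ((j : OnePoint (ZMod p))) • z := by
    intro j
    apply UpperHalfPlane.ext
    rw [UpperHalfPlane.coe_vadd, hwc, t2p_coe_smul]
    simp only [t2p_a, t2p_b, OnePoint.elim_some]
    push_cast
    ring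
  have key := g1n_norm_an_aux hM hpM e' α β hα hβ hdeg w hwα hwβ a c₁ a₁ h w₀
  rw [h1, h2, gwh_prod_range_eq_prod_zmod
    (fun b => g1i_an Kbar hM (g1dm_A Kbar hM (dvd_refl M) (g1t_pU hpM) a)
      ((((b : ℝ) * (p : ℝ)⁻¹ : ℝ)) +ᵥ w₀))] at key
  rw [key, mul_comm]
  congr 1
  have e : ∀ G : OnePoint (ZMod p) → ℂ, ∏ x : OnePoint (ZMod p), G x =
      G OnePoint.infty * ∏ j : ZMod p, G (j : OnePoint (ZMod p)) := fun G => Fintype.prod_option G
  rw [e]
  congr 1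
  · -- the point at infinity
    refine congrArg (g1i_an Kbar hM a) ?_
    show heckeRep p OnePoint.infty • z =
      (Matrix.SpecialLinearGroup.mapGL ℝ (((g1n_s hpM OnePoint.infty : Gamma0 M)) : SL(2, ℤ)) *
        heckeRep p OnePoint.infty) • z
    rw [g1n_s_infty, Subgroup.coe_one, map_one, one_mul]
  · refine Finset.prod_congr rfl fun j _ => ?_
    rw [h3, g1dm_an Kbar hM (dvd_refl M) (g1t_pU hpM) (σ : Gamma0 M).2 (g1n_sigma_entry hpM)]
    refine congrArg (g1i_an Kbar hM a) ?_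
    show ((σ : Gamma0 M) : SL(2, ℤ)) • (heckeRep p (j : OnePoint (ZMod p)) • z) =
      (Matrix.SpecialLinearGroup.mapGL ℝ (((g1n_s hpM (j : OnePoint (ZMod p)) : Gamma0 M)) :
        SL(2, ℤ)) * heckeRep p (j : OnePoint (ZMod p))) • z
    rw [g1n_s_coe, mul_smul]
    rfl

end norm

end Fermat.Agent.DS

end
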