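/-
DS-T / cell [G1], instance leaf: the descent inputs of the `Γ₁(M)` gateway (prefix `g1dd_`).

For `M ∣ N`, `M ≠ 1`, the contexts `g1i_ctxBar hM hMN` (over `Q̄`) and `g1i_ctxC hM hMN` (over `ℂ`):

* `g1dd_jF_transcendental`, `g1dd_isSepGen` : `j` is a separating generator of `g1i_F K M N / K`;
* `g1dd_res`            : the residue fields of the places of `g1i_F K M N / K` are `K` (`K` alg. closed);
* `g1dd_ordVal_nontrivial` : the `q`-order is a nontrivial valuation of `g1i_F ℂ M N`;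
* `g1dd_baseChange`     : the base change datum `g1g_BaseChange (g1f_F M N) (ctxBar) (ctxC)`;
* **`g1dd_descent`**    : the character of an `n`-divisible function over `ℂ` is the character of an
                          `n`-divisible function over `Q̄`;
* **`g1dd_picEquiv`**   : `Pic⁰(X(±Γ₁(M) ∩ Γ₀(N))_{Q̄})[n] ≃+ Additive (g1g_X (g1f_G M N) n)` from
                          surjectivity of the character map over `ℂ` (the only remaining input,
                          leaf [L6]); `g1dd_picEquiv_mk`, `g1dd_picEquiv_level`.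
-/
import Mathlib
import Fermat.Agent.DS.Gam1.InstDegree
import Fermat.Agent.DS.Gam1.Gen.Descent
import Fermat.Agent.DS.Gam1.Gen.Level
import Fermat.Agent.S24.Hurwitz.Places
import Fermat.Agent.JT3.Riemann.Main

set_option autoImplicit false
set_option linter.style.haveILetI false
set_option synthInstance.maxHeartbeats 200000
set_option maxHeartbeats 400000

open UpperHalfPlane CongruenceSubgroup
open scoped MatrixGroups IntermediateField Manifold

namespace Fermat.Agent.DS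

open Fermat.Agent.S24 Fermat.Agent.S24.Br Fermat.Agent.JT3 ModularCurve AlgebraicCurve

local notation "Kbar" => AlgebraicClosure ℚ

section generic

variable (K : Type) [Field K] [Algebra ℚ K] [Algebra K ℂ] {M N : ℕ} [NeZero N] (hM : M ≠ 1)
  (hMN : M ∣ N)

omit [Algebra K ℂ] [NeZero N] in
/-- `j` is transcendental over `K` -/
theorem g1dd_jF_transcendental : Transcendental K (g1dg_jF K M N) := by
  intro h
  apply g1g_jq_transcendental (K₀ := K)
  obtain ⟨p, hp0, hp⟩ := h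
  refine ⟨p, hp0, ?_⟩
  have h1 := Polynomial.aeval_algebraMap_apply (LaurentSeries K) (g1dg_jF K M N) p
  have e : algebraMap (g1i_F K M N) (LaurentSeries K) (g1dg_jF K M N) = jqModC K :=
    g1dg_jF_coe K (M := M) (N := N)
  rw [hp, map_zero, e] at h1
  exact h1

variable [CharZero K]

include hM hMN in
/-- `j` is a separating generator of the function field -/
theorem g1dd_isSepGen : rt_IsSepGen K (g1dg_jF K M N) := by
  haveI := g1dg_finite K hM hMN
  exact rt_isSepGen_of_charZero (g1dd_jF_transcendental K)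

include hM hMN in
/-- all places of the function field over an algebraically closed `K` have residue field `K` -/
theorem g1dd_res [IsAlgClosed K] (P : Place K (g1i_F K M N)) :
    Function.Surjective (algebraMap K P.ResidueField) := by
  haveI := g1dg_finite K hM hMN
  haveI : Algebra.IsAlgebraic ↥(K⟮g1dg_jF K M N⟯) ↥(g1i_F K M N) :=
    Algebra.IsAlgebraic.of_finite _ _
  exact hw_algebraMap_residueField_surjective (g1dg_jF K M N) P

omit [Algebra K ℂ] [NeZero N] [CharZero K] in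
/-- the `q`-order valuation is not trivial -/
theorem g1dd_ordVal_nontrivial :
    ∃ f : g1i_F K M N, f ≠ 0 ∧ gd_ordVal (g1f_F M N) f ≠ 0 := by
  have hcoeff : (jqModC K).coeff (-1 : ℤ) = 1 := coeff_jqModC_neg_one K
  have hne : (jqModC K).coeff (-1 : ℤ) ≠ 0 := by rw [hcoeff]; exact one_ne_zero
  refine ⟨g1dg_jF K M N, ?_, ?_⟩
  · intro h0
    apply hne
    have := congrArg (fun z : g1i_F K M N => (z : LaurentSeries K)) h0
    simp only [g1dg_jF_coe] at this
    rw [this]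
    rfl
  · have h1 : (jqModC K).order ≤ -1 := HahnSeries.order_le_of_coeff_ne_zero hne
    show ((g1dg_jF K M N : g1i_F K M N) : LaurentSeries K).order ≠ 0
    rw [g1dg_jF_coe]
    omega

end generic

section bc

variable {M N : ℕ} [NeZero N] (hM : M ≠ 1) (hMN : M ∣ N)

omit [NeZero N] in
/-- coefficientwise base change maps `A` over `Q̄` into `A` over `ℂ` -/
theorem g1dd_coeffMap_mem_A {x : LaurentSeries Kbar} (hx : x ∈ g1i_A Kbar M N) :
    coeffMap (algebraMap Kbar ℂ) x ∈ g1i_A ℂ M N := by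
  induction hx using Algebra.adjoin_induction with
  | mem y hy =>
    apply Algebra.subset_adjoin
    rcases hy with ⟨d, hd, hdN, rfl⟩ | ⟨e, he, a, heN, rfl⟩
    · left
      refine ⟨d, hd, hdN, ?_⟩
      rw [coeffMap_qExpand, coeffMap_jqModC]
    · right
      refine ⟨e, he, a, heN, ?_⟩
      rw [coeffMap_qExpand, g1w_coeffMap_w]
  | algebraMap r =>
    rw [g1g_coeffMap_algebraMap]
    have : (HahnSeries.C ((algebraMap Kbar ℂ) r) : LaurentSeries ℂ) =
        algebraMap ℂ (LaurentSeries ℂ) ((algebraMap Kbar ℂ) r) := by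
      rw [algebraMap_laurentSeries_eq_single]
      rfl
    rw [this]
    exact (g1i_A ℂ M N).algebraMap_mem _
  | add x y _ _ hx hy => rw [map_add]; exact add_mem hx hy
  | mul x y _ _ hx hy => rw [map_mul]; exact mul_mem hx hy

/-- base change on the algebras -/
noncomputable def g1dd_bcA (a : g1i_A Kbar M N) : g1i_A ℂ M N :=
  ⟨coeffMap (algebraMap Kbar ℂ) (a : LaurentSeries Kbar), g1dd_coeffMap_mem_A a.2⟩

/-- **the base change datum between the `Q̄`-context and the `ℂ`-context** -/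
noncomputable def g1dd_baseChange :
    g1g_BaseChange (g1f_F M N) (g1i_ctxBar hM hMN) (g1i_ctxC hM hMN) where
  bcA := g1dd_bcA
  coe _ := rfl
  an a := by
    show g1i_an ℂ hM (g1dd_bcA a) = g1i_an Kbar hM a
    refine g1i_an_eq ℂ hM _ ?_
    rw [show algebraMap ℂ ℂ = RingHom.id ℂ from rfl, coeffMap_id]
    exact g1i_an_spec Kbar hM a

/-- **descent `ℂ → Q̄`** for the `Γ₁(M)` tower -/
theorem g1dd_descent {n : ℕ} (hn : n ≠ 0) (χ : ↥(g1f_G M N) →* ℂˣ)
    (h : ∃ f : g1i_F ℂ M N, gw_IsDiv ℂ n f ∧ g1g_HasChar (g1i_ctxC hM hMN) n f χ) :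
    ∃ f₀ : g1f_Fbar M N, gw_IsDiv Kbar n f₀ ∧ g1g_HasChar (g1i_ctxBar hM hMN) n f₀ χ := by
  haveI := g1q_finiteIndex_G M N hMN
  exact g1g_descent (g1dd_baseChange hM hMN) hn (g1dd_isSepGen ℂ hM hMN)
    (g1dd_ordVal_nontrivial ℂ) (g1dd_res Kbar hM hMN) (g1dg_complete ℂ hM hMN) χ h

/-- **the gateway for `X(±Γ₁(M) ∩ Γ₀(N))` over `Q̄`**, from surjectivity over `ℂ` -/
noncomputable def g1dd_picEquiv {n : ℕ} (hn : n ≠ 0)
    (hsurjℂ : ∀ χ ∈ g1g_X (g1f_G M N) n, ∃ f : g1i_F ℂ M N,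
      gw_IsDiv ℂ n f ∧ g1g_HasChar (g1i_ctxC hM hMN) n f χ) :
    Pic0.torsion Kbar (g1f_Fbar M N) n ≃+ Additive (g1g_X (g1f_G M N) n) :=
  g1g_picEquiv (g1dd_isSepGen Kbar hM hMN) hn (g1dg_complete Kbar hM hMN)
    (g1dg_rational Kbar hM hMN) fun χ hχ => g1dd_descent hM hMN hn χ (hsurjℂ χ hχ)

/-- the characterising property: if `n · D = div f` and `f` has the character `χ`, the class of
`D` is sent to `χ` -/
theorem g1dd_picEquiv_mk {n : ℕ} (hn : n ≠ 0)
    (hsurjℂ : ∀ χ ∈ g1g_X (g1f_G M N) n, ∃ f : g1i_F ℂ M N,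
      gw_IsDiv ℂ n f ∧ g1g_HasChar (g1i_ctxC hM hMN) n f χ)
    (D : Divisor.degZero (K := Kbar) (F := g1f_Fbar M N)) (f : gp_S Kbar (g1f_Fbar M N) n)
    (h : ∀ P : Place Kbar (g1f_Fbar M N), (n : ℤ) * (D : Divisor Kbar (g1f_Fbar M N)) P =
      P.ord ((f : (g1f_Fbar M N)ˣ) : g1f_Fbar M N))
    (hD : Pic0.mk D ∈ Pic0.torsion Kbar (g1f_Fbar M N) n) {χ : ↥(g1f_G M N) →* ℂˣ}
    (hχ : g1g_HasChar (g1i_ctxBar hM hMN) n (((f : (g1f_Fbar M N)ˣ) : g1f_Fbar M N)) χ) :
    ((Additive.toMul (g1dd_picEquiv hM hMN hn hsurjℂ ⟨Pic0.mk D, hD⟩) :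
      g1g_X (g1f_G M N) n) : ↥(g1f_G M N) →* ℂˣ) = χ :=
  g1g_picEquiv_mk (g1dd_isSepGen Kbar hM hMN) hn (g1dg_complete Kbar hM hMN)
    (g1dg_rational Kbar hM hMN) _ D f h hD hχ

/-- level compatibility: the character of `m • y` at level `n` is the `m`-th power of the character
of `y` at level `n * m` -/
theorem g1dd_picEquiv_level {n m : ℕ} (hn : n ≠ 0) (hm : m ≠ 0)
    (hsurjℂ : ∀ χ ∈ g1g_X (g1f_G M N) n, ∃ f : g1i_F ℂ M N,
      gw_IsDiv ℂ n f ∧ g1g_HasChar (g1i_ctxC hM hMN) n f χ)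
    (hsurjℂ' : ∀ χ ∈ g1g_X (g1f_G M N) (n * m), ∃ f : g1i_F ℂ M N,
      gw_IsDiv ℂ (n * m) f ∧ g1g_HasChar (g1i_ctxC hM hMN) (n * m) f χ)
    (y : Pic0.torsion Kbar (g1f_Fbar M N) (n * m)) :
    ((Additive.toMul (g1dd_picEquiv hM hMN hn hsurjℂ
        ⟨m • (y : Pic0 Kbar (g1f_Fbar M N)), g1g_nsmul_mem_torsion y⟩) :
          g1g_X (g1f_G M N) n) : ↥(g1f_G M N) →* ℂˣ) =
      ((Additive.toMul (g1dd_picEquiv hM hMN (mul_ne_zero hn hm) hsurjℂ' y) :
          g1g_X (g1f_G M N) (n * m)) : ↥(g1f_G M N) →* ℂˣ) ^ m :=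
  g1g_picEquiv_level (g1dd_isSepGen Kbar hM hMN) hn hm (g1dg_complete Kbar hM hMN)
    (g1dg_rational Kbar hM hMN) _ _ y

end bc

end Fermat.Agent.DS
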