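/-
DS-T / cell [G1], instance leaf: SURJECTIVITY OF THE CHARACTER MAP FOR `±Γ₁(M) ∩ Γ₀(N)` AND THE
UNCONDITIONAL GATEWAY (prefixes `g1ds_`, `g1x_`).

* `g1ds_weakComplete`  : `g1e_WeakComplete (g1i_ctxC hM hMN)` — every weakly holomorphic modular
                         function for `±Γ₁(M) ∩ Γ₀(N)` is a quotient of two elements of
                         `ℂ[j(q^d), w_a(q^e)]` (from `g1dg_exists_quot`);
* `g1ds_surjC`         : every unramified character of exponent `n` is the character of an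
                         `n`-divisible function of `g1i_F ℂ M N` (helper17's generic `g1e_surj`);
* **`g1x_picEquiv`**   : `Pic⁰(X(±Γ₁(M) ∩ Γ₀(N))_{Q̄})[n] ≃+ Additive (g1g_X (g1f_G M N) n)`,
                         UNCONDITIONAL; `g1x_picEquiv_mk`, `g1x_picEquiv_level`.
-/
import Mathlib
import Fermat.Agent.DS.Gam1.InstDescent
import Fermat.Agent.DS.Gam1.Gen.TwistedSurj

set_option autoImplicit false
set_option linter.style.haveILetI false
set_option synthInstance.maxHeartbeats 200000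
set_option maxHeartbeats 400000

open UpperHalfPlane CongruenceSubgroup
open scoped MatrixGroups IntermediateField Manifold

namespace Fermat.Agent.DS

open Fermat.Agent.S24 Fermat.Agent.S24.Br Fermat.Agent.JT3 ModularCurve AlgebraicCurve

local notation "Kbar" => AlgebraicClosure ℚ

variable {M N : ℕ} [NeZero N] (hM : M ≠ 1) (hMN : M ∣ N)

/-- **completeness over `ℂ`** in the form consumed by `g1e_surj` -/
theorem g1ds_weakComplete : g1e_WeakComplete (g1i_ctxC hM hMN) := by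
  intro h hh
  obtain ⟨H, u, v, -, -, hv, -, huv⟩ := g1dg_exists_quot hM hMN hh
  refine ⟨u, v, hv, ?_⟩
  ext z
  exact huv z

/-- **surjectivity of the character map over `ℂ`** for `±Γ₁(M) ∩ Γ₀(N)` -/
theorem g1ds_surjC {n : ℕ} (hn : n ≠ 0) :
    ∀ χ ∈ g1g_X (g1f_G M N) n, ∃ f : g1i_F ℂ M N,
      gw_IsDiv ℂ n f ∧ g1g_HasChar (g1i_ctxC hM hMN) n f χ :=
  g1e_surj (C := g1i_ctxC hM hMN) (g1dg_classified ℂ hM hMN) (g1ds_weakComplete hM hMN) hn

/-- **THE GATEWAY FOR `X(±Γ₁(M) ∩ Γ₀(N))` OVER `Q̄`** (unconditional):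
`Pic⁰[n] ≃+` the unramified characters of exponent `n` of `±Γ₁(M) ∩ Γ₀(N)` -/
noncomputable def g1x_picEquiv {n : ℕ} (hn : n ≠ 0) :
    Pic0.torsion Kbar (g1f_Fbar M N) n ≃+ Additive (g1g_X (g1f_G M N) n) :=
  g1dd_picEquiv hM hMN hn (g1ds_surjC hM hMN hn)

/-- the characterising property: if `n · D = div f` and `f` has the character `χ`, the class of
`D` is sent to `χ` -/
theorem g1x_picEquiv_mk {n : ℕ} (hn : n ≠ 0)
    (D : Divisor.degZero (K := Kbar) (F := g1f_Fbar M N)) (f : gp_S Kbar (g1f_Fbar M N) n)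
    (h : ∀ P : Place Kbar (g1f_Fbar M N), (n : ℤ) * (D : Divisor Kbar (g1f_Fbar M N)) P =
      P.ord ((f : (g1f_Fbar M N)ˣ) : g1f_Fbar M N))
    (hD : Pic0.mk D ∈ Pic0.torsion Kbar (g1f_Fbar M N) n) {χ : ↥(g1f_G M N) →* ℂˣ}
    (hχ : g1g_HasChar (g1i_ctxBar hM hMN) n (((f : (g1f_Fbar M N)ˣ) : g1f_Fbar M N)) χ) :
    ((Additive.toMul (g1x_picEquiv hM hMN hn ⟨Pic0.mk D, hD⟩) :
      g1g_X (g1f_G M N) n) : ↥(g1f_G M N) →* ℂˣ) = χ :=
  g1dd_picEquiv_mk hM hMN hn (g1ds_surjC hM hMN hn) D f h hD hχ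

/-- level compatibility: the character of `m • y` at level `n` is the `m`-th power of the character
of `y` at level `n * m` -/
theorem g1x_picEquiv_level {n m : ℕ} (hn : n ≠ 0) (hm : m ≠ 0)
    (y : Pic0.torsion Kbar (g1f_Fbar M N) (n * m)) :
    ((Additive.toMul (g1x_picEquiv hM hMN hn
        ⟨m • (y : Pic0 Kbar (g1f_Fbar M N)), g1g_nsmul_mem_torsion y⟩) :
          g1g_X (g1f_G M N) n) : ↥(g1f_G M N) →* ℂˣ) =
      ((Additive.toMul (g1x_picEquiv hM hMN (mul_ne_zero hn hm) y) :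
          g1g_X (g1f_G M N) (n * m)) : ↥(g1f_G M N) →* ℂˣ) ^ m :=
  g1dd_picEquiv_level hM hMN hn hm (g1ds_surjC hM hMN hn)
    (g1ds_surjC hM hMN (mul_ne_zero hn hm)) y

end Fermat.Agent.DS
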