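/-
DS-T / cell [G1], leaf [G1-e]: HECKE AND DIAMOND EQUIVARIANCE OF THE GATEWAY FOR `X₁(M)` — the
instance of helper5's generic `g1c_picEquiv_hecke` / `g1c_picEquiv_diamond`.  Prefix `g1x_`.

`5 ≤ M`, `p ∤ M` prime, `n ≠ 0`, `V = Pic⁰(X₁(M)_{Q̄})[n] = Pic0.torsion Q̄ (g1f_Fbar M M) n`.

* `g1x_tower M p : dsh_Tower p` (`F₀ = g1f_F M M`, `F₁ = g1f_F M (M p)`; the body of helper24's
  `dsh_sw_tower`), `g1x_heckeInputs`, `g1x_riemann`;
* **`g1x_picEquiv_hecke`** : `res (e_n (T_p y)) = g1t_TS hpM (g1n_s_adm hpM) (res (e_n y))` for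
  `T_p = dsh_hecke Q̄ (g1x_tower M p)`, with the swap embedding `(w, hwα, hwβ)` (helper24's
  `dsh_sw_swap`) as the only hypothesis; `g1x_picEquiv_hecke'` : `… = g1t_T (g1t_diam p⁻¹ …)`;
* **`g1x_picEquiv_diamond`** : `res (e_n (⟨d⟩ • y)) = g1t_diam d⁻¹ (res (e_n y))`, unconditional;
* the additive form **`g1x_equiv hM5 n : V ≃+ ↥(g1c_ParTriv M (ZMod n))`**
  (`Pic⁰(X₁(M))[n] ≃ Hom_par(Γ₁(M), ℤ/n)`), `g1x_ofAdd_equiv`, and the equivariance
  **`g1x_equiv_hecke`**, **`g1x_equiv_diamond`** in terms of `g1t_Tadd`, `g1t_diamAdd`.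
-/
import Mathlib
import Fermat.Agent.DS.Gam1.InstSurj
import Fermat.Agent.DS.Gam1.Gen.HeckeEquiv
import Fermat.Agent.DS.Gam1.HeckeNormAn
import Fermat.Agent.DS.Hecke.InputsGen
import Fermat.Agent.JT3.Gateway.HeckeEquiv

set_option autoImplicit false
set_option linter.unusedSectionVars false
set_option linter.style.haveILetI false
set_option synthInstance.maxHeartbeats 200000
set_option maxHeartbeats 400000

noncomputable section

open UpperHalfPlane hiding I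
open CongruenceSubgroup ModularCurve
open scoped MatrixGroups

namespace Fermat.Agent.DS

open Fermat.Agent.S24 Fermat.Agent.S24.Br Fermat.Agent.JT3 AlgebraicCurve

/-- the tower `F1_M ⊂ F1_{M,p}` of `X₁(M)` at `p` -/
abbrev g1x_tower (M p : ℕ) [NeZero p] : dsh_Tower p where
  F₀ := g1f_F M M
  F₁ := g1f_F M (M * p)
  le := g1f_FC_mono ℚ M (dvd_mul_right M p)
  qexp := fun _ hy => g1f_qExpand_mem ℚ M M hy

section inputs

variable {M p : ℕ} [NeZero M] [NeZero p]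

/-- the correspondence calculus applies to the tower -/
theorem g1x_heckeInputs (hM : M ≠ 1) : dsh_HeckeInputs Kbar (g1x_tower M p) := by
  haveI : NeZero (M * p) := ⟨mul_ne_zero (NeZero.ne M) (NeZero.ne p)⟩
  haveI h0 : FiniteDimensional ↥(IntermediateField.adjoin Kbar {g1dg_jF Kbar M M})
      ↥(laurentBaseChange Kbar (g1x_tower M p).F₀) := g1dg_finite Kbar hM (dvd_refl M)
  haveI h1 : FiniteDimensional ↥(IntermediateField.adjoin Kbar {g1dg_jF Kbar M (M * p)})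
      ↥(laurentBaseChange Kbar (g1x_tower M p).F₁) := g1dg_finite Kbar hM (dvd_mul_right M p)
  exact dsh_inp_heckeInputs Kbar (g1x_tower M p) (x := g1dg_jF Kbar M M)
    (g1dd_jF_transcendental Kbar) (g1dg_jF Kbar M (M * p))

/-- the Riemann package of `X₁(M)` -/
theorem g1x_riemann (hM : M ≠ 1) : est_Riemann Kbar (g1f_Fbar M M) := by
  haveI h0 : FiniteDimensional ↥(IntermediateField.adjoin Kbar {g1dg_jF Kbar M M})
      ↥(g1f_Fbar M M) := g1dg_finite Kbar hM (dvd_refl M)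
  exact dsh_inp_riemann (x := g1dg_jF Kbar M M) (g1dd_jF_transcendental Kbar)

end inputs

section equivariance

variable {M p : ℕ} [NeZero M] [Fact p.Prime]

/-- the upper left entry of `g1t_sigma u⁻¹` is `u` modulo `M` -/
theorem g1x_sigma_entry (u : (ZMod M)ˣ) :
    ((((g1t_sigma u⁻¹ : Gamma0 M) : SL(2, ℤ)) 0 0 : ℤ) : ZMod M) = (u : ZMod M) := by
  set σ : Gamma0 M := g1t_sigma u⁻¹ with hσ
  have h1 := g1n_entry_mul (σ : Gamma0 M).2
  have h2 : ((((σ : Gamma0 M) : SL(2, ℤ)) 1 1 : ℤ) : ZMod M) = ((u⁻¹ : (ZMod M)ˣ) : ZMod M) := by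
    rw [← g1t_chi_coe, hσ, g1t_chi_sigma]
  rw [h2] at h1
  calc ((((σ : Gamma0 M) : SL(2, ℤ)) 0 0 : ℤ) : ZMod M)
      = ((((σ : Gamma0 M) : SL(2, ℤ)) 0 0 : ℤ) : ZMod M) *
          (((u⁻¹ : (ZMod M)ˣ) : ZMod M) * (u : ZMod M)) := by
        rw [← Units.val_mul, inv_mul_cancel, Units.val_one, mul_one]
    _ = (u : ZMod M) := by rw [← mul_assoc, h1, one_mul]

local notation "Γ1" => g1f_G M M
local notation "αp" => dsh_alpha Kbar (g1x_tower M p)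
local notation "βp" => dsh_beta Kbar (g1x_tower M p)

/-- the `q`-expansion map of the upper field -/
def g1x_e' (M p : ℕ) [NeZero p] :
    ↥(laurentBaseChange Kbar (g1x_tower M p).F₁) →+* LaurentSeries Kbar :=
  ((laurentBaseChange Kbar (g1x_tower M p).F₁).val :
    ↥(laurentBaseChange Kbar (g1x_tower M p).F₁) →+* LaurentSeries Kbar)

theorem g1x_e'_apply (z : ↥(laurentBaseChange Kbar (g1x_tower M p).F₁)) :
    g1x_e' M p z = (z : LaurentSeries Kbar) := rfl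

theorem g1x_e'_alpha (x : g1f_Fbar M M) : g1x_e' M p (αp x) = (x : LaurentSeries Kbar) := by
  rw [g1x_e'_apply, dsh_coe_alpha]

theorem g1x_e'_beta (x : g1f_Fbar M M) :
    g1x_e' M p (βp x) = qExpand Kbar p (x : LaurentSeries Kbar) := by
  rw [g1x_e'_apply, dsh_coe_beta]

/-- the degree of `α` -/
theorem g1x_finrankAlong (hM : M ≠ 1) (hpM : ¬ p ∣ M) : finrankAlong Kbar αp = p + 1 :=
  g1dg_finrankAlong Kbar hM Fact.out hpM (dsh_laurentBaseChange_mono Kbar (g1x_tower M p).le)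

/-- **the analytic norm formula** in the context `g1i_ctxBar` -/
theorem g1x_hnorm (hM : M ≠ 1) (hpM : ¬ p ∣ M)
    (w : ↥(laurentBaseChange Kbar (g1x_tower M p).F₁) →+* LaurentSeries ℂ)
    (hwα : ∀ x : g1f_Fbar M M, w (αp x) =
      coeffMap (br_iota : Kbar →+* ℂ) (qExpand Kbar p (x : LaurentSeries Kbar)))
    (hwβ : ∀ y : g1f_Fbar M M, w (βp y) =
      coeffMap (br_iota : Kbar →+* ℂ)
        ((g1dm_F Kbar hM (dvd_refl M) (g1t_pU hpM) y : g1i_F Kbar M M) : LaurentSeries Kbar))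
    (a c₁ a₁ : g1i_A Kbar M M)
    (h : g1n_Nm αp βp (algebraMap (g1i_A Kbar M M) (g1i_F Kbar M M) a) *
        algebraMap (g1i_A Kbar M M) (g1i_F Kbar M M) c₁ =
        algebraMap (g1i_A Kbar M M) (g1i_F Kbar M M) a₁) (z : ℍ) :
    (g1i_ctxBar hM (dvd_refl M)).an a₁ z =
      (∏ x : OnePoint (ZMod p), (g1i_ctxBar hM (dvd_refl M)).an a
        (g1t_repS (g1n_s hpM) x • z)) * (g1i_ctxBar hM (dvd_refl M)).an c₁ z :=
  g1n_norm_an hM hpM (g1x_e' M p) αp βp g1x_e'_alpha g1x_e'_beta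
    (g1x_finrankAlong hM hpM) w hwα hwβ a c₁ a₁ h z

/-- `T_p` on the class of a divisor `D` with `n D = div f` -/
theorem g1x_hT (hM : M ≠ 1) {n : ℕ}
    (D : Divisor.degZero (K := Kbar) (F := g1f_Fbar M M)) (f : g1f_Fbar M M) (hf0 : f ≠ 0)
    (hDf : ∀ P : Place Kbar (g1f_Fbar M M), (n : ℤ) * (D : Divisor Kbar (g1f_Fbar M M)) P =
      P.ord f) :
    ∃ D' : Divisor.degZero (K := Kbar) (F := g1f_Fbar M M),
      dsh_hecke Kbar (g1x_tower M p) (Pic0.mk D) = Pic0.mk D' ∧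
      ∀ P : Place Kbar (g1f_Fbar M M), (n : ℤ) * (D' : Divisor Kbar (g1f_Fbar M M)) P =
        P.ord (g1n_Nm αp βp f) := by
  haveI : NeZero p := ⟨(Fact.out : p.Prime).ne_zero⟩
  obtain ⟨hα, hβ, hP, hfin, hFI, hN⟩ := g1x_heckeInputs (M := M) (p := p) hM
  haveI := hP
  rw [dsh_hecke_eq hα hβ hFI hfin hN]
  refine ⟨Pic0.degZeroCorrespondence βp αp hβ hα hFI D, rfl, fun P => ?_⟩
  have hnD : ∀ v : Place Kbar (g1f_Fbar M M),
      (((n : ℤ) • (D : Divisor Kbar (g1f_Fbar M M))) : Divisor Kbar (g1f_Fbar M M)) v =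
        v.ord f := by
    intro v
    rw [Finsupp.smul_apply, smul_eq_mul, hDf]
  have h2 := gwh_correspondence_ord βp αp hβ hα hfin hN f hf0 _ hnD P
  rw [map_zsmul, Finsupp.smul_apply, smul_eq_mul] at h2
  exact h2

/-- the gateway is the generic equivalence of the context `g1i_ctxBar` -/
theorem g1x_picEquiv_eq {N : ℕ} [NeZero N] (hM : M ≠ 1) (hMN : M ∣ N) {n : ℕ} (hn : n ≠ 0) :
    g1x_picEquiv hM hMN hn =
      g1g_picEquiv (C := g1i_ctxBar hM hMN) (g1dd_isSepGen Kbar hM hMN) hn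
        (g1dg_complete Kbar hM hMN) (g1dg_rational Kbar hM hMN)
        (fun χ hχ => g1dd_descent hM hMN hn χ (g1ds_surjC hM hMN hn χ hχ)) := rfl

/-- **Hecke equivariance of the gateway of `X₁(M)`** (multiplicative form, family `g1n_s`) -/
theorem g1x_picEquiv_hecke (hM5 : 5 ≤ M) (hpM : ¬ p ∣ M) {n : ℕ} (hn : n ≠ 0)
    (hM : M ≠ 1)
    (w : ↥(laurentBaseChange Kbar (g1x_tower M p).F₁) →+* LaurentSeries ℂ)
    (hwα : ∀ x : g1f_Fbar M M, w (αp x) =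
      coeffMap (br_iota : Kbar →+* ℂ) (qExpand Kbar p (x : LaurentSeries Kbar)))
    (hwβ : ∀ y : g1f_Fbar M M, w (βp y) =
      coeffMap (br_iota : Kbar →+* ℂ)
        ((g1dm_F Kbar hM (dvd_refl M) (g1t_pU hpM) y : g1i_F Kbar M M) : LaurentSeries Kbar))
    (y : Pic0.torsion Kbar (g1f_Fbar M M) n) :
    g1c_res (g1c_Gamma1_le_G M) ((Additive.toMul (g1x_picEquiv hM (dvd_refl M) hn
        ⟨dsh_hecke Kbar (g1x_tower M p) (y : Pic0 Kbar (g1f_Fbar M M)),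
          g1c_map_mem_torsion _ y⟩) : g1g_X Γ1 n) : ↥Γ1 →* ℂˣ) =
      g1t_TS hpM (g1n_s_adm hpM) (g1c_res (g1c_Gamma1_le_G M)
        ((Additive.toMul (g1x_picEquiv hM (dvd_refl M) hn y) : g1g_X Γ1 n) : ↥Γ1 →* ℂˣ)) := by
  rw [g1x_picEquiv_eq]
  exact g1c_picEquiv_hecke (C := g1i_ctxBar hM (dvd_refl M))
    (g1dd_isSepGen Kbar hM (dvd_refl M)) hn (g1dg_complete Kbar hM (dvd_refl M))
    (g1dg_rational Kbar hM (dvd_refl M))
    (fun χ hχ => g1dd_descent hM (dvd_refl M) hn χ (g1ds_surjC hM (dvd_refl M) hn χ hχ))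
    (by omega) (g1c_Gamma1_le_G M) (g1c_G_le_Gpm M) hpM (g1n_s_adm hpM) (g1n_Nm αp βp)
    (g1x_hnorm hM hpM w hwα hwβ) (dsh_hecke Kbar (g1x_tower M p))
    (fun D f hf0 hDf => g1x_hT hM D f hf0 hDf) y

/-- the same in terms of the standard operators: `T_p` of the function field is `T_p ∘ ⟨p⟩⁻¹` on
characters -/
theorem g1x_picEquiv_hecke' (hM5 : 5 ≤ M) (hpM : ¬ p ∣ M) {n : ℕ} (hn : n ≠ 0)
    (hM : M ≠ 1)
    (w : ↥(laurentBaseChange Kbar (g1x_tower M p).F₁) →+* LaurentSeries ℂ)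
    (hwα : ∀ x : g1f_Fbar M M, w (αp x) =
      coeffMap (br_iota : Kbar →+* ℂ) (qExpand Kbar p (x : LaurentSeries Kbar)))
    (hwβ : ∀ y : g1f_Fbar M M, w (βp y) =
      coeffMap (br_iota : Kbar →+* ℂ)
        ((g1dm_F Kbar hM (dvd_refl M) (g1t_pU hpM) y : g1i_F Kbar M M) : LaurentSeries Kbar))
    (y : Pic0.torsion Kbar (g1f_Fbar M M) n) :
    g1c_res (g1c_Gamma1_le_G M) ((Additive.toMul (g1x_picEquiv hM (dvd_refl M) hn
        ⟨dsh_hecke Kbar (g1x_tower M p) (y : Pic0 Kbar (g1f_Fbar M M)),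
          g1c_map_mem_torsion _ y⟩) : g1g_X Γ1 n) : ↥Γ1 →* ℂˣ) =
      g1t_T hpM (g1t_diam (g1t_pU hpM)⁻¹ (g1c_res (g1c_Gamma1_le_G M)
        ((Additive.toMul (g1x_picEquiv hM (dvd_refl M) hn y) : g1g_X Γ1 n) : ↥Γ1 →* ℂˣ))) := by
  rw [g1x_picEquiv_hecke hM5 hpM hn hM w hwα hwβ y, g1t_TS_eq_T, one_mul]

/-- **diamond equivariance of the gateway of `X₁(M)`**: the function-field diamond `⟨d⟩`
(`w_a ↦ w_{a d}`) is `⟨d⟩⁻¹` on characters -/
theorem g1x_picEquiv_diamond (hM5 : 5 ≤ M) {n : ℕ} (hn : n ≠ 0) (hM : M ≠ 1) (d : (ZMod M)ˣ)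
    (y : Pic0.torsion Kbar (g1f_Fbar M M) n) :
    g1c_res (g1c_Gamma1_le_G M) ((Additive.toMul (g1x_picEquiv hM (dvd_refl M) hn
        (SemilinearAut.ofAlgAut (g1dm_F Kbar hM (dvd_refl M) d) • y)) : g1g_X Γ1 n) :
          ↥Γ1 →* ℂˣ) =
      g1t_diam d⁻¹ (g1c_res (g1c_Gamma1_le_G M)
        ((Additive.toMul (g1x_picEquiv hM (dvd_refl M) hn y) : g1g_X Γ1 n) : ↥Γ1 →* ℂˣ)) := by
  rw [g1x_picEquiv_eq]
  exact g1c_picEquiv_diamond (C := g1i_ctxBar hM (dvd_refl M))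
    (g1dd_isSepGen Kbar hM (dvd_refl M)) hn (g1dg_complete Kbar hM (dvd_refl M))
    (g1dg_rational Kbar hM (dvd_refl M))
    (fun χ hχ => g1dd_descent hM (dvd_refl M) hn χ (g1ds_surjC hM (dvd_refl M) hn χ hχ))
    (by omega) (g1c_Gamma1_le_G M) (g1c_G_le_Gpm M) (g1dm_F Kbar hM (dvd_refl M) d)
    (g1t_sigma d⁻¹)
    (fun a => ⟨g1dm_A Kbar hM (dvd_refl M) d a, (g1dm_F_algebraMap Kbar hM (dvd_refl M) d a).symm,
      fun z => g1dm_an Kbar hM (dvd_refl M) d (g1t_sigma d⁻¹ : Gamma0 M).2 (g1x_sigma_entry d) a z⟩)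
    y

/-! ### the additive form of the gateway -/

section additive

variable (M) in
/-- **the gateway of `X₁(M)` in additive form**:
`Pic⁰(X₁(M)_{Q̄})[n] ≃ Hom_par(Γ₁(M), ℤ/n)` -/
def g1x_equiv (hM5 : 5 ≤ M) (n : ℕ) [NeZero n] :
    Pic0.torsion Kbar (g1f_Fbar M M) n ≃+ ↥(g1c_ParTriv M (ZMod n)) :=
  ((g1x_picEquiv (show M ≠ 1 by omega) (dvd_refl M) (NeZero.ne n)).trans
    (MulEquiv.toAdditive (g1c_resEquiv hM5 (g1c_Gamma1_le_G M) (g1c_G_le_Gpm M) n))).trans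
    (g1c_addEquiv M n).symm

/-- the characterisation of `g1x_equiv`: the character `ζ^{c}` of the class `c = g1x_equiv y` is
the restriction to `Γ₁(M)` of the character of `y` -/
theorem g1x_ofAdd_equiv (hM5 : 5 ≤ M) (n : ℕ) [NeZero n]
    (y : Pic0.torsion Kbar (g1f_Fbar M M) n) :
    g1c_ofAdd ((g1x_equiv M hM5 n y : ↥(g1c_ParTriv M (ZMod n))) :
        Additive ↥(Gamma1 M) →+ ZMod n) =
      g1c_res (g1c_Gamma1_le_G M) ((Additive.toMul (g1x_picEquiv (show M ≠ 1 by omega)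
        (dvd_refl M) (NeZero.ne n) y) : g1g_X Γ1 n) : ↥Γ1 →* ℂˣ) := by
  rw [← g1c_addEquiv_coe, g1x_equiv, AddEquiv.trans_apply, AddEquiv.apply_symm_apply]
  rfl

/-- **Hecke equivariance, additive form**:
`g1x_equiv (T_p y) = T_p (⟨p⟩⁻¹ (g1x_equiv y))` -/
theorem g1x_equiv_hecke (hM5 : 5 ≤ M) (hpM : ¬ p ∣ M) (n : ℕ) [NeZero n]
    (w : ↥(laurentBaseChange Kbar (g1x_tower M p).F₁) →+* LaurentSeries ℂ)
    (hwα : ∀ x : g1f_Fbar M M, w (αp x) =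
      coeffMap (br_iota : Kbar →+* ℂ) (qExpand Kbar p (x : LaurentSeries Kbar)))
    (hwβ : ∀ y : g1f_Fbar M M, w (βp y) =
      coeffMap (br_iota : Kbar →+* ℂ)
        ((g1dm_F Kbar (show M ≠ 1 by omega) (dvd_refl M) (g1t_pU hpM) y : g1i_F Kbar M M) :
          LaurentSeries Kbar))
    (y : Pic0.torsion Kbar (g1f_Fbar M M) n) :
    ((g1x_equiv M hM5 n ⟨dsh_hecke Kbar (g1x_tower M p) (y : Pic0 Kbar (g1f_Fbar M M)),
        g1c_map_mem_torsion _ y⟩ : ↥(g1c_ParTriv M (ZMod n))) :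
          Additive ↥(Gamma1 M) →+ ZMod n) =
      g1t_Tadd hpM (g1t_diamAdd (g1t_pU hpM)⁻¹
        ((g1x_equiv M hM5 n y : ↥(g1c_ParTriv M (ZMod n))) :
          Additive ↥(Gamma1 M) →+ ZMod n)) := by
  apply g1c_ofAdd_injective
  rw [g1x_ofAdd_equiv, g1x_picEquiv_hecke' hM5 hpM (NeZero.ne n) _ w hwα hwβ y,
    ← g1x_ofAdd_equiv hM5 n y, g1c_diam_ofAdd, g1c_T_ofAdd]

/-- **diamond equivariance, additive form**: `g1x_equiv (⟨d⟩ • y) = ⟨d⟩⁻¹ (g1x_equiv y)` -/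
theorem g1x_equiv_diamond (hM5 : 5 ≤ M) (n : ℕ) [NeZero n] (d : (ZMod M)ˣ)
    (y : Pic0.torsion Kbar (g1f_Fbar M M) n) :
    ((g1x_equiv M hM5 n (SemilinearAut.ofAlgAut
        (g1dm_F Kbar (show M ≠ 1 by omega) (dvd_refl M) d) • y) : ↥(g1c_ParTriv M (ZMod n))) :
          Additive ↥(Gamma1 M) →+ ZMod n) =
      g1t_diamAdd d⁻¹ ((g1x_equiv M hM5 n y : ↥(g1c_ParTriv M (ZMod n))) :
          Additive ↥(Gamma1 M) →+ ZMod n) := by
  apply g1c_ofAdd_injective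
  rw [g1x_ofAdd_equiv, g1x_picEquiv_diamond hM5 (NeZero.ne n) _ d y,
    ← g1x_ofAdd_equiv hM5 n y, g1c_diam_ofAdd]

end additive

end equivariance

end Fermat.Agent.DS

end
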