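/-
DS (Deligne–Serre) / DS-T / cell [G1-e] (helper17): THE HECKE-EQUIVARIANT GATEWAY `dst_Gate`,
UNCONDITIONAL.  The swap embedding hypotheses `(w, hwα, hwβ)` of `g1x_equiv_hecke` are discharged
with helper24's `dsh_sw_swap_towerOne`; the result is stated VERBATIM in helper25's vocabulary
(`dst_V`, `dst_Tp`, `dst_Dd`, `dst_eig_T`, `dst_eig_D`).  Prefix `g1x_`.

* `g1x_tower_eq` : `g1x_tower M p = dsh_towerOne M p` (`rfl`);
* `g1x_equiv_hecke_final` : `g1x_equiv (T_p y) = T_p (⟨p⟩⁻¹ (g1x_equiv y))`, unconditional;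
* **`g1x_gate`** : `dst_Gate M ℓ hM` for `5 ≤ M`.
-/
import Mathlib
import Fermat.Agent.DS.Gam1.GatewayHecke
import Fermat.Agent.DS.Hecke.SwapG1Diamond
import Fermat.Agent.DS.Tower.Main

set_option autoImplicit false
set_option linter.unusedSectionVars false
set_option linter.style.haveILetI false
set_option synthInstance.maxHeartbeats 200000
set_option maxHeartbeats 400000

noncomputable section

namespace Fermat.Agent.DS

open CongruenceSubgroup ModularCurve
open Fermat.Agent.S24 Fermat.Agent.S24.Br Fermat.Agent.JT3 AlgebraicCurve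

local notation "Kbar" => AlgebraicClosure ℚ

/-- the tower of `GatewayHecke` is helper1's `dsh_towerOne` -/
theorem g1x_tower_eq (M p : ℕ) [NeZero p] : g1x_tower M p = dsh_towerOne M p := rfl

variable {M p : ℕ} [NeZero M] [Fact p.Prime]

/-- **Hecke equivariance of the gateway, additive form, unconditional** -/
theorem g1x_equiv_hecke_final (hM5 : 5 ≤ M) (hpM : ¬ p ∣ M) (n : ℕ) [NeZero n]
    (y : Pic0.torsion Kbar (g1f_Fbar M M) n) :
    haveI : NeZero p := ⟨(Fact.out : p.Prime).ne_zero⟩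
    ((g1x_equiv M hM5 n ⟨dsh_hecke Kbar (g1x_tower M p) (y : Pic0 Kbar (g1f_Fbar M M)),
        g1c_map_mem_torsion _ y⟩ : ↥(g1c_ParTriv M (ZMod n))) :
          Additive ↥(Gamma1 M) →+ ZMod n) =
      g1t_Tadd hpM (g1t_diamAdd (g1t_pU hpM)⁻¹
        ((g1x_equiv M hM5 n y : ↥(g1c_ParTriv M (ZMod n))) :
          Additive ↥(Gamma1 M) →+ ZMod n)) := by
  haveI : NeZero p := ⟨(Fact.out : p.Prime).ne_zero⟩
  obtain ⟨w, hwα, hwβ⟩ := dsh_sw_swap_towerOne (M := M) (p := p) (show M ≠ 1 by omega) hpM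
  exact g1x_equiv_hecke hM5 hpM n w hwα hwβ y

end Fermat.Agent.DS

namespace Fermat.Agent.DS

open CongruenceSubgroup ModularCurve
open Fermat.Agent.S24 Fermat.Agent.S24.Br Fermat.Agent.JT3 AlgebraicCurve

/-- **the Hecke-equivariant gateway of `X₁(M)`, `5 ≤ M`** (`[G1-e]`) -/
theorem g1x_gate {M : ℕ} [NeZero M] (hM : M ≠ 1) (hM5 : 5 ≤ M) (ℓ : ℕ) [NeZero ℓ] :
    dst_Gate M ℓ hM := by
  refine ⟨g1x_equiv M hM5 ℓ, ?_, ?_⟩
  · intro p hp hpM v
    apply Subtype.ext
    rw [dst_eig_T_coe, dst_eig_D_coe]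
    exact g1x_equiv_hecke_final hM5 hpM ℓ v
  · intro d v
    apply Subtype.ext
    rw [dst_eig_D_coe]
    exact g1x_equiv_diamond hM5 ℓ d v

end Fermat.Agent.DS

end
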