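import Mathlib
import Fermat.Agent.DS.Gam1.Defs

/-!
# DS-T / [G1] leaf [I4](c): `[±Γ₁(M) : ±Γ₁(M) ∩ Γ₀(M p)] = p + 1` for a prime `p ∤ M`

`±Γ₁(M)` acts on `ℙ¹(𝔽_p) = OnePoint (ZMod p)` through reduction modulo `p`; the stabiliser of `∞`
is `±Γ₁(M) ∩ Γ₀(M p)` and the action is transitive (explicit elements `[[1 + k M, k], [M, 1]]`).
-/

set_option autoImplicit false

open CongruenceSubgroup Matrix OnePoint
open scoped MatrixGroups

namespace Fermat.Agent.DS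

/-- reduction modulo `p` of `SL(2, ℤ)` into `GL(2, 𝔽_p)` -/
noncomputable def g1ix_red (p : ℕ) : SL(2, ℤ) →* GL (Fin 2) (ZMod p) :=
  (Matrix.SpecialLinearGroup.toGL).comp
    (Matrix.SpecialLinearGroup.map (Int.castRingHom (ZMod p)))

theorem g1ix_red_apply (p : ℕ) (γ : SL(2, ℤ)) (i j : Fin 2) :
    (g1ix_red p γ : Matrix (Fin 2) (Fin 2) (ZMod p)) i j = ((γ i j : ℤ) : ZMod p) := by
  simp [g1ix_red]

/-- the element `[[1 + k M, k], [M, 1]]` of `Γ₁(M)` -/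
def g1ix_elt (M : ℕ) (k : ℤ) : SL(2, ℤ) :=
  ⟨!![1 + k * M, k; M, 1], by rw [Matrix.det_fin_two_of]; ring⟩

theorem g1ix_elt_mem (M : ℕ) (k : ℤ) : g1ix_elt M k ∈ g1f_Gpm M := by
  rw [g1f_mem_Gpm]
  refine ⟨?_, Or.inl ?_⟩
  · simp [g1ix_elt]
  · simp [g1ix_elt]

theorem g1ix_mem_G_mul_iff {M p : ℕ} (hp : p.Prime) (hpM : ¬ p ∣ M) {γ : SL(2, ℤ)}
    (hγ : γ ∈ g1f_Gpm M) : γ ∈ g1f_G M (M * p) ↔ ((γ 1 0 : ℤ) : ZMod p) = 0 := by
  rw [g1f_mem_G, Gamma0_mem]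
  have hM : ((γ 1 0 : ℤ) : ZMod M) = 0 := (g1f_mem_Gpm.1 hγ).1
  rw [ZMod.intCast_zmod_eq_zero_iff_dvd] at hM
  rw [ZMod.intCast_zmod_eq_zero_iff_dvd, ZMod.intCast_zmod_eq_zero_iff_dvd]
  constructor
  · rintro ⟨-, h⟩
    refine dvd_trans ?_ h
    push_cast
    exact dvd_mul_left _ _
  · intro h
    refine ⟨hγ, ?_⟩
    have hcop : IsCoprime (M : ℤ) (p : ℤ) := by
      rw [Int.isCoprime_iff_gcd_eq_one, Int.gcd_natCast_natCast]
      exact (Nat.Coprime.symm ((Nat.Prime.coprime_iff_not_dvd hp).2 hpM))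
    push_cast
    exact hcop.mul_dvd hM h

section Index

variable (M p : ℕ) [Fact p.Prime]

/-- the action of `±Γ₁(M)` on `ℙ¹(𝔽_p)` -/
@[reducible] noncomputable def g1ix_action : MulAction (g1f_Gpm M) (OnePoint (ZMod p)) :=
  MulAction.compHom (OnePoint (ZMod p)) ((g1ix_red p).comp (g1f_Gpm M).subtype)

attribute [local instance] g1ix_action

theorem g1ix_smul_def (g : g1f_Gpm M) (x : OnePoint (ZMod p)) :
    g • x = g1ix_red p (g : SL(2, ℤ)) • x := rfl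

theorem g1ix_smul_infty_iff (g : g1f_Gpm M) :
    g • (∞ : OnePoint (ZMod p)) = ∞ ↔ (((g : SL(2, ℤ)) 1 0 : ℤ) : ZMod p) = 0 := by
  rw [g1ix_smul_def, smul_infty_eq_self_iff, g1ix_red_apply]

theorem g1ix_exists_smul_infty (hpM : ¬ p ∣ M) (x : OnePoint (ZMod p)) :
    ∃ g : g1f_Gpm M, g • (∞ : OnePoint (ZMod p)) = x := by
  have hM0 : ((M : ℕ) : ZMod p) ≠ 0 := by
    rw [Ne, ZMod.natCast_eq_zero_iff]
    exact hpM
  cases x with
  | infty => exact ⟨1, one_smul _ _⟩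
  | coe t =>
    -- choose `k ≡ t - M⁻¹`
    set k : ℤ := ((t - ((M : ℕ) : ZMod p)⁻¹).val : ℤ) with hk
    have hkc : ((k : ℤ) : ZMod p) = t - ((M : ℕ) : ZMod p)⁻¹ := by
      rw [hk]
      simp
    refine ⟨⟨g1ix_elt M k, g1ix_elt_mem M k⟩, ?_⟩
    rw [g1ix_smul_def, smul_infty_eq_ite, g1ix_red_apply, g1ix_red_apply]
    have h10 : (((g1ix_elt M k) 1 0 : ℤ) : ZMod p) = ((M : ℕ) : ZMod p) := by
      simp [g1ix_elt]
    have h00 : (((g1ix_elt M k) 0 0 : ℤ) : ZMod p) = 1 + (k : ZMod p) * ((M : ℕ) : ZMod p) := by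
      simp [g1ix_elt]
    rw [h10, h00, if_neg hM0, hkc]
    congr 1
    field_simp
    ring

theorem g1ix_pretransitive (hpM : ¬ p ∣ M) :
    MulAction.IsPretransitive (g1f_Gpm M) (OnePoint (ZMod p)) := by
  refine ⟨fun x y => ?_⟩
  obtain ⟨g1, rfl⟩ := g1ix_exists_smul_infty M p hpM x
  obtain ⟨g2, rfl⟩ := g1ix_exists_smul_infty M p hpM y
  exact ⟨g2 * g1⁻¹, by rw [smul_smul, inv_mul_cancel_right]⟩

theorem g1ix_stabilizer (hpM : ¬ p ∣ M) :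
    MulAction.stabilizer (g1f_Gpm M) (∞ : OnePoint (ZMod p)) =
      (g1f_G M (M * p)).subgroupOf (g1f_Gpm M) := by
  ext g
  rw [MulAction.mem_stabilizer_iff, g1ix_smul_infty_iff, Subgroup.mem_subgroupOf,
    g1ix_mem_G_mul_iff (Fact.out : p.Prime) hpM g.2]

theorem g1ix_card_onePoint : Nat.card (OnePoint (ZMod p)) = p + 1 := by
  have : Nat.card (OnePoint (ZMod p)) = Nat.card (Option (ZMod p)) := rfl
  rw [this, Nat.card_eq_fintype_card, Fintype.card_option, ZMod.card]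

/-- `[±Γ₁(M) : ±Γ₁(M) ∩ Γ₀(M p)] = p + 1`. -/
theorem g1ix_index_Gpm (hpM : ¬ p ∣ M) :
    ((g1f_G M (M * p)).subgroupOf (g1f_Gpm M)).index = p + 1 := by
  have := g1ix_pretransitive M p hpM
  rw [← g1ix_stabilizer M p hpM, MulAction.index_stabilizer_of_transitive, g1ix_card_onePoint]

end Index

/-- **[I4](c)** the relative index of `g1f_G M (M p)` in `g1f_G M M` is `p + 1` (`p` prime,
`p ∤ M`). -/
theorem g1ix_index (M p : ℕ) (hp : p.Prime) (hpM : ¬ p ∣ M) :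
    ((g1f_G M (M * p)).subgroupOf (g1f_G M M)).index = p + 1 := by
  have : Fact p.Prime := ⟨hp⟩
  rw [g1f_G_self]
  exact g1ix_index_Gpm M p hpM

theorem g1ix_relIndex (M p : ℕ) (hp : p.Prime) (hpM : ¬ p ∣ M) :
    (g1f_G M (M * p)).relIndex (g1f_G M M) = p + 1 :=
  g1ix_index M p hp hpM

end Fermat.Agent.DS
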