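/-
DS-T / cell [G1], instance leaf: SMOOTHNESS OF THE GALOIS ACTION ON `Pic⁰(X(±Γ₁(M) ∩ Γ₀(N))_{Q̄})` AND
FINITENESS OF ITS TORSION (prefix `g1sm_`).

* `g1sm_funField`       : `rp_FunField Q̄ (g1f_Fbar M N)`;
* `g1sm_exists_fixing`  : every `x : g1f_J M N` is fixed by `Gal(Q̄/L)` for a finite `L / ℚ`
                          (twin of `egs_exists_fixing`, whose generic part is reused);
* `g1sm_finite_X`, `g1sm_finite_torsion` : the group of unramified characters of exponent `n` and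
                          `Pic⁰[n]` are finite (`n ≠ 0`);
* `g1sm_finiteLevel`    : ONE finite `L / ℚ` such that `Gal(Q̄/L)` fixes all of `Pic⁰[n]`;
* `g1sm_rho`, **`g1sm_rho_finiteLevel`** : the Galois representation
                          `Gal(Q̄/ℚ) →* End_{ℤ/n} (Pic⁰[n])` factors through a finite level.
-/
import Mathlib
import Fermat.Agent.DS.Gam1.InstSurj
import Fermat.Agent.DS.Gam1.Gen.Finite
import Fermat.Agent.JT3.ES.Smooth
import Fermat.Prelude.Def_GaloisRep_Residual

set_option autoImplicit false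
set_option linter.style.haveILetI false
set_option synthInstance.maxHeartbeats 200000
set_option maxHeartbeats 400000

open UpperHalfPlane CongruenceSubgroup
open scoped MatrixGroups IntermediateField Manifold

namespace Fermat.Agent.DS

open Fermat.Agent.S24 Fermat.Agent.S24.Br Fermat.Agent.JT3 ModularCurve AlgebraicCurve

local notation "Kbar" => AlgebraicClosure ℚ

variable {M N : ℕ} [NeZero N] (hM : M ≠ 1) (hMN : M ∣ N)

include hM hMN in
/-- the function field of `X(±Γ₁(M) ∩ Γ₀(N))` over `Q̄` is a function field in the sense of the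
place-map package -/
theorem g1sm_funField : rp_FunField Kbar (g1f_Fbar M N) :=
  rpf_funField (g1dd_isSepGen Kbar hM hMN)

include hM hMN in
/-- **Smoothness.**  Every point of `Pic⁰(X(±Γ₁(M) ∩ Γ₀(N)))(Q̄)` is fixed by `Gal(Q̄ / L)` for a
finite `L / ℚ`. -/
theorem g1sm_exists_fixing (x : g1f_J M N) :
    ∃ L : IntermediateField ℚ Kbar, FiniteDimensional ℚ L ∧
      ∀ σ : Kbar ≃ₐ[ℚ] Kbar, (∀ y ∈ L, σ y = y) → arithmeticGalois (g1f_F M N) σ • x = x := by
  rw [← egs_eventually_iff (p := fun σ => arithmeticGalois (g1f_F M N) σ • x = x)]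
  exact egs_pic0 (arithmeticGalois (g1f_F M N)) egs_filter
    (fun P => egs_place _ _ (g1sm_funField hM hMN) (egs_function (g1f_F M N))
      (g1dd_jF_transcendental Kbar (M := M) (N := N)) P) x

include hMN in
/-- the group of unramified characters of exponent `n` is finite -/
theorem g1sm_finite_X {n : ℕ} (hn : n ≠ 0) : Finite (g1g_X (g1f_G M N) n) := by
  haveI := g1q_finiteIndex_G M N hMN
  haveI := g1g_finite_char (g1f_G M N) hn
  let f : g1g_X (g1f_G M N) n → {χ : ↥(g1f_G M N) →* ℂˣ // χ ^ n = 1} :=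
    fun χ => ⟨χ.1, χ.2.1⟩
  refine Finite.of_injective f ?_
  intro χ χ' h
  have h1 : (f χ).1 = (f χ').1 := congrArg Subtype.val h
  exact Subtype.ext h1

include hM hMN in
/-- `Pic⁰[n]` is finite -/
theorem g1sm_finite_torsion {n : ℕ} (hn : n ≠ 0) :
    Finite (Pic0.torsion Kbar (g1f_Fbar M N) n) := by
  haveI := g1sm_finite_X (M := M) (N := N) hMN hn
  haveI : Finite (Additive (g1g_X (g1f_G M N) n)) :=
    Finite.of_equiv _ Additive.ofMul
  exact Finite.of_equiv _ (g1x_picEquiv hM hMN hn).symm.toEquiv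

include hM hMN in
/-- **finite level**: one finite `L / ℚ` such that `Gal(Q̄ / L)` fixes every point of `Pic⁰[n]` -/
theorem g1sm_finiteLevel {n : ℕ} (hn : n ≠ 0) :
    ∃ L : IntermediateField ℚ Kbar, FiniteDimensional ℚ L ∧
      ∀ σ : Kbar ≃ₐ[ℚ] Kbar, (∀ y ∈ L, σ y = y) →
        ∀ x ∈ Pic0.torsion Kbar (g1f_Fbar M N) n, arithmeticGalois (g1f_F M N) σ • x = x := by
  haveI := g1sm_finite_torsion hM hMN hn
  have h : ∀ᶠ σ in egs_filter, ∀ x : Pic0.torsion Kbar (g1f_Fbar M N) n,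
      arithmeticGalois (g1f_F M N) σ • (x : Pic0 Kbar (g1f_Fbar M N)) = x := by
    rw [Filter.eventually_all]
    intro x
    rw [egs_eventually_iff]
    exact g1sm_exists_fixing hM hMN (x : Pic0 Kbar (g1f_Fbar M N))
  rw [egs_eventually_iff] at h
  obtain ⟨L, hL, hσ⟩ := h
  exact ⟨L, hL, fun σ h x hx => hσ σ h ⟨x, hx⟩⟩

/-- the Galois representation on `Pic⁰[n]` -/
noncomputable def g1sm_rho (M N n : ℕ) :
    (Kbar ≃ₐ[ℚ] Kbar) →* Module.End (ZMod n) (Pic0.torsion Kbar (g1f_Fbar M N) n) :=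
  (SemilinearAut.torsionRep Kbar (g1f_Fbar M N) n).comp (arithmeticGalois (g1f_F M N))

theorem g1sm_rho_apply (M N n : ℕ) (σ : Kbar ≃ₐ[ℚ] Kbar)
    (x : Pic0.torsion Kbar (g1f_Fbar M N) n) :
    ((g1sm_rho M N n σ x : Pic0.torsion Kbar (g1f_Fbar M N) n) : Pic0 Kbar (g1f_Fbar M N)) =
      arithmeticGalois (g1f_F M N) σ • (x : Pic0 Kbar (g1f_Fbar M N)) := rfl

include hM hMN in
/-- **the Galois representation on `Pic⁰[n]` factors through a finite level** -/
theorem g1sm_rho_finiteLevel {n : ℕ} (hn : n ≠ 0) :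
    GaloisFactorsThroughFiniteLevel (g1sm_rho M N n) := by
  obtain ⟨L, hL, h⟩ := g1sm_finiteLevel hM hMN hn
  refine ⟨L, hL, fun σ hσ => ?_⟩
  apply LinearMap.ext
  intro x
  apply Subtype.ext
  rw [g1sm_rho_apply]
  exact h σ hσ x x.2

end Fermat.Agent.DS
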